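import Fermat.Agent.Curve.Duality

/-!
# Functions `j` with `j * x ^ p = P(x)`
-/

set_option autoImplicit false
set_option linter.style.haveILetI false
set_option linter.unusedSectionVars false

noncomputable section

namespace FA.CurveRed.Modular

open AlgebraicCurve FA.ModField FA.Curve Polynomial IntermediateField

variable {K F : Type*} [Field K] [Field F] [Algebra K F] [IsAlgClosed K]
  (hF : IsFunctionField K F) {x j : F} {P : K[X]} {p : ℕ}

include hF

/-- The degree over `K(j)`. -/
theorem finrank_of_relation (hx : Transcendental K x) (hj : Transcendental K j) (hP : P.Monic)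
    (hdeg : P.natDegree = p + 1) (hP0 : P.coeff 0 ≠ 0) (hrel : j * x ^ p = aeval x P) :
    Module.finrank K⟮j⟯ F = (p + 1) * Module.finrank K⟮x⟯ F := by
  have hP' : P ≠ 0 := hP.ne_zero
  have hx0 : x ≠ 0 := fun h => hx (by rw [h]; exact isAlgebraic_zero)
  have hj0 : j ≠ 0 := fun h => hj (by rw [h]; exact isAlgebraic_zero)
  have hPx : aeval x P ≠ 0 := fun h => hP' (transcendental_iff.1 hx _ h)
  have key : poleDiv hF j = poleDiv hF x + p • poleDiv hF x⁻¹ := by
    refine Finsupp.ext fun v => ?_
    rw [Finsupp.add_apply, Finsupp.smul_apply, poleDiv_apply, poleDiv_apply, poleDiv_apply,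
      v.ord_inv, nsmul_eq_mul]
    have h1 : v.ord j + p * v.ord x = v.ord (aeval x P) := by
      rw [← hrel, v.ord_mul hj0 (pow_ne_zero _ hx0), place_ord_pow]
    rcases lt_trichotomy (v.ord x) 0 with h | h | h
    · rw [ord_aeval_of_neg hF hx h hP', hdeg] at h1
      push_cast at h1
      rw [max_eq_right (by linarith), max_eq_right (by omega), max_eq_left (by omega)]
      linarith
    · have h2 : AtLeast v 0 (aeval x P) := by
        obtain ⟨c, hc⟩ := exists_hasValue hF (Or.inr h.ge : AtLeast v 0 x)
        exact (hc.aeval P).atLeast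
      have h3 := (atLeast_iff hPx).1 h2
      rw [h, mul_zero, add_zero] at h1
      rw [h]; simp; omega
    · have h2 := ((hasValue_zero_of_pos h).aeval P).ord_eq_zero (by
        rwa [← Polynomial.coeff_zero_eq_eval_zero])
      rw [h2.2] at h1
      rw [max_eq_right (by nlinarith), max_eq_left (by omega), max_eq_right (by omega)]
      simp
      linarith
  have h := congrArg Divisor.degree key
  rw [map_add, map_nsmul, degree_poleDiv hF hj, degree_poleDiv hF hx,
    degree_poleDiv hF (fun h => hx (by simpa using h.inv)), adjoin_inv_eq, nsmul_eq_mul] at h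
  have h' : (Module.finrank K⟮j⟯ F : ℤ) = ((p + 1) * Module.finrank K⟮x⟯ F : ℕ) := by
    rw [h]; push_cast; ring
  exact_mod_cast h'

/-- Ramification of `x` is bounded by that of `j`. -/
theorem ord_sub_le_one (hx : Transcendental K x) {v : Place K F} {c a : K} {e : ℕ} (he : 0 < e)
    (hc : HasValue v x c) (hc0 : c ≠ 0) (hdvd : (X - C c) ^ e ∣ P - C a * X ^ p)
    (hne : P - C a * X ^ p ≠ 0) (hrel : j * x ^ p = aeval x P)
    (hle : 0 < v.ord (j - algebraMap K F a) → v.ord (j - algebraMap K F a) ≤ e) :
    v.ord (x - algebraMap K F c) = 1 := by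
  obtain ⟨H, hH⟩ := hdvd
  have hxc : x - algebraMap K F c ≠ 0 := fun h0 =>
    hx (by rw [sub_eq_zero.1 h0]; exact isAlgebraic_algebraMap c)
  have hpos := (atLeast_iff hxc).1 hc
  have hx0 : x ≠ 0 := fun h => hx (by rw [h]; exact isAlgebraic_zero)
  have hG : (j - algebraMap K F a) * x ^ p = (x - algebraMap K F c) ^ e * aeval x H := by
    rw [sub_mul, hrel]
    have := congrArg (aeval x) hH
    simpa using this
  have hne' : aeval x (P - C a * X ^ p) ≠ 0 := fun h => hne (transcendental_iff.1 hx _ h)
  rw [hH, map_mul, map_pow] at hne'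
  simp only [map_sub, aeval_X, aeval_C] at hne'
  have hHne : aeval x H ≠ 0 := right_ne_zero_of_mul hne'
  have hHord := (atLeast_iff hHne).1 (hc.aeval H).atLeast
  have hja : j - algebraMap K F a ≠ 0 := fun h0 => hne' (by rw [← hG, h0, zero_mul])
  have h1 := congrArg v.ord hG
  rw [v.ord_mul hja (pow_ne_zero _ hx0), v.ord_mul (pow_ne_zero _ hxc) hHne, place_ord_pow,
    place_ord_pow, (hc.ord_eq_zero hc0).2, mul_zero, add_zero] at h1
  have h2 : (0 : ℤ) < v.ord (j - algebraMap K F a) := by
    rw [h1]
    have : (0 : ℤ) < (e : ℤ) * v.ord (x - algebraMap K F c) := mul_pos (by omega) (by omega)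
    omega
  have h3 := hle h2
  have he' : (0 : ℤ) < e := by exact_mod_cast he
  nlinarith

end FA.CurveRed.Modular
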