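import Fermat.Agent.CurveRed.ModularBase
import Fermat.Agent.CurveRed.Relation
import Fermat.Agent.CurveRed.Haupt.Function
import Fermat.Agent.ModField.Families
import Fermat.Agent.Level.Gamma0
import Fermat.Agent.Level.Interp

/-!
# The genus of `X₀(N)` does not drop modulo a prime not dividing `N`
-/

set_option autoImplicit false
set_option linter.style.haveILetI false
set_option linter.unusedSectionVars false
set_option synthInstance.maxHeartbeats 400000
set_option maxHeartbeats 1600000

noncomputable section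

namespace FA.CurveRed.Modular

open ModularCurve AlgebraicCurve FA.Curve FA.ModField IntermediateField Polynomial
  FA.CurveRed.Haupt
open scoped MatrixGroups

section Ram

variable {L : Type} [Field L] [Algebra L ℂ] [CharZero L] [IsAlgClosed L] (N : ℕ) [NeZero N]

omit [IsAlgClosed L] in
theorem ord_le_m {a : L} {ι : Type*} [Fintype ι]
    (E : EmbFamily L (modularFunctionFieldFullC L N) ℂ (jField L N)
      (jElem L N - algebraMap L (modularFunctionFieldFullC L N) a) ι) [IsAlgClosed L]
    (v : Place L (modularFunctionFieldFullC L N))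
    (hv : 0 < v.ord (jElem L N - algebraMap L (modularFunctionFieldFullC L N) a)) :
    v.ord (jElem L N - algebraMap L (modularFunctionFieldFullC L N) a) ≤ E.m := by
  obtain ⟨i, rfl⟩ := E.pl_surjective v hv
  rw [← E.ram_cast i]
  exact_mod_cast Nat.le_of_dvd E.hm ⟨_, ((mul_comm _ _).trans (E.scale_toNat_mul_ram i)).symm⟩

theorem ord_j_sub_le [DecidableEq L] (a : L)
    (v : Place L (modularFunctionFieldFullC L N))
    (hv : 0 < v.ord (jElem L N - algebraMap L (modularFunctionFieldFullC L N) a)) :
    v.ord (jElem L N - algebraMap L (modularFunctionFieldFullC L N) a) ≤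
      ((if a = 0 then 3 else if a = 1728 then 2 else 1 : ℕ) : ℤ) := by
  split_ifs with h0 h1
  · subst h0
    obtain ⟨g, hg⟩ : ∃ g : SL(2, ℤ), g = ModularGroup.S * ModularGroup.T := ⟨_, rfl⟩
    exact ord_le_m N (pointFam 0 rho (by rw [jfun_rho, map_zero]) g (hg ▸ ST_smul_rho) 3
      (by norm_num) order_jLocal_rho (rotUnit_rho hg)) v hv
  · subst h1
    exact ord_le_m N (pointFam 1728 UpperHalfPlane.I (by rw [jfun_I, map_ofNat]) ModularGroup.S
      S_smul_I 2 (by norm_num) order_jLocal_I rotUnit_I) v hv
  · obtain ⟨τ, hτ⟩ := exists_jfun_eq (algebraMap L ℂ a)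
    have hj0 : jfun τ ≠ 0 := by rw [hτ]; exact (_root_.map_ne_zero _).2 h0
    have hj1 : jfun τ ≠ 1728 := by
      rw [hτ, ← map_ofNat (algebraMap L ℂ) 1728]
      exact fun h => h1 ((algebraMap L ℂ).injective h)
    exact ord_le_m N (pointFam a τ hτ 1 (one_smul _ τ) 1 one_pos (order_jLocal_general hj0 hj1)
      (rotUnit_one τ)) v hv

end Ram

section Polys

/-- `j s² = (s + 256)³`. -/
def relPoly2 : ℤ[X] := (X + Polynomial.C 256) ^ 3

/-- `j s³ = (s + 27) (s + 243)³`. -/
def relPoly3 : ℤ[X] := (X + Polynomial.C 27) * (X + Polynomial.C 243) ^ 3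

theorem relPoly2_monic : relPoly2.Monic := (monic_X_add_C _).pow 3

theorem relPoly3_monic : relPoly3.Monic := (monic_X_add_C _).mul ((monic_X_add_C _).pow 3)

theorem relPoly2_natDegree : relPoly2.natDegree = 2 + 1 := by
  rw [relPoly2, (monic_X_add_C _).natDegree_pow, natDegree_X_add_C]

theorem relPoly3_natDegree : relPoly3.natDegree = 3 + 1 := by
  rw [relPoly3, (monic_X_add_C _).natDegree_mul ((monic_X_add_C _).pow 3), natDegree_X_add_C,
    (monic_X_add_C _).natDegree_pow, natDegree_X_add_C]

theorem relPoly2_coeff_zero : relPoly2.coeff 0 = (2 : ℤ) ^ 24 := by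
  rw [relPoly2, Polynomial.coeff_zero_eq_eval_zero]
  simp

theorem relPoly3_coeff_zero : relPoly3.coeff 0 = (3 : ℤ) ^ 18 := by
  rw [relPoly3, Polynomial.coeff_zero_eq_eval_zero]
  simp

theorem ordGE_relPoly2 : OrdGE 1 (jqModC ℂ * sSer ℂ haupt2 ^ 2 -
    (relPoly2.map (Int.castRingHom ℂ)).eval₂ HahnSeries.C (sSer ℂ haupt2)) := by
  rw [relPoly2]
  simp only [Polynomial.map_pow, Polynomial.map_add, Polynomial.map_X, Polynomial.map_C,
    eval₂_pow, eval₂_add, eval₂_X, eval₂_C]
  exact ordGE_identity_two

theorem ordGE_relPoly3 : OrdGE 1 (jqModC ℂ * sSer ℂ haupt3 ^ 3 -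
    (relPoly3.map (Int.castRingHom ℂ)).eval₂ HahnSeries.C (sSer ℂ haupt3)) := by
  rw [relPoly3]
  simp only [Polynomial.map_mul, Polynomial.map_pow, Polynomial.map_add, Polynomial.map_X,
    Polynomial.map_C, eval₂_mul, eval₂_pow, eval₂_add, eval₂_X, eval₂_C]
  exact ordGE_identity_three

variable {L : Type} [Field L]

theorem relPoly2_root0 (c : L) (_hc : c ≠ ((-64 : ℤ) : L))
    (h : (relPoly2.map (Int.castRingHom L)).eval c = 0) :
    (X - Polynomial.C c) ^ 3 ∣ relPoly2.map (Int.castRingHom L) := by
  simp only [relPoly2, Polynomial.map_pow, Polynomial.map_add, Polynomial.map_X,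
    Polynomial.map_C] at h ⊢
  rw [eval_pow, pow_eq_zero_iff three_ne_zero] at h
  exact pow_dvd_pow_of_dvd (Polynomial.dvd_iff_isRoot.2 h) 3

theorem relPoly3_root0 (c : L) (hc : c ≠ ((-27 : ℤ) : L))
    (h : (relPoly3.map (Int.castRingHom L)).eval c = 0) :
    (X - Polynomial.C c) ^ 3 ∣ relPoly3.map (Int.castRingHom L) := by
  simp only [relPoly3, Polynomial.map_mul, Polynomial.map_pow, Polynomial.map_add,
    Polynomial.map_X, Polynomial.map_C] at h ⊢
  rw [eval_mul, eval_pow, mul_eq_zero, pow_eq_zero_iff three_ne_zero] at h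
  rcases h with h | h
  · refine absurd ?_ hc
    simp only [eval_add, eval_X, eval_C, eq_intCast] at h
    rw [eq_neg_of_add_eq_zero_left h]
    push_cast
    ring
  · exact (pow_dvd_pow_of_dvd (Polynomial.dvd_iff_isRoot.2 h) 3).mul_left _

theorem relPoly2_root1 (c : L) (hc : c ≠ ((-64 : ℤ) : L))
    (h : (relPoly2.map (Int.castRingHom L) - Polynomial.C 1728 * X ^ 2).eval c = 0) :
    (X - Polynomial.C c) ^ 2 ∣ relPoly2.map (Int.castRingHom L) - Polynomial.C 1728 * X ^ 2 := by
  have hfac : relPoly2.map (Int.castRingHom L) - Polynomial.C 1728 * X ^ 2 =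
      (X + Polynomial.C 64) * (X - Polynomial.C 512) ^ 2 := by
    simp only [relPoly2, Polynomial.map_pow, Polynomial.map_add, Polynomial.map_X,
      map_ofNat, Polynomial.map_ofNat]
    ring
  rw [hfac] at h ⊢
  rw [eval_mul, eval_pow, mul_eq_zero, pow_eq_zero_iff two_ne_zero] at h
  rcases h with h | h
  · refine absurd ?_ hc
    simp only [eval_add, eval_X, eval_C] at h
    rw [eq_neg_of_add_eq_zero_left h]
    push_cast
    ring
  · exact (pow_dvd_pow_of_dvd (Polynomial.dvd_iff_isRoot.2 h) 2).mul_left _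

theorem relPoly3_root1 (c : L) (_hc : c ≠ ((-27 : ℤ) : L))
    (h : (relPoly3.map (Int.castRingHom L) - Polynomial.C 1728 * X ^ 3).eval c = 0) :
    (X - Polynomial.C c) ^ 2 ∣ relPoly3.map (Int.castRingHom L) - Polynomial.C 1728 * X ^ 3 := by
  have hfac : relPoly3.map (Int.castRingHom L) - Polynomial.C 1728 * X ^ 3 =
      (X ^ 2 - Polynomial.C 486 * X - Polynomial.C 19683) ^ 2 := by
    simp only [relPoly3, Polynomial.map_mul, Polynomial.map_pow, Polynomial.map_add,
      Polynomial.map_X, map_ofNat, Polynomial.map_ofNat]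
    ring
  rw [hfac] at h ⊢
  rw [eval_pow, pow_eq_zero_iff two_ne_zero] at h
  exact pow_dvd_pow_of_dvd (Polynomial.dvd_iff_isRoot.2 h) 2

end Polys

section Main

variable {L : Type} [Field L] [CharZero L] [Algebra L ℂ] [IsAlgClosed L] {k : Type} [Field k]
  [IsAlgClosed k] {A : ValuationSubring L} {π : A →+* k}
  (hπs : Function.Surjective π) (hπ0 : ∀ a : A, π a = 0 ↔ A.valuation a < 1)

theorem eval_series {R : Type} [Field R] {N : ℕ} [NeZero N] (P : ℤ[X])
    (x : modularFunctionFieldFullC R N) {s : LaurentSeries R} (hx : (x : LaurentSeries R) = s) :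
    ((aeval x (P.map (Int.castRingHom R)) : modularFunctionFieldFullC R N) : LaurentSeries R) =
      (P.map (Int.castRingHom R)).eval₂ HahnSeries.C s := by
  rw [← hx, ← IntermediateField.coe_val, ← Polynomial.aeval_algHom_apply, aeval_def]
  congr 1
  exact RingHom.ext fun r => by
    rw [algebraMap_laurentSeries_eq_single, ← HahnSeries.C_apply]

theorem transcendental_series {R : Type} [Field R] [IsAlgClosed R] {N : ℕ} [NeZero N]
    (x : modularFunctionFieldFullC R N) (h : (x : LaurentSeries R).coeff (-1) = 1) :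
    Transcendental R x := by
  refine transcendental_of_not_const fun c hc => ?_
  have h1 : (x : LaurentSeries R) = algebraMap R (LaurentSeries R) c := congrArg Subtype.val hc
  rw [h1, algebraMap_laurentSeries_eq_single, HahnSeries.coeff_single_of_ne (by norm_num)] at h
  exact zero_ne_one h

include hπs hπ0

/-- The genus bound at a level with a Hauptmodul relation. -/
theorem genus_le_of_haupt (p M : ℕ) [NeZero p] [NeZero M] (hpM : p ∣ M)
    (hk : ∀ r : ℕ, r.Prime → r ∣ M → (r : k) ≠ 0) {S : PowerSeries ℤ}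
    (hS : PowerSeries.constantCoeff S = 1) (hmem : sSer L S ∈ modularFunctionFieldFullC L p)
    (P : ℤ[X]) (hrel : ∀ (R : Type) [CommRing R],
      jqModC R * sSer R S ^ p = (P.map (Int.castRingHom R)).eval₂ HahnSeries.C (sSer R S))
    (hPm : P.Monic) (hPd : P.natDegree = p + 1) (hP0 : (P.coeff 0 : k) ≠ 0) (b : ℤ)
    (hb : (b : k) ≠ 0)
    (hroot0 : ∀ c : L, c ≠ b → (P.map (Int.castRingHom L)).eval c = 0 →
      (X - Polynomial.C c) ^ 3 ∣ P.map (Int.castRingHom L))
    (hroot1 : ∀ c : L, c ≠ b →
      (P.map (Int.castRingHom L) - Polynomial.C 1728 * X ^ p).eval c = 0 →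
      (X - Polynomial.C c) ^ 2 ∣ P.map (Int.castRingHom L) - Polynomial.C 1728 * X ^ p) :
    genus L (modularFunctionFieldFullC L M) ≤ genus k (modularFunctionFieldFullC k M) := by
  classical
  have hFM := isFunctionField_fullC L M
  have hkM := isFunctionField_fullC k M
  have hup : sSer L S ∈ modularFunctionFieldFullC L M := full_degeneracyC_le L hpM hmem
  have hdown : sSer k S ∈ modularFunctionFieldFullC k M := by
    have h := mem_down (hπs := hπs) (hπ0 := hπ0) hk (sSer A S) (by rwa [coeffMap_sSer])
    rwa [coeffMap_sSer] at h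
  set x : modularFunctionFieldFullC L M := ⟨_, hup⟩
  set xb : modularFunctionFieldFullC k M := ⟨_, hdown⟩
  have hx : Transcendental L x := transcendental_series x (sSer_coeff_neg_one hS)
  have hxb : Transcendental k xb := transcendental_series xb (sSer_coeff_neg_one hS)
  have hr : (redN A π M hπs hπ0).Red x xb :=
    red_series (sSer A S) (coeffMap_sSer _ S) (coeffMap_sSer π S)
  have hrelL : jElem L M * x ^ p = aeval x (P.map (Int.castRingHom L)) := by
    apply Subtype.ext
    rw [eval_series P x rfl]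
    exact hrel L
  have hrelk : jBar k M * xb ^ p = aeval xb (P.map (Int.castRingHom k)) := by
    apply Subtype.ext
    rw [eval_series P xb rfl]
    exact hrel k
  have hP0L : (P.map (Int.castRingHom L)).coeff 0 ≠ 0 := by
    rw [coeff_map, eq_intCast, Int.cast_ne_zero]
    intro h
    rw [h, Int.cast_zero] at hP0
    exact hP0 rfl
  have hchart : (redN A π M hπs hπ0).Chart x xb := by
    refine ⟨hr, hxb, ?_, gen_eq_top⟩
    have h1 := finrank_of_relation hFM hx jElem_transcendental (hPm.map _)
      (by rw [hPm.natDegree_map, hPd]) hP0L hrelL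
    have h2 := finrank_of_relation hkM hxb (jBar_transcendental k M) (hPm.map _)
      (by rw [hPm.natDegree_map, hPd]) (by rwa [coeff_map]) hrelk
    have h3 := psi_le_finrank (N := M) hk
    rw [finrank_up] at h1
    rw [h2, h1] at h3
    exact Nat.le_of_mul_le_mul_left h3 (Nat.succ_pos p)
  haveI := isSeparable_up x hx
  haveI := isSeparable_down xb hxb (theta_ne_zero_of_coeff (sSer_coeff_neg_one hS))
  have hb0 : (b : A) ≠ 0 := fun h => hb (by rw [← map_intCast π, h, map_zero])
  refine hchart.genus_le_of_branch hFM hkM {0, (b : A)}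
    (by rw [Finset.card_pair hb0.symm]) ?_ ?_
  · intro u hu w hw huw
    have hπC : (redN A π M hπs hπ0).π = π := rfl
    rw [hπC] at huw
    simp only [Finset.coe_insert, Finset.coe_singleton, Set.mem_insert_iff,
      Set.mem_singleton_iff] at hu hw
    rcases hu with rfl | rfl <;> rcases hw with rfl | rfl
    · rfl
    · rw [map_zero, map_intCast] at huw; exact absurd huw.symm hb
    · rw [map_zero, map_intCast] at huw; exact absurd huw hb
    · rfl
  · intro v c hc hord
    by_contra hno
    push Not at hno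
    have hc0 : c ≠ 0 := by simpa using hno 0 (Finset.mem_insert_self _ _)
    have hcb : c ≠ (b : L) := by
      simpa using hno (b : A) (Finset.mem_insert_of_mem (Finset.mem_singleton_self _))
    set a := (P.map (Int.castRingHom L)).eval c / c ^ p with ha
    set e : ℕ := if a = 0 then 3 else if a = 1728 then 2 else 1 with he
    have hne : P.map (Int.castRingHom L) - Polynomial.C a * X ^ p ≠ 0 := by
      intro h
      have h1 := congrArg (fun q : L[X] => q.coeff (p + 1)) h
      simp only [Polynomial.coeff_sub, coeff_C_mul, coeff_X_pow, coeff_map, Polynomial.coeff_zero] at h1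
      rw [← hPd, hPm.coeff_natDegree, map_one, if_neg (by omega)] at h1
      simp at h1
    have hzero : (P.map (Int.castRingHom L) - Polynomial.C a * X ^ p).eval c = 0 := by
      simp [ha, div_mul_cancel₀ _ (pow_ne_zero p hc0)]
    have hdvd : (X - Polynomial.C c) ^ e ∣
        P.map (Int.castRingHom L) - Polynomial.C a * X ^ p := by
      rw [he]
      split_ifs with h0 h1
      · rw [h0, map_zero, zero_mul, sub_zero] at hzero ⊢
        exact hroot0 c hcb hzero
      · rw [h1] at hzero ⊢
        exact hroot1 c hcb hzero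
      · rw [pow_one]
        exact Polynomial.dvd_iff_isRoot.2 hzero
    refine hord (ord_sub_le_one hFM hx (e := e) ?_ hc hc0 hdvd hne hrelL (ord_j_sub_le M a v))
    rw [he]
    split_ifs <;> norm_num

theorem genus_le_of_dvd (N M : ℕ) [NeZero N] [NeZero M] (hNM : N ∣ M)
    (hk : ∀ r : ℕ, r.Prime → r ∣ M → (r : k) ≠ 0)
    (hg : genus L (modularFunctionFieldFullC L M) ≤ genus k (modularFunctionFieldFullC k M)) :
    genus L (modularFunctionFieldFullC L N) ≤ genus k (modularFunctionFieldFullC k N) := by
  have hiL := full_degeneracyC_le L hNM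
  have hik := full_degeneracyC_le k hNM
  letI : Algebra (modularFunctionFieldFullC L N) (modularFunctionFieldFullC L M) :=
    (IntermediateField.inclusion hiL).toRingHom.toAlgebra
  letI : Algebra (modularFunctionFieldFullC k N) (modularFunctionFieldFullC k M) :=
    (IntermediateField.inclusion hik).toRingHom.toAlgebra
  haveI : IsScalarTower L (modularFunctionFieldFullC L N) (modularFunctionFieldFullC L M) :=
    IsScalarTower.of_algebraMap_eq fun a =>
      ((IntermediateField.inclusion hiL).commutes a).symm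
  haveI : IsScalarTower k (modularFunctionFieldFullC k N) (modularFunctionFieldFullC k M) :=
    IsScalarTower.of_algebraMap_eq fun a =>
      ((IntermediateField.inclusion hik).commutes a).symm
  have hkN : ∀ r : ℕ, r.Prime → r ∣ N → (r : k) ≠ 0 := fun r hr h => hk r hr (h.trans hNM)
  have hc : ConstRed.Compat (redN A π N hπs hπ0) (redN A π M hπs hπ0) := by
    intro f r hfr
    rw [redN, constRedOfQuot_red] at hfr ⊢
    obtain ⟨a, b, hvb, hu, hv⟩ := hfr
    have hmem : ∀ y : intRing A π N, (y : LaurentSeries A) ∈ intRing A π M := fun y =>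
      ⟨hiL y.2.1, hik y.2.2⟩
    refine ⟨⟨a, hmem a⟩, ⟨b, hmem b⟩, fun h => hvb
      (Subtype.ext (show coeffMap π (b : LaurentSeries A) = 0 from congrArg Subtype.val h)),
      Subtype.ext ?_, Subtype.ext ?_⟩
    · exact congrArg (fun z : modularFunctionFieldFullC L N => (z : LaurentSeries L)) hu
    · exact congrArg (fun z : modularFunctionFieldFullC k N => (z : LaurentSeries k)) hv
  have hFN := isFunctionField_fullC L N
  have hkN' := isFunctionField_fullC k N
  haveI := FA.Curve.module_finite hkN' (isFunctionField_fullC k M)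
  haveI := isSeparable_up (jElem L N) jElem_transcendental
  have hθ : thetaFun (jqModC k) ≠ 0 := theta_ne_zero_of_coeff jqModC_coeff_neg_one
  haveI := isSeparable_down (jBar k N) (jBar_transcendental k N) hθ
  haveI hsepM := isSeparable_down (jBar k M) (jBar_transcendental k M) hθ
  haveI : Algebra.IsSeparable (modularFunctionFieldFullC k N) (modularFunctionFieldFullC k M) := by
    have hmap : (k⟮jBar k N⟯).map (IsScalarTower.toAlgHom k (modularFunctionFieldFullC k N)
        (modularFunctionFieldFullC k M)) = k⟮jBar k M⟯ := by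
      rw [IntermediateField.adjoin_map, Set.image_singleton]
      rfl
    let e : k⟮jBar k N⟯ ≃ₐ[k] k⟮jBar k M⟯ :=
      (k⟮jBar k N⟯.equivMap _).trans (IntermediateField.equivOfEq hmap)
    haveI : Algebra.IsSeparable k⟮jBar k N⟯ (modularFunctionFieldFullC k M) :=
      Algebra.IsSeparable.of_equiv_equiv e.symm.toRingEquiv
        (RingEquiv.refl (modularFunctionFieldFullC k M)) (RingHom.ext fun z => by
          obtain ⟨z, rfl⟩ := e.surjective z
          simp only [RingHom.comp_apply, AlgEquiv.coe_ringEquiv, RingEquiv.coe_toRingHom,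
            e.symm_apply_apply]
          rfl)
    exact Algebra.isSeparable_tower_top_of_isSeparable k⟮jBar k N⟯
      (modularFunctionFieldFullC k N) (modularFunctionFieldFullC k M)
  have htr : ∃ u, Algebra.trace (modularFunctionFieldFullC k N)
      (modularFunctionFieldFullC k M) u ≠ 0 := by
    obtain ⟨u, hu⟩ := Algebra.trace_surjective (modularFunctionFieldFullC k N)
      (modularFunctionFieldFullC k M) 1
    exact ⟨u, by rw [hu]; exact one_ne_zero⟩
  exact ConstRed.genus_le_of_cover hFN (isFunctionField_fullC L M) hkN' (isFunctionField_fullC k M)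
    hc (chartJ hkN) (chartJ hk) htr hg

theorem natCast_ne_zero_of_dvd_mul {N p : ℕ} (hN : ∀ r : ℕ, r.Prime → r ∣ N → (r : k) ≠ 0)
    (hp : p.Prime) (hpk : (p : k) ≠ 0) :
    ∀ r : ℕ, r.Prime → r ∣ N * p → (r : k) ≠ 0 := fun r hr h => by
  rcases hr.dvd_mul.1 h with h' | h'
  · exact hN r hr h'
  · rwa [(Nat.prime_dvd_prime_iff_eq hr hp).1 h']

/-- Good reduction: the genus does not drop. -/
theorem genus_le (N : ℕ) [NeZero N] (hN : ∀ r : ℕ, r.Prime → r ∣ N → (r : k) ≠ 0) :
    genus L (modularFunctionFieldFullC L N) ≤ genus k (modularFunctionFieldFullC k N) := by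
  letI : Algebra ℚ L := DivisionRing.toRatAlgebra
  have hmem : ∀ {p : ℕ} [NeZero p] {s : UpperHalfPlane → ℂ} {S : PowerSeries ℤ},
      s ∈ modFuns p → HasExp (qp 1) s (sSer ℂ S) → sSer L S ∈ modularFunctionFieldFullC L p := by
    intro p _ s S hs hexp
    rw [← FA.Level.lvlGamma0_fld p L]
    exact (FA.Level.lvlGamma0 p).mem_fld_of_modFuns (R := s) hs _ (by rwa [coeffMap_sSer])
  by_cases h2 : (2 : k) = 0
  · haveI : Fact (Nat.Prime 3) := ⟨Nat.prime_three⟩
    have h3 : (3 : k) ≠ 0 := fun h => one_ne_zero (by linear_combination h - h2 : (1 : k) = 0)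
    have hk := natCast_ne_zero_of_dvd_mul hπs hπ0 hN Nat.prime_three (by exact_mod_cast h3)
    refine genus_le_of_dvd hπs hπ0 N (N * 3) (dvd_mul_right _ _) hk
      (genus_le_of_haupt hπs hπ0 3 (N * 3) (dvd_mul_left _ _) hk constantCoeff_haupt3
        (hmem isHaupt_three.mem isHaupt_three.exp) relPoly3
        (isHaupt_three.relation relPoly3 ordGE_relPoly3) relPoly3_monic relPoly3_natDegree ?_
        (-27) ?_ (fun c => relPoly3_root0 c) (fun c => relPoly3_root1 c))
    · rw [relPoly3_coeff_zero, Int.cast_pow, Int.cast_ofNat]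
      exact pow_ne_zero _ h3
    · rw [show (((-27 : ℤ)) : k) = -(3 : k) ^ 3 by norm_num]
      exact neg_ne_zero.2 (pow_ne_zero _ h3)
  · haveI : Fact (Nat.Prime 2) := ⟨Nat.prime_two⟩
    have hk := natCast_ne_zero_of_dvd_mul hπs hπ0 hN Nat.prime_two (by exact_mod_cast h2)
    refine genus_le_of_dvd hπs hπ0 N (N * 2) (dvd_mul_right _ _) hk
      (genus_le_of_haupt hπs hπ0 2 (N * 2) (dvd_mul_left _ _) hk constantCoeff_haupt2
        (hmem isHaupt_two.mem isHaupt_two.exp) relPoly2
        (isHaupt_two.relation relPoly2 ordGE_relPoly2) relPoly2_monic relPoly2_natDegree ?_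
        (-64) ?_ (fun c => relPoly2_root0 c) (fun c => relPoly2_root1 c))
    · rw [relPoly2_coeff_zero, Int.cast_pow, Int.cast_ofNat]
      exact pow_ne_zero _ h2
    · rw [show (((-64 : ℤ)) : k) = -(2 : k) ^ 6 by norm_num]
      exact neg_ne_zero.2 (pow_ne_zero _ h2)

end Main

end FA.CurveRed.Modular
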