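import Mathlib
import Fermat.Prelude.Def_FLTPrelim_Ramification

/-!
# Residue fields of valuation rings of algebraically closed fields
-/

set_option autoImplicit false

noncomputable section

namespace FA.CurveRed

open Polynomial

variable {L : Type*} [Field L] (A : ValuationSubring L)

theorem isAlgClosed_residueField [IsAlgClosed L] : IsAlgClosed (IsLocalRing.ResidueField A) := by
  refine IsAlgClosed.of_exists_root _ fun p hp hirr => ?_
  have hl : p ∈ lifts (IsLocalRing.residue A) := fun_lifts p
  obtain ⟨P, hP, hdeg, hPm⟩ := lifts_and_degree_eq_and_monic hl hp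
  have hne : (P.map (algebraMap A L)).degree ≠ 0 := by
    rw [hPm.degree_map, hdeg]
    exact (degree_pos_of_irreducible hirr).ne'
  obtain ⟨z, hz⟩ := IsAlgClosed.exists_root _ hne
  have hzA : IsIntegral A z := ⟨P, hPm, by rw [← eval_map]; exact hz⟩
  obtain ⟨w, rfl⟩ := IsIntegrallyClosed.isIntegral_iff.1 hzA
  refine ⟨IsLocalRing.residue A w, ?_⟩
  rw [IsRoot, eval_map, eval₂_at_apply, map_eq_zero_iff _ (IsFractionRing.injective A L)] at hz
  show Polynomial.eval _ p = 0
  rw [← hP, eval_map, eval₂_at_apply, hz, map_zero]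
where
  fun_lifts (p : (IsLocalRing.ResidueField A)[X]) : p ∈ lifts (IsLocalRing.residue A) := by
    rw [lifts_iff_coeff_lifts]
    exact fun n => IsLocalRing.residue_surjective _

theorem residue_eq_zero_iff (a : A) : IsLocalRing.residue A a = 0 ↔ A.valuation a < 1 := by
  rw [IsLocalRing.residue_eq_zero_iff, ← A.valuation_lt_one_iff]

theorem valuation_natCast_eq_one {ℓ m : ℕ} (hℓ : ℓ.Prime) (hA : A.LiesOverPrime ℓ) (hm : ¬ ℓ ∣ m) :
    A.valuation (m : L) = 1 := by
  have hℓ0 : IsLocalRing.residue A (ℓ : A) = 0 := by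
    rw [residue_eq_zero_iff]
    exact_mod_cast (A.mem_nonunits_iff).1 hA
  have hm0 : IsLocalRing.residue A (m : A) ≠ 0 := by
    intro h0
    have hcop : IsCoprime (ℓ : ℤ) (m : ℤ) :=
      Int.isCoprime_iff_nat_coprime.2 (by simpa using (hℓ.coprime_iff_not_dvd).2 hm)
    obtain ⟨u, v, huv⟩ := hcop
    have := congrArg (Int.cast : ℤ → IsLocalRing.ResidueField A) huv
    push_cast at this
    rw [← map_natCast (IsLocalRing.residue A), ← map_natCast (IsLocalRing.residue A), hℓ0, h0,
      mul_zero, mul_zero, add_zero] at this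
    exact zero_ne_one this
  have hle : A.valuation (m : L) ≤ 1 := (A.valuation_le_one_iff _).2 (natCast_mem A m)
  exact le_antisymm hle (not_lt.1 fun h => hm0 ((residue_eq_zero_iff A _).2 (by exact_mod_cast h)))

theorem natCast_residue_ne_zero {ℓ r : ℕ} (hℓ : ℓ.Prime) (hA : A.LiesOverPrime ℓ)
    (hr : ¬ ℓ ∣ r) : (r : IsLocalRing.ResidueField A) ≠ 0 := by
  intro h
  rw [← map_natCast (IsLocalRing.residue A), residue_eq_zero_iff] at h
  have h1 := valuation_natCast_eq_one A hℓ hA hr
  exact h.ne (by exact_mod_cast h1)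

end FA.CurveRed
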