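import Fermat.Agent.CurveRed.Spl
import Fermat.Agent.CurveRed.Modular
import Fermat.Agent.CurveRed.Residue
import Fermat.Agent.ModField.Bar
import Fermat.Prelude.Def_ModularCurve_ReductionModL

/-!
# Good reduction of `X₀(N)` at primes not dividing `N`
-/

set_option autoImplicit false
set_option linter.style.haveILetI false
set_option linter.unusedSectionVars false
set_option synthInstance.maxHeartbeats 400000
set_option maxHeartbeats 1600000

noncomputable section

namespace FA.CurveRed.Modular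

open ModularCurve AlgebraicCurve FA.Curve FA.ModField IntermediateField

variable {L : Type} [Field L] [CharZero L] [Algebra L ℂ] [IsAlgClosed L] {k : Type} [Field k]
  [IsAlgClosed k] {A : ValuationSubring L} {π : A →+* k}
  (hπs : Function.Surjective π) (hπ0 : ∀ a : A, π a = 0 ↔ A.valuation a < 1)

include hπs hπ0

theorem exists_placeReduction (N : ℕ) [NeZero N] (hN : ∀ r : ℕ, r.Prime → r ∣ N → (r : k) ≠ 0)
    (E : IntermediateField L (LaurentSeries L)) (hE : E = modularFunctionFieldFullC L N) :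
    ∃ r : Place L E → Place k (modularFunctionFieldFullC k N), (∀ P, (r P).deg = P.deg) ∧
      (∀ (y : LaurentSeries A) (hy : coeffMap A.subtype y ∈ E)
        (hyk : coeffMap π y ∈ modularFunctionFieldFullC k N), coeffMap π y ≠ 0 →
        ∀ D : Divisor L E, (∀ P, D P = P.ord (⟨coeffMap A.subtype y, hy⟩ : E)) →
          ∀ Q, Finsupp.mapDomain r D Q =
            Q.ord (⟨coeffMap π y, hyk⟩ : modularFunctionFieldFullC k N)) ∧
      ∀ (f : E), f ≠ 0 → ∀ D : Divisor L E, (∀ P, D P = P.ord f) →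
        D ∈ AddSubgroup.closure {D : Divisor L E | ∃ (y : LaurentSeries A)
          (hy : coeffMap A.subtype y ∈ E), coeffMap π y ∈ modularFunctionFieldFullC k N ∧
            coeffMap π y ≠ 0 ∧ ∀ P, D P = P.ord (⟨coeffMap A.subtype y, hy⟩ : E)} := by
  classical
  subst hE
  have hF := isFunctionField_fullC L N
  have hk := isFunctionField_fullC k N
  have h := chartJ (L := L) (A := A) (π := π) (hπs := hπs) (hπ0 := hπ0) hN
  obtain ⟨σ, hσ⟩ := h.exists_spl hF hk (genus_le hπs hπ0 N hN)
  refine ⟨σ, fun P => by rw [hF.deg_eq_one, hk.deg_eq_one],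
    fun y hy hyk hne D hD => hσ _ _ (red_series y rfl rfl) (fun h0 => hne (congrArg Subtype.val h0))
      D hD, fun f hf D hD => ?_⟩
  obtain ⟨c, g, r, hfg, hg, hr⟩ := h.scaled hF hk f trivial hf
  have hg0 := hg.ne_zero hr
  have hc0 : c ≠ 0 := fun h0 => hf (by rw [hfg, h0, map_zero, zero_mul])
  rw [redN, constRedOfQuot_red] at hg
  obtain ⟨a, b, hvb, hu, hv⟩ := hg
  have hva : downEval A π N a ≠ 0 := hv ▸ mul_ne_zero hr hvb
  have hub : upEval A π N b ≠ 0 := u_ne_zero (upEval_injective A π N) hvb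
  have hD' : D = divOf hF (upEval A π N a) - divOf hF (upEval A π N b) := Finsupp.ext fun P => by
    rw [hD P, hfg, Finsupp.sub_apply, divOf_apply, divOf_apply, ← hu, P.ord_mul hg0 hub,
      P.ord_mul ((_root_.map_ne_zero _).2 hc0) hg0, place_ord_algebraMap]
    ring
  rw [hD']
  refine sub_mem (AddSubgroup.subset_closure ?_) (AddSubgroup.subset_closure ?_)
  · exact ⟨(a : LaurentSeries A), a.2.1, a.2.2, fun h0 => hva (Subtype.ext h0),
      fun P => divOf_apply hF _ P⟩
  · exact ⟨(b : LaurentSeries A), b.2.1, b.2.2, fun h0 => hvb (Subtype.ext h0),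
      fun P => divOf_apply hF _ P⟩

/-- The reduction data of `X₀(N)`. -/
theorem reductionInputsAlong [Algebra ℚ L] (N : ℕ) [NeZero N]
    (hN : ∀ r : ℕ, r.Prime → r ∣ N → (r : k) ≠ 0) : ReductionInputsAlong A π N := by
  obtain ⟨r, hdeg, hdiv, hgen⟩ := exists_placeReduction hπs hπ0 N hN
    (laurentBaseChange L (modularFunctionFieldFull N)) (laurentBaseChange_full L N)
  refine ⟨r, ⟨hdeg, hdiv⟩, ?_⟩
  rintro D ⟨f, hf, hD⟩
  exact hgen f hf D hD

omit hπs hπ0

/-- Good reduction modulo every prime not dividing the level. -/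
theorem reductionInputsModL (N : ℕ) [NeZero N] {ℓ : ℕ} (hℓ : ℓ.Prime) (hℓN : ¬ ℓ ∣ N)
    (A : ValuationSubring (AlgebraicClosure ℚ)) (hA : A.LiesOverPrime ℓ) :
    ReductionInputsModL A N ∧
      FA.Curve.genus (AlgebraicClosure ℚ) (modularFunctionFieldBar N) ≤
        FA.Curve.genus (IsLocalRing.ResidueField A)
          (modularFunctionFieldFullC (IsLocalRing.ResidueField A) N) := by
  haveI : Algebra.IsAlgebraic ℚ (AlgebraicClosure ℚ) := AlgebraicClosure.isAlgebraic ℚ
  letI : Algebra (AlgebraicClosure ℚ) ℂ :=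
    (IsAlgClosed.lift : AlgebraicClosure ℚ →ₐ[ℚ] ℂ).toRingHom.toAlgebra
  haveI := FA.CurveRed.isAlgClosed_residueField A
  have hk : ∀ r : ℕ, r.Prime → r ∣ N → (r : IsLocalRing.ResidueField A) ≠ 0 := fun r hr hrN =>
    FA.CurveRed.natCast_residue_ne_zero A hℓ hA fun hd =>
      hℓN ((Nat.prime_dvd_prime_iff_eq hℓ hr).1 hd ▸ hrN)
  refine ⟨reductionInputsAlong IsLocalRing.residue_surjective (FA.CurveRed.residue_eq_zero_iff A)
    N hk, ?_⟩
  rw [modularFunctionFieldBar_eq]
  exact genus_le (A := A) IsLocalRing.residue_surjective (FA.CurveRed.residue_eq_zero_iff A) N hk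

end FA.CurveRed.Modular
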