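import Fermat.Agent.ModField.Degree
import Fermat.Agent.Curve.Basic

/-!
# `modularFunctionFieldFullC k N` is a function field over any field `k`

The modular equations have primitive integral coefficient vectors, so they stay nontrivial over
every field.
-/

set_option autoImplicit false
set_option linter.style.haveILetI false
set_option synthInstance.maxHeartbeats 200000
set_option maxHeartbeats 1600000

noncomputable section

namespace FA.CurveRed

open ModularCurve IntermediateField Polynomial HahnSeries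

/-- An integral relation with primitive coefficients between `j` and `j(q^d)`, `d ∣ N`. -/
theorem exists_primitive_relation {N d : ℕ} [NeZero N] [NeZero d] (hd : d ∣ N) :
    ∃ (n m : ℕ) (e : Fin n × Fin m → ℤ), Finset.univ.gcd e = 1 ∧
      ∑ p, HahnSeries.C (e p) * (jqModC ℤ ^ (p.2 : ℕ) *
        qExpand ℤ d (jqModC ℤ) ^ (p.1 : ℕ)) = 0 := by
  classical
  obtain ⟨R, hRn, hR⟩ := FA.ModField.exists_monic_relation (L := ℚ) (N := N)
    ⟨_, Algebra.subset_adjoin (mem_divisorExpansionsC ℚ N hd)⟩
  set n := Nat.card (FA.Dim.Cos N)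
  set D := (Finset.range (n + 1)).sup fun k => (R k).natDegree
  set b : Fin (n + 1) × Fin (D + 1) → ℚ := fun p => (R p.1).coeff p.2 with hb
  have hrel : ∑ p, HahnSeries.C (b p) * (jqModC ℚ ^ (p.2 : ℕ) *
      qExpand ℚ d (jqModC ℚ) ^ (p.1 : ℕ)) = 0 := by
    refine Eq.trans ?_ hR
    rw [Fintype.sum_prod_type, ← Fin.sum_univ_eq_sum_range]
    refine Finset.sum_congr rfl fun k _ => ?_
    rw [Polynomial.aeval_eq_sum_range' (n := D + 1) (by
      have := Finset.le_sup (f := fun k => (R k).natDegree) (Finset.mem_range.2 k.2)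
      omega), ← Fin.sum_univ_eq_sum_range, Finset.sum_mul]
    refine Finset.sum_congr rfl fun i _ => ?_
    rw [Algebra.smul_def, algebraMap_laurentSeries_eq_single, ← HahnSeries.C_apply, hb]
    ring
  -- clear denominators
  set M : ℕ := ∏ p, (b p).den
  have hM : (M : ℚ) ≠ 0 := by
    exact_mod_cast Finset.prod_ne_zero_iff.2 fun p _ => (b p).den_nz
  set e : Fin (n + 1) × Fin (D + 1) → ℤ := fun p => (b p).num * ((M / (b p).den : ℕ) : ℤ)
  have he : ∀ p, ((e p : ℤ) : ℚ) = M * b p := by
    intro p
    have hdvd : (b p).den ∣ M := Finset.dvd_prod_of_mem _ (Finset.mem_univ p)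
    have hden : ((b p).den : ℚ) ≠ 0 := by exact_mod_cast (b p).den_nz
    simp only [e, Int.cast_mul, Int.cast_natCast, Nat.cast_div hdvd hden]
    rw [mul_div_left_comm, Rat.num_div_den]
  have htop : e (⟨n, Nat.lt_succ_self n⟩, 0) ≠ 0 := by
    intro h
    have := he (⟨n, Nat.lt_succ_self n⟩, 0)
    rw [h, Int.cast_zero] at this
    simp [hb, hRn] at this
    exact hM this.symm
  obtain ⟨g, hg, hgcd⟩ := Finset.univ.extract_gcd e Finset.univ_nonempty
  have hG : Finset.univ.gcd e ≠ 0 := fun h =>
    htop (Finset.gcd_eq_zero_iff.1 h _ (Finset.mem_univ _))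
  refine ⟨n + 1, D + 1, g, hgcd, ?_⟩
  -- compare after the injective map to `ℚ`
  have hinj : Function.Injective (coeffMap (Int.castRingHom ℚ)) := fun x y hxy => by
    ext k
    have := congrArg (fun s : LaurentSeries ℚ => s.coeff k) hxy
    simp only [coeffMap_coeff] at this
    exact Int.cast_injective this
  apply hinj
  rw [map_zero, map_sum]
  have hterm : ∀ p, coeffMap (Int.castRingHom ℚ) (HahnSeries.C (g p) * (jqModC ℤ ^ (p.2 : ℕ) *
      qExpand ℤ d (jqModC ℤ) ^ (p.1 : ℕ))) =
      HahnSeries.C ((M : ℚ) / ((Finset.univ.gcd e : ℤ) : ℚ)) *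
        (HahnSeries.C (b p) * (jqModC ℚ ^ (p.2 : ℕ) * qExpand ℚ d (jqModC ℚ) ^ (p.1 : ℕ))) := by
    intro p
    rw [map_mul, map_mul, map_pow, map_pow, coeffMap_jqModC, coeffMap_qExpand, coeffMap_jqModC,
      ← mul_assoc (HahnSeries.C ((M : ℚ) / _)), ← map_mul]
    congr 1
    rw [HahnSeries.C_apply, coeffMap_single, ← HahnSeries.C_apply]
    congr 1
    have := he p
    rw [hg p (Finset.mem_univ p), Int.cast_mul] at this
    have hG' : ((Finset.univ.gcd e : ℤ) : ℚ) ≠ 0 := Int.cast_ne_zero.2 hG
    rw [eq_intCast, div_mul_eq_mul_div, eq_div_iff hG', ← this]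
    ring
  rw [Finset.sum_congr rfl fun p _ => hterm p, ← Finset.mul_sum, hrel, mul_zero]

variable (k : Type*) [Field k] (N : ℕ) [NeZero N]

/-- `j` in the field over `k`. -/
def jBar : modularFunctionFieldFullC k N := ⟨jqModC k, jqModC_mem_full k N⟩

omit [NeZero N] in
theorem jBar_transcendental : Transcendental k (jBar k N) := fun h =>
  FA.ModField.jqModC_transcendental k (h.algHom (modularFunctionFieldFullC k N).val)

theorem isAlgebraic_qExpand {d : ℕ} [NeZero d] (hd : d ∣ N) :
    IsAlgebraic k⟮jBar k N⟯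
      (⟨qExpand k d (jqModC k), jqModCd_mem_full k N hd⟩ : modularFunctionFieldFullC k N) := by
  classical
  obtain ⟨n, m, e, hgcd, hrel⟩ := exists_primitive_relation (N := N) hd
  obtain ⟨p₀, hp₀⟩ : ∃ p, (e p : k) ≠ 0 := by
    by_contra hno
    push Not at hno
    have h1 : ((ringChar k : ℕ) : ℤ) ∣ Finset.univ.gcd e := Finset.dvd_gcd fun p _ =>
      (CharP.intCast_eq_zero_iff k (ringChar k) (e p)).1 (hno p)
    rw [hgcd] at h1
    have h2 : ringChar k = 1 := Nat.eq_one_of_dvd_one (by exact_mod_cast h1)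
    exact CharP.ringChar_ne_one h2
  set gen := IntermediateField.AdjoinSimple.gen k (jBar k N)
  set a : modularFunctionFieldFullC k N :=
    ⟨qExpand k d (jqModC k), jqModCd_mem_full k N hd⟩
  set c : Fin n → k[X] := fun i =>
    ∑ l : Fin m, Polynomial.C ((e (i, l) : ℤ) : k) * X ^ (l : ℕ) with hc
  set P : (k⟮jBar k N⟯)[X] := ∑ i : Fin n, Polynomial.C (aeval gen (c i)) * X ^ (i : ℕ) with hP
  refine ⟨P, fun h => ?_, ?_⟩
  · have h1 := congrArg (fun Q : (k⟮jBar k N⟯)[X] => Q.coeff (p₀.1 : ℕ)) h
    simp only [hP, finsetSum_coeff, coeff_C_mul_X_pow, Polynomial.coeff_zero] at h1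
    rw [Finset.sum_eq_single p₀.1
      (fun i _ hi => if_neg fun hh => hi (Fin.ext hh.symm))
      (fun hh => absurd (Finset.mem_univ _) hh), if_pos rfl] at h1
    have h1' : aeval (jBar k N) (c p₀.1) = 0 := by
      have := congrArg (fun y : k⟮jBar k N⟯ => (y : modularFunctionFieldFullC k N)) h1
      simpa [gen, IntermediateField.aeval_coe] using this
    have hc0 : c p₀.1 = 0 := transcendental_iff.1 (jBar_transcendental k N) _ h1'
    have h2 := congrArg (fun Q : k[X] => Q.coeff (p₀.2 : ℕ)) hc0
    simp only [hc, finsetSum_coeff, coeff_C_mul_X_pow, Polynomial.coeff_zero] at h2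
    rw [Finset.sum_eq_single p₀.2
      (fun i _ hi => if_neg fun hh => hi (Fin.ext hh.symm))
      (fun hh => absurd (Finset.mem_univ _) hh), if_pos rfl] at h2
    exact hp₀ h2
  · apply Subtype.ext
    rw [ZeroMemClass.coe_zero]
    have hk := congrArg (coeffMap (Int.castRingHom k)) hrel
    rw [map_sum, map_zero, Fintype.sum_prod_type] at hk
    refine Eq.trans ?_ hk
    simp only [hP, map_sum, map_mul, map_pow, aeval_C, aeval_X, AddSubmonoidClass.coe_finsetSum,
      MulMemClass.coe_mul, SubmonoidClass.coe_pow]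
    refine Finset.sum_congr rfl fun i _ => ?_
    rw [show ((algebraMap k⟮jBar k N⟯ (modularFunctionFieldFullC k N) (aeval gen (c i)) :
      modularFunctionFieldFullC k N) : LaurentSeries k) = aeval (jqModC k) (c i) from
      (Polynomial.aeval_algHom_apply
        ((modularFunctionFieldFullC k N).val.comp (k⟮jBar k N⟯).val) gen (c i)).symm]
    simp only [hc, map_sum, map_mul, map_pow, aeval_C, aeval_X, Finset.sum_mul]
    refine Finset.sum_congr rfl fun l _ => ?_
    rw [coeffMap_jqModC, coeffMap_qExpand, coeffMap_jqModC, HahnSeries.C_apply, coeffMap_single,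
      eq_intCast, algebraMap_laurentSeries_eq_single]
    show HahnSeries.single 0 ((e (i, l) : ℤ) : k) * jqModC k ^ (l : ℕ) *
      qExpand k d (jqModC k) ^ (i : ℕ) = _
    ring

theorem isFunctionField_fullC : FA.Curve.IsFunctionField k (modularFunctionFieldFullC k N) := by
  classical
  refine ⟨jBar k N, jBar_transcendental k N, ?_⟩
  set S : Set (modularFunctionFieldFullC k N) :=
    Subtype.val ⁻¹' divisorExpansionsC k N with hS
  have hfin : Finite S := by
    have hsub : divisorExpansionsC k N ⊆
        (fun d : ℕ => if h : d = 0 then (0 : LaurentSeries k) else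
          haveI : NeZero d := ⟨h⟩
          qExpand k d (jqModC k)) '' (N.divisors : Set ℕ) := by
      rintro x ⟨d, hne, hd, rfl⟩
      refine ⟨d, Finset.mem_coe.2 (Nat.mem_divisors.2 ⟨hd, NeZero.ne N⟩), ?_⟩
      simp only [dif_neg hne.out]
    exact Set.finite_coe_iff.2
      (((N.divisors.finite_toSet.image _).subset hsub).preimage Subtype.val_injective.injOn)
  have hint : ∀ x ∈ S, IsIntegral k⟮jBar k N⟯ x := by
    rintro ⟨x, hx⟩ ⟨d, hne, hd, rfl⟩
    haveI := hne
    exact (isAlgebraic_qExpand k N hd).isIntegral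
  haveI := IntermediateField.finiteDimensional_adjoin hint
  have htop : IntermediateField.adjoin k⟮jBar k N⟯ S = ⊤ := by
    rw [eq_top_iff]
    rintro ⟨x, hx⟩ -
    have hle : modularFunctionFieldFullC k N ≤
        ((IntermediateField.adjoin k⟮jBar k N⟯ S).restrictScalars k).map
          (modularFunctionFieldFullC k N).val := by
      refine IntermediateField.adjoin_le_iff.2 fun y hy => ?_
      exact ⟨⟨y, IntermediateField.subset_adjoin k _ hy⟩,
        IntermediateField.subset_adjoin _ S hy, rfl⟩
    obtain ⟨z, hz, hzx⟩ := hle hx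
    have : z = ⟨x, hx⟩ := Subtype.ext hzx
    subst this
    exact hz
  rw [htop] at this
  exact Module.Finite.equiv IntermediateField.topEquiv.toLinearEquiv

end FA.CurveRed
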