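import Fermat.Agent.Curve.Duality
import Fermat.Agent.ModField.Laurent

/-!
# Separability in fields of Laurent series

If `θ x ≠ 0` (`θ = q d/dq`) and the constants are perfect, every algebraic extension of `k(x)`
inside Laurent series is separable.
-/

set_option autoImplicit false
set_option linter.style.haveILetI false
set_option linter.unusedSectionVars false
set_option synthInstance.maxHeartbeats 400000
set_option maxHeartbeats 1600000

noncomputable section

namespace FA.CurveRed

open Polynomial IntermediateField HahnSeries FA.ModField ModularCurve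

variable {k : Type*} [Field k]

/-- `θ` as an additive map. -/
def thetaHom : LaurentSeries k →+ LaurentSeries k :=
  AddMonoidHom.mk' thetaFun thetaFun_add

theorem thetaHom_apply (f : LaurentSeries k) : thetaHom f = thetaFun f := rfl

theorem theta_zero : thetaFun (0 : LaurentSeries k) = 0 := map_zero (thetaHom (k := k))

theorem theta_one : thetaFun (1 : LaurentSeries k) = 0 := by
  rw [← map_one (HahnSeries.C : k →+* LaurentSeries k), thetaFun_C]

theorem algebraMap_eq_C (c : k) : algebraMap k (LaurentSeries k) c = HahnSeries.C c := by
  rw [algebraMap_laurentSeries_eq_single, HahnSeries.C_apply]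

theorem theta_const_mul (c : k) (f : LaurentSeries k) :
    thetaFun (algebraMap k (LaurentSeries k) c * f) =
      algebraMap k (LaurentSeries k) c * thetaFun f := by
  rw [algebraMap_eq_C, thetaFun_mul, thetaFun_C, zero_mul, add_zero]

theorem theta_aeval (x : LaurentSeries k) (p : k[X]) :
    thetaFun (aeval x p) = aeval x (derivative p) * thetaFun x := by
  induction p using Polynomial.induction_on' with
  | add p q hp hq => rw [map_add, thetaFun_add, hp, hq, map_add, map_add, add_mul]
  | monomial n c =>
    rw [aeval_monomial, theta_const_mul, derivative_monomial, aeval_monomial]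
    suffices h : thetaFun (x ^ n) = (n : LaurentSeries k) * x ^ (n - 1) * thetaFun x by
      rw [h, map_mul, map_natCast]; ring
    induction n with
    | zero =>
      rw [pow_zero, show (1 : LaurentSeries k) = HahnSeries.C (1 : k) from (map_one _).symm,
        thetaFun_C]
      simp
    | succ n ih =>
      rw [pow_succ, thetaFun_mul, ih]
      rcases n with - | n
      · simp
      · simp only [Nat.succ_sub_one, Nat.cast_succ, pow_succ]
        ring

theorem theta_aeval_mul_pow {R : LaurentSeries k} {p : ℕ} (hp : (p : k) = 0) (n : ℕ) :
    thetaFun (R ^ (p * n)) = 0 := by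
  have h := theta_aeval R (X ^ (p * n))
  rw [map_pow, aeval_X] at h
  rw [h, derivative_X_pow, Nat.cast_mul, hp, zero_mul, map_zero, zero_mul, map_zero, zero_mul]

variable [IsAlgClosed k]

/-- The separability criterion. -/
theorem isSeparable_of_theta (F : IntermediateField k (LaurentSeries k)) (x : F)
    (hθ : thetaFun (x : LaurentSeries k) ≠ 0) [Algebra.IsAlgebraic k⟮x⟯ F] :
    Algebra.IsSeparable k⟮x⟯ F := by
  classical
  obtain ⟨p, hp⟩ := CharP.exists k
  haveI := hp
  rcases CharP.char_is_prime_or_zero k p with hprime | rfl
  swap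
  · haveI := CharP.charP_to_charZero k
    haveI : CharZero k⟮x⟯ := charZero_of_injective_algebraMap (algebraMap k k⟮x⟯).injective
    infer_instance
  haveI := Fact.mk hprime
  haveI : CharP k⟮x⟯ p := charP_of_injective_algebraMap (algebraMap k k⟮x⟯).injective p
  haveI : CharP F p := charP_of_injective_algebraMap (algebraMap k F).injective p
  haveI : PerfectRing k p := PerfectField.toPerfectRing p
  have hx : Transcendental k x := FA.ModField.transcendental_of_not_const fun c hc => by
    apply hθ
    rw [hc, show ((algebraMap k F c : F) : LaurentSeries k) =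
      algebraMap k (LaurentSeries k) c from rfl, algebraMap_eq_C, thetaFun_C]
  refine ⟨fun α => ?_⟩
  have hint : IsIntegral k⟮x⟯ α := (Algebra.IsAlgebraic.isAlgebraic α).isIntegral
  set P := minpoly k⟮x⟯ α with hP
  have hirr : Irreducible P := minpoly.irreducible hint
  show P.Separable
  rw [separable_iff_derivative_ne_zero hirr]
  intro hd
  -- `P` is a polynomial in `T^p`
  have hPexp : expand k⟮x⟯ p (contract p P) = P := expand_contract p hd hprime.ne_zero
  -- the derivatives of the coefficients
  have hD : ∀ a : k⟮x⟯, ∃ b : k⟮x⟯,
      thetaFun ((a : F) : LaurentSeries k) = ((b : F) : LaurentSeries k) * thetaFun (x : LaurentSeries k) := by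
    intro a
    obtain ⟨r, s, hrs⟩ := (IntermediateField.mem_adjoin_simple_iff k (a : F)).1 a.2
    by_cases hs : aeval x s = 0
    · refine ⟨0, ?_⟩
      rw [hrs, hs, div_zero]
      simp [theta_zero]
    refine ⟨⟨(aeval x (derivative r) * aeval x s - aeval x r * aeval x (derivative s)) /
      (aeval x s) ^ 2, div_mem (sub_mem (mul_mem (FA.Curve.aeval_mem x _) (FA.Curve.aeval_mem x _))
        (mul_mem (FA.Curve.aeval_mem x _) (FA.Curve.aeval_mem x _)))
        (pow_mem (FA.Curve.aeval_mem x _) 2)⟩, ?_⟩
    have hco : ∀ q : k[X], ((aeval x q : F) : LaurentSeries k) = aeval (x : LaurentSeries k) q :=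
      fun q => (Polynomial.aeval_algHom_apply F.val x q).symm
    have hs' : aeval (x : LaurentSeries k) s ≠ 0 := by
      rw [← hco]; exact fun h => hs (Subtype.ext h)
    have key : thetaFun (aeval (x : LaurentSeries k) r / aeval (x : LaurentSeries k) s) *
        aeval (x : LaurentSeries k) s ^ 2 = (aeval (x : LaurentSeries k) (derivative r) *
          aeval (x : LaurentSeries k) s - aeval (x : LaurentSeries k) r *
          aeval (x : LaurentSeries k) (derivative s)) * thetaFun (x : LaurentSeries k) := by
      set u := aeval (x : LaurentSeries k) r / aeval (x : LaurentSeries k) s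
      have hu : u * aeval (x : LaurentSeries k) s = aeval (x : LaurentSeries k) r :=
        div_mul_cancel₀ _ hs'
      have h2 := theta_aeval (x : LaurentSeries k) r
      rw [← hu, thetaFun_mul, theta_aeval] at h2
      linear_combination (aeval (x : LaurentSeries k) s) * h2 -
        (aeval (x : LaurentSeries k) (derivative s) * thetaFun (x : LaurentSeries k)) * hu
    rw [hrs]
    simp only [IntermediateField.coe_div, AddSubgroupClass.coe_sub, IntermediateField.coe_mul,
      SubmonoidClass.coe_pow, hco]
    rw [div_mul_eq_mul_div, eq_div_iff (pow_ne_zero 2 hs')]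
    exact key
  choose D hDspec using hD
  -- they all vanish
  have hα : ∑ i ∈ Finset.range (P.natDegree + 1), (D (P.coeff i) : F) * α ^ i = 0 := by
    have h0 : ∑ i ∈ Finset.range (P.natDegree + 1),
        thetaFun ((((P.coeff i : F) * α ^ i : F)) : LaurentSeries k) = 0 := by
      have h1 := minpoly.aeval k⟮x⟯ α
      rw [← hP, aeval_eq_sum_range] at h1
      simp only [← thetaHom_apply]
      rw [← map_sum, ← AddSubmonoidClass.coe_finsetSum]
      have h2 : ∑ i ∈ Finset.range (P.natDegree + 1), (P.coeff i : F) * α ^ i = 0 := h1
      rw [h2, ZeroMemClass.coe_zero, map_zero]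
    have h3 : ∀ i, thetaFun ((((P.coeff i : F) * α ^ i : F)) : LaurentSeries k) =
        (((D (P.coeff i) : F) * α ^ i : F) : LaurentSeries k) * thetaFun (x : LaurentSeries k) := by
      intro i
      simp only [IntermediateField.coe_mul, SubmonoidClass.coe_pow]
      by_cases hi : p ∣ i
      · obtain ⟨d, rfl⟩ := hi
        rw [thetaFun_mul, theta_aeval_mul_pow (CharP.cast_eq_zero k p), mul_zero, zero_add, hDspec]
        ring
      · have hc : P.coeff i = 0 := by
          rw [← hPexp, coeff_expand hprime.pos, if_neg hi]
        have hD0 := hDspec (P.coeff i)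
        rw [hc] at hD0 ⊢
        simp only [ZeroMemClass.coe_zero, zero_mul, theta_zero] at hD0 ⊢
        rcases mul_eq_zero.1 hD0.symm with h | h
        · rw [h]; simp
        · exact absurd h hθ
    rw [Finset.sum_congr rfl fun i _ => h3 i, ← Finset.sum_mul, mul_eq_zero] at h0
    apply Subtype.ext
    rw [AddSubmonoidClass.coe_finsetSum]
    exact h0.resolve_right hθ
  have hD0 : ∀ i, i < P.natDegree + 1 → thetaFun ((P.coeff i : F) : LaurentSeries k) = 0 := by
    intro i hi
    suffices h : D (P.coeff i) = 0 by rw [hDspec, h]; simp
    set R : (k⟮x⟯)[X] := ∑ i ∈ Finset.range (P.natDegree + 1), monomial i (D (P.coeff i)) with hR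
    have hcoeff : ∀ l, l < P.natDegree + 1 → R.coeff l = D (P.coeff l) := fun l hl => by
      rw [hR, finsetSum_coeff, Finset.sum_eq_single l (fun j _ hj => coeff_monomial_of_ne _ hj.symm)
        (fun h => absurd (Finset.mem_range.2 hl) h), coeff_monomial_same]
    have haev : aeval α R = 0 := by
      rw [hR, map_sum, ← hα]
      exact Finset.sum_congr rfl fun j _ => by rw [aeval_monomial]; rfl
    rw [← hcoeff i hi]
    by_contra hne
    have hR0 : R ≠ 0 := fun h => hne (by rw [h, Polynomial.coeff_zero])
    have htop : D (P.coeff P.natDegree) = 0 := by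
      have h1 := hDspec (P.coeff P.natDegree)
      rw [(minpoly.monic hint).coeff_natDegree] at h1 ⊢
      simp only [OneMemClass.coe_one] at h1
      rw [theta_one] at h1
      rcases mul_eq_zero.1 h1.symm with h | h
      · exact Subtype.ext (Subtype.ext h)
      · exact absurd h hθ
    have hlt : R.natDegree < P.natDegree := by
      refine lt_of_le_of_ne ?_ fun h => ?_
      · exact natDegree_sum_le_of_forall_le _ _ fun j hj =>
          (natDegree_monomial_le _).trans (Nat.lt_succ_iff.1 (Finset.mem_range.1 hj))
      · exact Polynomial.leadingCoeff_ne_zero.2 hR0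
          (by rw [Polynomial.leadingCoeff, h, hcoeff _ (Nat.lt_succ_self _), htop])
    have := minpoly.degree_le_of_ne_zero k⟮x⟯ α hR0 haev
    rw [← hP, degree_eq_natDegree hirr.ne_zero, degree_eq_natDegree hR0, Nat.cast_le] at this
    omega
  -- so they are `p`-th powers
  have hpow : ∀ i, ∃ b : k⟮x⟯, b ^ p = P.coeff i := by
    intro i
    rcases lt_or_ge i (P.natDegree + 1) with hi | hi
    swap
    · exact ⟨0, by rw [zero_pow hprime.ne_zero, coeff_eq_zero_of_natDegree_lt (by omega)]⟩
    obtain ⟨r, s, hrs⟩ :=
      (IntermediateField.mem_adjoin_simple_iff k ((P.coeff i : k⟮x⟯) : F)).1 (P.coeff i).2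
    by_cases hs : aeval x s = 0
    · exact ⟨0, by rw [zero_pow hprime.ne_zero]; exact Subtype.ext (by rw [hrs, hs, div_zero]; rfl)⟩
    set t := r * s ^ (p - 1)
    have hts : (P.coeff i : F) * aeval x s ^ p = aeval x t := by
      rw [hrs, map_mul, map_pow, show aeval x s ^ p = aeval x s * aeval x s ^ (p - 1) by
        rw [← pow_succ', Nat.sub_add_cancel hprime.pos], ← mul_assoc, div_mul_cancel₀ _ hs]
    have hder : derivative t = 0 := by
      have h1 := theta_aeval (x : LaurentSeries k) t
      have hco : aeval (x : LaurentSeries k) t = ((P.coeff i : F) : LaurentSeries k) *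
          (aeval x s : F) ^ p := by
        rw [show aeval (x : LaurentSeries k) t = ((aeval x t : F) : LaurentSeries k) from
          Polynomial.aeval_algHom_apply F.val x t, ← hts]
        rfl
      rw [hco, thetaFun_mul, hD0 i hi, zero_mul, add_zero,
        show ((aeval x s : F) : LaurentSeries k) ^ p = ((aeval x s : F) : LaurentSeries k) ^ (p * 1) by
          rw [mul_one], theta_aeval_mul_pow (CharP.cast_eq_zero k p), mul_zero] at h1
      have h2 : aeval x (derivative t) = 0 := by
        apply Subtype.ext
        rw [ZeroMemClass.coe_zero]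
        exact (Polynomial.aeval_algHom_apply F.val x (derivative t)).symm.trans
          ((mul_eq_zero.1 h1.symm).resolve_right hθ)
      exact transcendental_iff.1 hx _ h2
    set g := (contract p t).map (frobeniusEquiv k p).symm.toRingHom
    have hg : g ^ p = t := by
      rw [← map_frobenius_expand p g, ← expand_contract p hder hprime.ne_zero, map_expand]
      congr 1
      rw [Polynomial.map_map]
      rw [show (frobenius k p).comp (frobeniusEquiv k p).symm.toRingHom = RingHom.id k from
        RingHom.ext fun c => frobenius_apply_frobeniusEquiv_symm k p c, Polynomial.map_id]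
    refine ⟨⟨aeval x g / aeval x s, div_mem (FA.Curve.aeval_mem x g) (FA.Curve.aeval_mem x s)⟩,
      Subtype.ext ?_⟩
    rw [SubmonoidClass.coe_pow, div_pow, ← map_pow, hg, ← hts, mul_div_cancel_right₀ _
      (pow_ne_zero p hs)]
  choose b hb using hpow
  set Q : (k⟮x⟯)[X] :=
    ∑ i ∈ Finset.range ((contract p P).natDegree + 1), monomial i (b (i * p)) with hQ
  have hQP : Q ^ p = P := by
    rw [← map_frobenius_expand p Q]
    conv_rhs => rw [← hPexp]
    rw [map_expand]
    congr 1
    conv_rhs => rw [(contract p P).as_sum_range]
    rw [hQ, Polynomial.map_sum]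
    refine Finset.sum_congr rfl fun i _ => ?_
    rw [map_monomial, coeff_contract hprime.ne_zero, frobenius_def, hb]
  exact not_irreducible_pow hprime.ne_one (hQP.symm ▸ hirr)

end FA.CurveRed
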