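import Fermat.Agent.CurveRed.Descent
import Fermat.Agent.CurveRed.Separable
import Fermat.Agent.CurveRed.FullField
import Fermat.Agent.ModField.Degree
import Fermat.Agent.ModField.Igusa.Tower

/-!
# The constant reduction of the function fields of `X₀(N)` and its chart `j`
-/

set_option autoImplicit false
set_option linter.style.haveILetI false
set_option linter.unusedSectionVars false
set_option synthInstance.maxHeartbeats 400000
set_option maxHeartbeats 1600000

noncomputable section

namespace FA.CurveRed.Modular

open ModularCurve AlgebraicCurve FA.Curve FA.ModField HahnSeries IntermediateField Polynomial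

variable {L : Type} [Field L] {k : Type} [Field k] (A : ValuationSubring L) (π : A →+* k)
  (N : ℕ) [NeZero N]

/-- Integral series in both function fields. -/
def intRing : Subring (LaurentSeries A) :=
  ((modularFunctionFieldFullC L N).toSubalgebra.toSubring.comap
      (coeffMap (A.subtype : A →+* L))) ⊓
    ((modularFunctionFieldFullC k N).toSubalgebra.toSubring.comap (coeffMap π))

/-- Generic evaluation. -/
def upEval : intRing A π N →+* modularFunctionFieldFullC L N :=
  ((coeffMap (A.subtype : A →+* L)).comp (intRing A π N).subtype).codRestrict _ fun y => y.2.1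

/-- Special evaluation. -/
def downEval : intRing A π N →+* modularFunctionFieldFullC k N :=
  ((coeffMap π).comp (intRing A π N).subtype).codRestrict _ fun y => y.2.2

theorem C_mem_intRing (a : A) : (HahnSeries.C a : LaurentSeries A) ∈ intRing A π N := by
  refine ⟨?_, ?_⟩
  · show coeffMap _ _ ∈ modularFunctionFieldFullC L N
    rw [coeffMap_C]
    have h1 := (modularFunctionFieldFullC L N).algebraMap_mem (a : L)
    rwa [algebraMap_laurentSeries_eq_single, ← HahnSeries.C_apply] at h1
  · show coeffMap _ _ ∈ modularFunctionFieldFullC k N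
    rw [coeffMap_C]
    have h2 := (modularFunctionFieldFullC k N).algebraMap_mem (π a)
    rwa [algebraMap_laurentSeries_eq_single, ← HahnSeries.C_apply] at h2

/-- Constants. -/
def constEmb : A →+* intRing A π N :=
  (HahnSeries.C : A →+* LaurentSeries A).codRestrict _ (C_mem_intRing A π N)

theorem upEval_injective : Function.Injective (upEval A π N) := fun _ _ h =>
  Subtype.ext (coeffMap_injective' A.subtype_injective (congrArg Subtype.val h))

variable (hπs : Function.Surjective π) (hπ0 : ∀ a : A, π a = 0 ↔ A.valuation a < 1)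

/-- The constant reduction. -/
def redN : ConstRed L (modularFunctionFieldFullC L N) k (modularFunctionFieldFullC k N) A :=
  constRedOfQuot π (constEmb A π N) (v := downEval A π N) (upEval_injective A π N) hπs hπ0
    (fun a => Subtype.ext (by
      show coeffMap _ (HahnSeries.C a) = algebraMap L (LaurentSeries L) (a : L)
      rw [coeffMap_C, algebraMap_laurentSeries_eq_single, ← HahnSeries.C_apply]
      rfl))
    (fun a => Subtype.ext (by
      show coeffMap _ (HahnSeries.C a) = algebraMap k (LaurentSeries k) (π a)
      rw [coeffMap_C, algebraMap_laurentSeries_eq_single, ← HahnSeries.C_apply]))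

variable {A π N hπs hπ0}

theorem red_series (y : LaurentSeries A) {f : modularFunctionFieldFullC L N}
    {r : modularFunctionFieldFullC k N} (hf : coeffMap (A.subtype : A →+* L) y = f)
    (hr : coeffMap π y = r) : (redN A π N hπs hπ0).Red f r := by
  rw [redN, constRedOfQuot_red]
  have hmem : y ∈ intRing A π N := ⟨show coeffMap _ y ∈ modularFunctionFieldFullC L N from
    hf ▸ f.2, show coeffMap _ y ∈ modularFunctionFieldFullC k N from hr ▸ r.2⟩
  have h := isQuot_apply (u := upEval A π N) (v := downEval A π N) ⟨y, hmem⟩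
  have e1 : upEval A π N ⟨y, hmem⟩ = f := Subtype.ext hf
  have e2 : downEval A π N ⟨y, hmem⟩ = r := Subtype.ext hr
  rwa [e1, e2] at h

theorem red_gen (d : ℕ) [NeZero d] (hd : d ∣ N) :
    (redN A π N hπs hπ0).Red ⟨qExpand L d (jqModC L), jqModCd_mem_full L N hd⟩
      ⟨qExpand k d (jqModC k), jqModCd_mem_full k N hd⟩ :=
  red_series (qExpand A d (jqModC A)) (by rw [coeffMap_qExpand, coeffMap_jqModC])
    (by rw [coeffMap_qExpand, coeffMap_jqModC])

theorem red_jElem : (redN A π N hπs hπ0).Red (jElem L N) (jBar k N) :=
  red_series (jqModC A) (coeffMap_jqModC _) (coeffMap_jqModC π)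

theorem gen_eq_top : IntermediateField.adjoin k
    {r | ∃ f, (redN A π N hπs hπ0).Red f r} = ⊤ := by
  refine IntermediateField.map_injective (modularFunctionFieldFullC k N).val ?_
  rw [IntermediateField.adjoin_map, ← AlgHom.fieldRange_eq_map, fieldRange_val]
  refine le_antisymm (adjoin_le_iff.2 (by rintro _ ⟨r, -, rfl⟩; exact r.2)) ?_
  refine adjoin_le_iff.2 ?_
  rintro _ ⟨d, hne, hd, rfl⟩
  haveI := hne
  exact IntermediateField.subset_adjoin _ _
    ⟨⟨qExpand k d (jqModC k), jqModCd_mem_full k N hd⟩, ⟨_, red_gen d hd⟩, rfl⟩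

variable [CharZero L] [Algebra L ℂ] [IsAlgClosed k]

/-- The degree over `k(j)` downstairs. -/
theorem psi_le_finrank (hk : ∀ r : ℕ, r.Prime → r ∣ N → (r : k) ≠ 0) :
    dedekindPsi N ≤ Module.finrank k⟮jBar k N⟯ (modularFunctionFieldFullC k N) := by
  haveI := (isFunctionField_fullC k N).finiteDimensional (jBar_transcendental k N)
  obtain ⟨w, hw, hli⟩ := exists_indep (k := k) N hk
  have hwmem : ∀ i, w i ∈ modularFunctionFieldFullC k N := fun i => by
    refine (Submonoid.closure_le.2 ?_ : _ ≤ (modularFunctionFieldFullC k N).toSubalgebra.toSubmonoid)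
      (hw i)
    rintro _ ⟨p, e, hne, -, hd, rfl⟩
    exact jqModCd_mem_full k N hd
  have hcoe : ∀ c : k⟮jBar k N⟯,
      ((c : modularFunctionFieldFullC k N) : LaurentSeries k) ∈ baseJ k := by
    rintro ⟨c, hc⟩
    have := (IntermediateField.mem_map k⟮jBar k N⟯ (f := (modularFunctionFieldFullC k N).val)).2
      ⟨c, hc, rfl⟩
    rwa [IntermediateField.adjoin_map, Set.image_singleton] at this
  have hli' : LinearIndependent k⟮jBar k N⟯
      (fun i => (⟨w i, hwmem i⟩ : modularFunctionFieldFullC k N)) := by
    rw [Fintype.linearIndependent_iff]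
    intro g hg i
    have h0 := congrArg (fun z : modularFunctionFieldFullC k N => (z : LaurentSeries k)) hg
    simp only [AddSubmonoidClass.coe_finsetSum, IntermediateField.smul_def, smul_eq_mul,
      MulMemClass.coe_mul, ZeroMemClass.coe_zero] at h0
    have h1 := Fintype.linearIndependent_iff.1 hli (fun i => ⟨_, hcoe (g i)⟩) (by
      simpa [IntermediateField.smul_def] using h0) i
    have h2 : ((g i : modularFunctionFieldFullC k N) : LaurentSeries k) = 0 :=
      congrArg Subtype.val h1
    exact Subtype.ext (Subtype.ext h2)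
  simpa using hli'.fintype_card_le_finrank

theorem finrank_up : Module.finrank L⟮jElem L N⟯ (modularFunctionFieldFullC L N) = dedekindPsi N :=
  finrank_jField_eq_psi

/-- The chart `j`. -/
theorem chartJ (hk : ∀ r : ℕ, r.Prime → r ∣ N → (r : k) ≠ 0) :
    (redN A π N hπs hπ0).Chart (jElem L N) (jBar k N) where
  red_x := red_jElem
  trans := jBar_transcendental k N
  degree_le := finrank_up.le.trans (psi_le_finrank hk)
  gen := gen_eq_top

variable [IsAlgClosed L]

theorem scaledN (hk : ∀ r : ℕ, r.Prime → r ∣ N → (r : k) ≠ 0) :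
    (redN A π N hπs hπ0).Scaled :=
  (chartJ hk).scaled (isFunctionField_fullC L N) (isFunctionField_fullC k N)

include hπs hπ0 in
/-- Integral series of the function field reduce into the function field. -/
theorem mem_down (hk : ∀ r : ℕ, r.Prime → r ∣ N → (r : k) ≠ 0) (y : LaurentSeries A)
    (hy : coeffMap (A.subtype : A →+* L) y ∈ modularFunctionFieldFullC L N) :
    coeffMap π y ∈ modularFunctionFieldFullC k N := by
  rcases eq_or_ne y 0 with rfl | hy0
  · rw [map_zero]; exact zero_mem _
  have hf0 : (⟨_, hy⟩ : modularFunctionFieldFullC L N) ≠ 0 := fun h =>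
    hy0 (coeffMap_injective' A.subtype_injective ((congrArg Subtype.val h).trans (map_zero _).symm))
  obtain ⟨c, g, r, hfg, hg, hr⟩ := scaledN (hπs := hπs) (hπ0 := hπ0) hk _ (Set.mem_univ _) hf0
  rw [redN, constRedOfQuot_red] at hg
  obtain ⟨a, b, hvb, hub, hrb⟩ := hg
  have hup : coeffMap (A.subtype : A →+* L) (y * (b : LaurentSeries A)) =
      HahnSeries.C c * coeffMap (A.subtype : A →+* L) (a : LaurentSeries A) := by
    have h1 := congrArg (fun z : modularFunctionFieldFullC L N => (z : LaurentSeries L))
      (congrArg (· * upEval A π N b) hfg)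
    simp only [MulMemClass.coe_mul] at h1
    rw [mul_assoc] at h1
    have h2 := congrArg (fun z : modularFunctionFieldFullC L N => (z : LaurentSeries L)) hub
    simp only [MulMemClass.coe_mul] at h2
    rw [h2] at h1
    rw [map_mul, ← algebraMap_eq_C]
    exact h1
  have hrser : (r : LaurentSeries k) * coeffMap π (b : LaurentSeries A) =
      coeffMap π (a : LaurentSeries A) := congrArg Subtype.val hrb
  by_cases hc : c ∈ A
  · have h3 : y * (b : LaurentSeries A) = HahnSeries.C (⟨c, hc⟩ : A) * (a : LaurentSeries A) := by
      refine coeffMap_injective' A.subtype_injective ?_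
      rw [hup, map_mul (coeffMap _) (HahnSeries.C _), coeffMap_C]
      rfl
    have h4 := congrArg (coeffMap π) h3
    rw [map_mul, map_mul, coeffMap_C, ← hrser, ← mul_assoc] at h4
    have hb0 : coeffMap π (b : LaurentSeries A) ≠ 0 := fun h => hvb (Subtype.ext h)
    rw [mul_right_cancel₀ hb0 h4, ← algebraMap_eq_C]
    exact mul_mem ((modularFunctionFieldFullC k N).algebraMap_mem _) r.2
  · exfalso
    have hci : c⁻¹ ∈ A := (A.mem_or_inv_mem c).resolve_left hc
    have hc0 : c ≠ 0 := fun h0 => hc (h0 ▸ zero_mem A)
    have hπc : π ⟨c⁻¹, hci⟩ = 0 := by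
      rw [hπ0]
      show A.valuation c⁻¹ < 1
      rw [map_inv₀]
      exact inv_lt_one_of_one_lt₀ (lt_of_not_ge fun h => hc ((A.valuation_le_one_iff c).1 h))
    have h3 : HahnSeries.C (⟨c⁻¹, hci⟩ : A) * (y * (b : LaurentSeries A)) =
        (a : LaurentSeries A) := by
      refine coeffMap_injective' A.subtype_injective ?_
      rw [map_mul, hup, coeffMap_C, ← mul_assoc, ← map_mul HahnSeries.C]
      show HahnSeries.C (c⁻¹ * c) * _ = _
      rw [inv_mul_cancel₀ hc0, map_one, one_mul]
    have h4 := congrArg (coeffMap π) h3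
    rw [map_mul, coeffMap_C, hπc, map_zero, zero_mul, ← hrser, eq_comm, mul_eq_zero] at h4
    exact h4.elim (fun h => hr (Subtype.ext h)) (fun h => hvb (Subtype.ext h))

/-- Separability downstairs. -/
theorem isSeparable_down (x : modularFunctionFieldFullC k N) (hx : Transcendental k x)
    (hθ : thetaFun (x : LaurentSeries k) ≠ 0) :
    Algebra.IsSeparable k⟮x⟯ (modularFunctionFieldFullC k N) := by
  haveI := (isFunctionField_fullC k N).finiteDimensional hx
  exact isSeparable_of_theta _ x hθ

theorem theta_ne_zero_of_coeff {s : LaurentSeries k} (h : s.coeff (-1) = 1) : thetaFun s ≠ 0 := by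
  intro h0
  have h1 := congrArg (fun z : LaurentSeries k => z.coeff (-1)) h0
  simp [thetaFun_coeff, h] at h1

/-- Separability upstairs. -/
theorem isSeparable_up (x : modularFunctionFieldFullC L N) (hx : Transcendental L x) :
    Algebra.IsSeparable L⟮x⟯ (modularFunctionFieldFullC L N) := by
  haveI := (isFunctionField_fullC L N).finiteDimensional hx
  haveI : CharZero L⟮x⟯ := charZero_of_injective_algebraMap (algebraMap L L⟮x⟯).injective
  exact Algebra.IsAlgebraic.isSeparable_of_perfectField

end FA.CurveRed.Modular
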