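import Fermat.Agent.CurveRed.Basic

/-!
# Constant reductions from a ring of integral functions with two evaluations

`W` is a ring of integral functions, `u` its generic and `v` its special evaluation.  If the place
map is compatible with divisors and principal divisors are generated by those of integral
functions with nonzero reduction, quotients give a `Reduction`.
-/

set_option autoImplicit false
set_option linter.style.haveILetI false

noncomputable section

namespace FA.CurveRed

open AlgebraicCurve FA.ModField FA.Curve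

variable {W F Fk : Type*} [CommRing W] [Field F] [Field Fk] (u : W →+* F) (v : W →+* Fk)

/-- `f` is a quotient of integral functions with reduction `r`. -/
def IsQuot (f : F) (r : Fk) : Prop :=
  ∃ y y' : W, v y' ≠ 0 ∧ f * u y' = u y ∧ r * v y' = v y

variable {u v}

theorem IsQuot.unique (hu : Function.Injective u) {f : F} {r r' : Fk} (h : IsQuot u v f r)
    (h' : IsQuot u v f r') : r = r' := by
  obtain ⟨y, y', hy', hf, hr⟩ := h
  obtain ⟨z, z', hz', hf', hr'⟩ := h'
  have e : y * z' = z * y' := by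
    apply hu
    rw [map_mul, map_mul, ← hf, ← hf']
    ring
  have e' := congrArg v e
  rw [map_mul, map_mul, ← hr, ← hr'] at e'
  apply mul_right_cancel₀ (mul_ne_zero hy' hz')
  linear_combination e'

theorem IsQuot.add {f g : F} {r s : Fk} (h : IsQuot u v f r) (h' : IsQuot u v g s) :
    IsQuot u v (f + g) (r + s) := by
  obtain ⟨y, y', hy', hf, hr⟩ := h
  obtain ⟨z, z', hz', hg, hs⟩ := h'
  refine ⟨y * z' + z * y', y' * z', by rw [map_mul]; exact mul_ne_zero hy' hz', ?_, ?_⟩
  · simp only [map_add, map_mul, ← hf, ← hg]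
    ring
  · simp only [map_add, map_mul, ← hr, ← hs]
    ring

theorem IsQuot.mul {f g : F} {r s : Fk} (h : IsQuot u v f r) (h' : IsQuot u v g s) :
    IsQuot u v (f * g) (r * s) := by
  obtain ⟨y, y', hy', hf, hr⟩ := h
  obtain ⟨z, z', hz', hg, hs⟩ := h'
  refine ⟨y * z, y' * z', by rw [map_mul]; exact mul_ne_zero hy' hz', ?_, ?_⟩
  · simp only [map_mul, ← hf, ← hg]
    ring
  · simp only [map_mul, ← hr, ← hs]
    ring

theorem IsQuot.neg {f : F} {r : Fk} (h : IsQuot u v f r) : IsQuot u v (-f) (-r) := by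
  obtain ⟨y, y', hy', hf, hr⟩ := h
  refine ⟨-y, y', hy', ?_, ?_⟩
  · simp only [map_neg, ← hf]
    ring
  · simp only [map_neg, ← hr]
    ring

theorem IsQuot.inv (hu : Function.Injective u) {f : F} {r : Fk} (h : IsQuot u v f r)
    (hr : r ≠ 0) : IsQuot u v f⁻¹ r⁻¹ := by
  have hf0 : f ≠ 0 := fun h0 => hr ((h0 ▸ h : IsQuot u v 0 r).unique hu ⟨0, 1, by simp, by simp, by simp⟩)
  obtain ⟨y, y', hy', hf, he⟩ := h
  refine ⟨y', y, he ▸ mul_ne_zero hr hy', ?_, ?_⟩
  · rw [← hf, ← mul_assoc, inv_mul_cancel₀ hf0, one_mul]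
  · rw [← he, ← mul_assoc, inv_mul_cancel₀ hr, one_mul]

theorem isQuot_apply (y : W) : IsQuot u v (u y) (v y) := ⟨y, 1, by simp, by simp, by simp⟩

theorem isQuot_one : IsQuot u v (1 : F) (1 : Fk) := by simpa using isQuot_apply (u := u) (v := v) 1

theorem isQuot_zero : IsQuot u v (0 : F) (0 : Fk) := by
  simpa using isQuot_apply (u := u) (v := v) 0

variable (u v)

/-- The integral functions. -/
def intFuns : Subring F where
  carrier := {f | ∃ r, IsQuot u v f r}
  one_mem' := ⟨1, isQuot_one⟩
  zero_mem' := ⟨0, isQuot_zero⟩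
  add_mem' := fun ⟨r, hr⟩ ⟨s, hs⟩ => ⟨r + s, hr.add hs⟩
  mul_mem' := fun ⟨r, hr⟩ ⟨s, hs⟩ => ⟨r * s, hr.mul hs⟩
  neg_mem' := fun ⟨r, hr⟩ => ⟨-r, hr.neg⟩

variable (hu : Function.Injective u)

/-- The reduction of integral functions. -/
def redFun : intFuns u v →+* Fk where
  toFun f := f.2.choose
  map_one' := (1 : intFuns u v).2.choose_spec.unique hu isQuot_one
  map_zero' := (0 : intFuns u v).2.choose_spec.unique hu isQuot_zero
  map_add' f g := (f + g).2.choose_spec.unique hu (f.2.choose_spec.add g.2.choose_spec)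
  map_mul' f g := (f * g).2.choose_spec.unique hu (f.2.choose_spec.mul g.2.choose_spec)

theorem redFun_eq {f : intFuns u v} {r : Fk} (h : IsQuot u v f r) : redFun u v hu f = r :=
  f.2.choose_spec.unique hu h

theorem isQuot_redFun (f : intFuns u v) : IsQuot u v f (redFun u v hu f) := f.2.choose_spec

variable {K k : Type*} [Field K] [Algebra K F] [Field k] [Algebra k Fk]
  {A : ValuationSubring K} (π : A →+* k) (cA : A →+* W)

/-- Data making `W` into the integral functions of a constant reduction. -/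
structure QuotData (spl : Place K F → Place k Fk) : Prop where
  u_inj : Function.Injective u
  π_surjective : Function.Surjective π
  π_eq_zero : ∀ a : A, π a = 0 ↔ A.valuation a < 1
  u_const : ∀ a : A, u (cA a) = algebraMap K F a
  v_const : ∀ a : A, v (cA a) = algebraMap k Fk (π a)
  div_compat : ∀ y : W, v y ≠ 0 → ∀ D : Divisor K F, (∀ P, D P = P.ord (u y)) →
    ∀ Q, Finsupp.mapDomain spl D Q = Q.ord (v y)
  generated : ∀ f : F, f ≠ 0 → ∀ D : Divisor K F, (∀ P, D P = P.ord f) →
    D ∈ AddSubgroup.closure {E : Divisor K F | ∃ y : W, v y ≠ 0 ∧ ∀ P, E P = P.ord (u y)}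
  nonconst : ∃ y : W, Transcendental k (v y)

variable {u v π cA}

theorem u_ne_zero {y : W} (hu : Function.Injective u) (hy : v y ≠ 0) : u y ≠ 0 := fun h =>
  hy (by rw [hu (h.trans (map_zero u).symm), map_zero])

variable [IsAlgClosed K] {spl : Place K F → Place k Fk}

/-- The reduction of a `QuotData`. -/
def QuotData.toReduction (d : QuotData u v π cA spl) (hF : IsFunctionField K F) :
    Reduction K F k Fk A where
  π := π
  π_surjective := d.π_surjective
  π_eq_zero := d.π_eq_zero
  G := intFuns u v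
  algebraMap_mem a := ⟨v (cA a), d.u_const a ▸ isQuot_apply (cA a)⟩
  red := redFun u v d.u_inj
  red_algebraMap a := (redFun_eq u v d.u_inj (r := v (cA a))
    (show IsQuot u v (algebraMap K F a) (v (cA a)) from d.u_const a ▸ isQuot_apply (cA a))).trans
    (d.v_const a)
  exists_scale f hf := by
    classical
    have hne : ∀ (g : F) (r : Fk), IsQuot u v g r → r ≠ 0 → g ≠ 0 := fun g r h hr h0 =>
      hr (IsQuot.unique d.u_inj (h0 ▸ h) isQuot_zero)
    have key : ∀ D ∈ AddSubgroup.closure
        {E : Divisor K F | ∃ y : W, v y ≠ 0 ∧ ∀ P, E P = P.ord (u y)},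
        ∃ (g : F) (r : Fk), IsQuot u v g r ∧ r ≠ 0 ∧ ∀ P, D P = P.ord g := by
      intro D hD
      induction hD using AddSubgroup.closure_induction with
      | mem E hE =>
        obtain ⟨y, hy, hE⟩ := hE
        exact ⟨u y, v y, isQuot_apply y, hy, hE⟩
      | zero => exact ⟨1, 1, isQuot_one, one_ne_zero, fun P => by simp⟩
      | add E E' _ _ hE hE' =>
        obtain ⟨g, r, hg, hr, he⟩ := hE
        obtain ⟨g', r', hg', hr', he'⟩ := hE'
        exact ⟨g * g', r * r', hg.mul hg', mul_ne_zero hr hr', fun P => by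
          rw [Finsupp.add_apply, he P, he' P, P.ord_mul (hne g r hg hr) (hne g' r' hg' hr')]⟩
      | neg E _ hE =>
        obtain ⟨g, r, hg, hr, he⟩ := hE
        exact ⟨g⁻¹, r⁻¹, hg.inv d.u_inj hr, inv_ne_zero hr, fun P => by
          rw [Finsupp.neg_apply, he P, P.ord_inv]⟩
    obtain ⟨g, r, hg, hr, he⟩ := key _ (d.generated f hf (divOf hF f) fun P => divOf_apply hF f P)
    have hg0 := hne g r hg hr
    obtain ⟨c, hc⟩ : ∃ c : K, f / g = algebraMap K F c := by
      by_contra hno
      push Not at hno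
      obtain ⟨P, hP⟩ := exists_ord_neg hF (transcendental_of_not_const hno)
      have h1 := he P
      rw [divOf_apply] at h1
      rw [div_eq_mul_inv, P.ord_mul hf (inv_ne_zero hg0), P.ord_inv] at hP
      omega
    exact ⟨c, ⟨g, r, hg⟩, by rw [← hc]; exact (div_mul_cancel₀ f hg0).symm,
      by rw [redFun_eq u v d.u_inj (f := ⟨g, r, hg⟩) hg]; exact hr⟩
  spl := spl
  div_red g hg D hD Q := by
    classical
    obtain ⟨y, y', hy', hgy, hgr⟩ := isQuot_redFun u v d.u_inj g
    have hy : v y ≠ 0 := hgr ▸ mul_ne_zero hg hy'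
    have hg0 : (g : F) ≠ 0 := fun h0 => hg (IsQuot.unique d.u_inj
      (h0 ▸ isQuot_redFun u v d.u_inj g) isQuot_zero)
    have e1 := d.div_compat y hy (divOf hF (u y)) (fun P => divOf_apply hF _ P) Q
    have e2 := d.div_compat y' hy' (divOf hF (u y')) (fun P => divOf_apply hF _ P) Q
    have hD' : D = divOf hF (u y) - divOf hF (u y') := Finsupp.ext fun P => by
      rw [hD P, Finsupp.sub_apply, divOf_apply, divOf_apply, ← hgy,
        P.ord_mul hg0 (u_ne_zero d.u_inj hy')]
      ring
    rw [hD', Finsupp.mapDomain_sub, Finsupp.sub_apply, e1, e2, ← hgr, Q.ord_mul hg hy']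
    ring
  exists_nonconst := by
    obtain ⟨y, hy⟩ := d.nonconst
    exact ⟨⟨u y, v y, isQuot_apply y⟩, by
      rw [redFun_eq u v d.u_inj (f := ⟨u y, v y, isQuot_apply y⟩) (isQuot_apply y)]; exact hy⟩

end FA.CurveRed
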