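import Fermat.Agent.Curve.Value

/-!
# Reduction of a function field along a constant reduction with a place map

A `Reduction` consists of an integral subring of `F` reducing to `Fk` and a map of places
compatible with divisors of functions with nonzero reduction.
-/

set_option autoImplicit false
set_option linter.style.haveILetI false

noncomputable section

namespace FA.CurveRed

open AlgebraicCurve FA.ModField FA.Curve

/-- A constant reduction with a specialisation map of places. -/
structure Reduction (K F k Fk : Type*) [Field K] [Field F] [Algebra K F] [Field k] [Field Fk]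
    [Algebra k Fk] (A : ValuationSubring K) where
  /-- the residue map -/
  π : A →+* k
  π_surjective : Function.Surjective π
  π_eq_zero : ∀ a : A, π a = 0 ↔ A.valuation a < 1
  /-- the integral functions -/
  G : Subring F
  algebraMap_mem : ∀ a : A, algebraMap K F a ∈ G
  /-- the reduction of functions -/
  red : G →+* Fk
  red_algebraMap : ∀ a : A, red ⟨algebraMap K F a, algebraMap_mem a⟩ = algebraMap k Fk (π a)
  exists_scale : ∀ f : F, f ≠ 0 → ∃ (c : K) (g : G), f = algebraMap K F c * g ∧ red g ≠ 0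
  /-- the specialisation of places -/
  spl : Place K F → Place k Fk
  div_red : ∀ g : G, red g ≠ 0 → ∀ D : Divisor K F, (∀ P, D P = P.ord (g : F)) →
    ∀ Q, Finsupp.mapDomain spl D Q = Q.ord (red g)
  exists_nonconst : ∃ g : G, Transcendental k (red g)

variable {K F k Fk : Type*} [Field K] [Field F] [Algebra K F] [Field k] [Field Fk] [Algebra k Fk]
  {A : ValuationSubring K}

namespace Reduction

variable (R : Reduction K F k Fk A)

/-- `f` is integral with reduction `r`. -/
def Red (f : F) (r : Fk) : Prop := ∃ h : f ∈ R.G, R.red ⟨f, h⟩ = r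

variable {R}

theorem Red.unique {f : F} {r r' : Fk} (h : R.Red f r) (h' : R.Red f r') : r = r' :=
  h.2.symm.trans h'.2

theorem Red.mem {f : F} {r : Fk} (h : R.Red f r) : f ∈ R.G := h.1

theorem red_of_mem (g : R.G) : R.Red (g : F) (R.red g) := ⟨g.2, rfl⟩

theorem Red.add {f g : F} {r s : Fk} (h : R.Red f r) (h' : R.Red g s) : R.Red (f + g) (r + s) :=
  ⟨add_mem h.1 h'.1, by
    rw [← h.2, ← h'.2, ← map_add]; rfl⟩

theorem Red.mul {f g : F} {r s : Fk} (h : R.Red f r) (h' : R.Red g s) : R.Red (f * g) (r * s) :=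
  ⟨mul_mem h.1 h'.1, by
    rw [← h.2, ← h'.2, ← map_mul]; rfl⟩

theorem Red.neg {f : F} {r : Fk} (h : R.Red f r) : R.Red (-f) (-r) :=
  ⟨neg_mem h.1, by rw [← h.2, ← map_neg]; rfl⟩

theorem Red.sub {f g : F} {r s : Fk} (h : R.Red f r) (h' : R.Red g s) : R.Red (f - g) (r - s) := by
  rw [sub_eq_add_neg, sub_eq_add_neg]; exact h.add h'.neg

theorem red_one : R.Red 1 1 := ⟨one_mem _, map_one R.red⟩

theorem red_zero : R.Red 0 0 := ⟨zero_mem _, map_zero R.red⟩

theorem Red.pow {f : F} {r : Fk} (h : R.Red f r) (n : ℕ) : R.Red (f ^ n) (r ^ n) := by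
  induction n with
  | zero => simpa using red_one
  | succ n ih => rw [pow_succ, pow_succ]; exact ih.mul h

theorem red_const (a : A) : R.Red (algebraMap K F a) (algebraMap k Fk (R.π a)) :=
  ⟨R.algebraMap_mem a, R.red_algebraMap a⟩

theorem Red.ne_zero {f : F} {r : Fk} (h : R.Red f r) (hr : r ≠ 0) : f ≠ 0 := by
  rintro rfl
  exact hr (h.unique red_zero)

theorem π_ne_zero_iff (a : A) : R.π a ≠ 0 ↔ A.valuation a = 1 := by
  rw [Ne, R.π_eq_zero, not_lt]
  exact ⟨fun h => le_antisymm (A.valuation_le_one a) h, fun h => h.ge⟩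

theorem exists_scale' {f : F} (hf : f ≠ 0) :
    ∃ (c : K) (g : F) (r : Fk), c ≠ 0 ∧ f = algebraMap K F c * g ∧ R.Red g r ∧ r ≠ 0 := by
  obtain ⟨c, g, h, hg⟩ := R.exists_scale f hf
  refine ⟨c, g, R.red g, ?_, h, red_of_mem g, hg⟩
  rintro rfl
  exact hf (by rw [h, map_zero, zero_mul])

/-- Integrality descends through multiplication by a function with nonzero reduction. -/
theorem mem_of_mul_mem {f g : F} {r s : Fk} (hf : R.Red f r) (hr : r ≠ 0)
    (hfg : R.Red (f * g) s) : ∃ t, R.Red g t ∧ r * t = s := by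
  rcases eq_or_ne g 0 with rfl | hg
  · rw [mul_zero] at hfg
    exact ⟨0, red_zero, (mul_zero r).trans (red_zero.unique hfg)⟩
  obtain ⟨c, h, u, hc, rfl, hh, hu⟩ := exists_scale' (R := R) hg
  by_cases hcA : c ∈ A
  · refine ⟨_, (red_const ⟨c, hcA⟩).mul hh, ?_⟩
    exact (hf.mul ((red_const ⟨c, hcA⟩).mul hh)).unique hfg
  · exfalso
    have hci : c⁻¹ ∈ A := (A.mem_or_inv_mem c).resolve_left hcA
    have h0 : R.π ⟨c⁻¹, hci⟩ = 0 := by
      rw [R.π_eq_zero]
      show A.valuation c⁻¹ < 1
      rw [map_inv₀]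
      exact inv_lt_one_of_one_lt₀ (lt_of_not_ge fun h => hcA ((A.valuation_le_one_iff c).1 h))
    have h1 := (red_const (R := R) ⟨c⁻¹, hci⟩).mul hfg
    rw [h0, map_zero, zero_mul] at h1
    have h2 : algebraMap K F ((⟨c⁻¹, hci⟩ : A) : K) * (f * (algebraMap K F c * h)) = f * h := by
      show algebraMap K F c⁻¹ * _ = _
      rw [map_inv₀]
      field_simp [show (algebraMap K F c) ≠ 0 by simpa using hc]
    rw [h2] at h1
    exact mul_ne_zero hr hu ((hf.mul hh).unique h1)

variable [IsAlgClosed K] [IsAlgClosed k]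
  (hF : IsFunctionField K F) (hk : IsFunctionField k Fk)

variable (R) in
/-- The push forward of divisors. -/
def push (D : Divisor K F) : Divisor k Fk := Finsupp.mapDomain R.spl D

omit [IsAlgClosed K] [IsAlgClosed k] in
theorem push_apply [DecidableEq (Place k Fk)] (D : Divisor K F) (Q : Place k Fk) :
    R.push D Q = ∑ P ∈ D.support, if R.spl P = Q then D P else 0 := by
  classical
  rw [push, Finsupp.mapDomain, Finsupp.sum_apply, Finsupp.sum]
  refine Finset.sum_congr rfl fun P _ => ?_
  simp [Finsupp.single_apply]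

omit [IsAlgClosed K] [IsAlgClosed k] in
theorem push_nonneg {D : Divisor K F} (h : 0 ≤ D) : 0 ≤ R.push D := by
  classical
  refine Finsupp.le_def.2 fun Q => ?_
  rw [push_apply]
  exact Finset.sum_nonneg fun P _ => by
    split_ifs
    · exact Finsupp.le_def.1 h P
    · rfl

omit [IsAlgClosed K] [IsAlgClosed k] in
theorem push_add (D E : Divisor K F) : R.push (D + E) = R.push D + R.push E :=
  Finsupp.mapDomain_add

omit [IsAlgClosed K] [IsAlgClosed k] in
theorem push_single (P : Place K F) (n : ℤ) :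
    R.push (Finsupp.single P n) = Finsupp.single (R.spl P) n :=
  Finsupp.mapDomain_single

include hF hk in
theorem degree_push (D : Divisor K F) : Divisor.degree (R.push D) = Divisor.degree D := by
  induction D using Finsupp.induction with
  | zero => simp [push]
  | single_add P n D _ _ ih =>
    rw [push_add, map_add, map_add, ih, push_single, Divisor.degree_single,
      Divisor.degree_single, hF.deg_eq_one, hk.deg_eq_one]

include hF

omit [IsAlgClosed k] in
theorem push_divOf {f : F} {r : Fk} (h : R.Red f r) (hr : r ≠ 0) (Q : Place k Fk) :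
    R.push (divOf hF f) Q = Q.ord r := by
  rw [← h.2] at hr ⊢
  exact R.div_red ⟨f, h.1⟩ hr (divOf hF f) (fun P => divOf_apply hF f P) Q

/-- `f` has no pole over `Q`. -/
def NoPole (R : Reduction K F k Fk A) (Q : Place k Fk) (f : F) : Prop :=
  ∀ P : Place K F, R.spl P = Q → AtLeast P 0 f

omit [IsAlgClosed k] in
theorem sum_le_ord {f : F} {r : Fk} (h : R.Red f r) (hr : r ≠ 0) {Q : Place k Fk}
    (hQ : NoPole R Q f) (S : Finset (Place K F)) (hS : ∀ P ∈ S, R.spl P = Q) :
    ∑ P ∈ S, P.ord f ≤ Q.ord r := by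
  classical
  rw [← push_divOf hF h hr Q, push_apply, ← Finset.sum_filter]
  have hf := h.ne_zero hr
  calc ∑ P ∈ S, P.ord f = ∑ P ∈ S.filter (fun P => P ∈ (divOf hF f).support), P.ord f :=
        (Finset.sum_filter_of_ne (p := fun P => P ∈ (divOf hF f).support) fun P _ hne =>
          Finsupp.mem_support_iff.2 (by simpa using hne)).symm
    _ ≤ _ := by
      simp only [divOf_apply]
      refine Finset.sum_le_sum_of_subset_of_nonneg (fun P hP => ?_) fun P hP _ =>
        (atLeast_iff hf).1 (hQ P (Finset.mem_filter.1 hP).2)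
      rw [Finset.mem_filter] at hP ⊢
      exact ⟨hP.2, hS P hP.1⟩

omit [IsAlgClosed k] in
theorem exists_ne_zero_of_ord {f : F} {r : Fk} (h : R.Red f r) (hr : r ≠ 0) {Q : Place k Fk}
    (hQ : Q.ord r ≠ 0) : ∃ P, R.spl P = Q := by
  classical
  by_contra hno
  push Not at hno
  apply hQ
  rw [← push_divOf hF h hr Q, push_apply]
  exact Finset.sum_eq_zero fun P _ => if_neg (hno P)

omit [IsAlgClosed k] in
theorem hasValue_red {f : F} {r : Fk} (h : R.Red f r) {Q : Place k Fk} (hQ : NoPole R Q f)
    {P : Place K F} (hP : R.spl P = Q) {c : K} (hc : HasValue P f c) :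
    ∃ hcA : c ∈ A, HasValue Q r (R.π ⟨c, hcA⟩) := by
  have key : ∀ (g : F) (s : Fk), R.Red g s → s ≠ 0 → NoPole R Q g → AtLeast P 1 g →
      1 ≤ Q.ord s := by
    intro g s hg hs hgQ hgP
    have h1 := sum_le_ord hF hg hs hgQ {P} (fun _ hP' => Finset.mem_singleton.1 hP' ▸ hP)
    rw [Finset.sum_singleton] at h1
    have h2 := (atLeast_iff (hg.ne_zero hs)).1 hgP
    omega
  by_cases hcA : c ∈ A
  · refine ⟨hcA, ?_⟩
    by_cases hs : r - algebraMap k Fk (R.π ⟨c, hcA⟩) = 0
    · exact Or.inl hs
    · exact Or.inr (key _ _ (h.sub (red_const ⟨c, hcA⟩)) hs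
        (fun P' hP' => (hQ P' hP').sub (atLeast_algebraMap c)) hc)
  · exfalso
    have hci : c⁻¹ ∈ A := (A.mem_or_inv_mem c).resolve_left hcA
    have hc0 : c ≠ 0 := fun h0 => hcA (h0 ▸ zero_mem A)
    have h0 : R.π ⟨c⁻¹, hci⟩ = 0 := by
      rw [R.π_eq_zero]
      show A.valuation c⁻¹ < 1
      rw [map_inv₀]
      exact inv_lt_one_of_one_lt₀ (lt_of_not_ge fun h => hcA ((A.valuation_le_one_iff c).1 h))
    have hg := red_one.sub ((red_const (R := R) ⟨c⁻¹, hci⟩).mul h)
    rw [h0, map_zero, zero_mul, sub_zero] at hg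
    have hgP : AtLeast P 1 (1 - algebraMap K F c⁻¹ * f) := by
      have := (hc.smul c⁻¹).neg
      rw [inv_mul_cancel₀ hc0, map_one, neg_sub] at this
      exact this
    have := key _ _ hg one_ne_zero
      (fun P' hP' => (AtLeast.sub (Or.inr (by simp)) ((hQ P' hP').smul c⁻¹))) hgP
    simp at this

include hk

theorem spl_surjective : Function.Surjective R.spl := by
  intro Q
  obtain ⟨⟨u, hu⟩, htr⟩ := R.exists_nonconst
  set r := R.red ⟨u, hu⟩
  have hr : R.Red u r := ⟨hu, rfl⟩
  have hr0 : r ≠ 0 := fun h => htr (h ▸ isAlgebraic_zero)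
  rcases lt_or_ge (Q.ord r) 0 with hneg | hpos
  · exact exists_ne_zero_of_ord hF hr hr0 hneg.ne
  · obtain ⟨b, hb⟩ := exists_hasValue hk (Or.inr hpos : AtLeast Q 0 r)
    obtain ⟨a, rfl⟩ := R.π_surjective b
    have hne : r - algebraMap k Fk (R.π a) ≠ 0 := fun h =>
      htr (by rw [sub_eq_zero.1 h]; exact isAlgebraic_algebraMap _)
    exact exists_ne_zero_of_ord hF (hr.sub (red_const a)) hne
      (ne_of_gt ((atLeast_iff hne).1 hb))

omit [IsAlgClosed k] hk in
theorem red_mem_riemannRochSpace {D : Divisor K F} {f : F} {r : Fk} (h : R.Red f r)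
    (hf : f ∈ riemannRochSpace D) : r ∈ riemannRochSpace (R.push D) := by
  rw [FA.Curve.mem_riemannRochSpace]
  intro Q
  rcases eq_or_ne r 0 with rfl | hr
  · exact atLeast_zero
  have hle : 0 ≤ divOf hF f + D := Finsupp.le_def.2 fun P => by
    have := (atLeast_iff (h.ne_zero hr)).1 (FA.Curve.mem_riemannRochSpace.1 hf P)
    simp only [Finsupp.coe_zero, Pi.zero_apply, Finsupp.add_apply, divOf_apply]
    omega
  have := Finsupp.le_def.1 (push_nonneg (R := R) hle) Q
  rw [push_add, Finsupp.add_apply, push_divOf hF h hr Q] at this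
  simp only [Finsupp.coe_zero, Pi.zero_apply] at this
  exact Or.inr (by omega)

/-- A basis of a subspace of `L(D)` with independent reductions. -/
theorem exists_lift_basis (D : Divisor K F) (n : ℕ) :
    ∀ V : Submodule K F, V ≤ riemannRochSpace D → Module.finrank K V = n →
      ∃ (e : Fin n → F) (r : Fin n → Fk),
        (∀ i, e i ∈ V) ∧ (∀ i, R.Red (e i) (r i)) ∧ LinearIndependent k r := by
  classical
  induction n with
  | zero =>
    intro V _ _
    exact ⟨Fin.elim0, Fin.elim0, fun i => i.elim0, fun i => i.elim0, linearIndependent_empty_type⟩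
  | succ n ih =>
    intro V hV hn
    haveI := finite_riemannRochSpace hF D
    haveI : Module.Finite K V := Submodule.finiteDimensional_of_le hV
    obtain ⟨f, hfV, hf0⟩ := Submodule.exists_mem_ne_zero_of_ne_bot (p := V) fun h => by
      rw [h, finrank_bot] at hn; omega
    obtain ⟨c, e₀, r₀, hc, hfe, he₀, hr₀⟩ := exists_scale' (R := R) hf0
    have he₀V : e₀ ∈ V := by
      have := V.smul_mem c⁻¹ hfV
      rwa [hfe, Algebra.smul_def, ← mul_assoc, ← map_mul, inv_mul_cancel₀ hc, map_one,
        one_mul] at this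
    -- a place away from `D` and from the divisor of `r₀`
    haveI := infinite_places hk
    obtain ⟨Q, hQ⟩ := (((D.support.image R.spl).finite_toSet).union
      (FA.Curve.finite_support hk r₀)).infinite_compl.nonempty
    simp only [Set.mem_compl_iff, Set.mem_union, Finset.coe_image, Set.mem_image, SetLike.mem_coe,
      Set.mem_ofPred_eq, not_or, not_exists, not_and, not_not] at hQ
    obtain ⟨P, hP⟩ := spl_surjective hF hk (R := R) Q
    have hD : ∀ P' : Place K F, R.spl P' = Q → D P' = 0 := fun P' hP' => by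
      by_contra hne
      exact hQ.1 P' (Finsupp.mem_support_iff.2 hne) hP'
    have hnp : ∀ g ∈ V, NoPole R Q g := fun g hg P' hP' => by
      have := FA.Curve.mem_riemannRochSpace.1 (hV hg) P'
      rwa [hD P' hP', neg_zero] at this
    obtain ⟨a, ha⟩ := exists_hasValue hF (hnp e₀ he₀V P hP)
    obtain ⟨haA, haQ⟩ := hasValue_red hF he₀ (hnp e₀ he₀V) hP ha
    have ha0 : a ≠ 0 := by
      rintro rfl
      have h1 : AtLeast Q 1 r₀ := by
        have := haQ
        rw [show (⟨(0 : K), haA⟩ : A) = 0 from rfl, map_zero, hasValue_zero_iff] at this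
        exact this
      rw [atLeast_iff hr₀, hQ.2] at h1
      omega
    set V' := V ⊓ riemannRochSpace (D - Finsupp.single P 1)
    haveI : Module.Finite K V' := Submodule.finiteDimensional_of_le inf_le_left
    have hmemV' : ∀ g, g ∈ V' ↔ g ∈ V ∧ AtLeast P 1 g := by
      intro g
      refine ⟨fun hg => ⟨hg.1, ?_⟩, fun hg => ⟨hg.1, ?_⟩⟩
      · have := FA.Curve.mem_riemannRochSpace.1 hg.2 P
        simpa [hD P hP] using this
      · rw [SetLike.mem_coe, FA.Curve.mem_riemannRochSpace]
        intro w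
        rcases eq_or_ne w P with rfl | hw
        · simpa [hD w hP] using hg.2
        · simpa [Finsupp.single_eq_of_ne hw] using FA.Curve.mem_riemannRochSpace.1 (hV hg.1) w
    have hsup : V ≤ V' ⊔ Submodule.span K {e₀} := by
      intro g hg
      obtain ⟨b, hb⟩ := exists_hasValue hF (hnp g hg P hP)
      rw [Submodule.mem_sup]
      refine ⟨g - algebraMap K F (b / a) * e₀, (hmemV' _).2 ⟨?_, ?_⟩,
        algebraMap K F (b / a) * e₀, ?_, by ring⟩
      · rw [← Algebra.smul_def]; exact V.sub_mem hg (V.smul_mem _ he₀V)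
      · have := hb.sub (ha.smul (b / a))
        rw [div_mul_cancel₀ _ ha0, sub_self, hasValue_zero_iff] at this
        exact this
      · exact Submodule.mem_span_singleton.2 ⟨b / a, Algebra.smul_def _ _⟩
    have he₀' : e₀ ∉ V' := fun h => ha0 (ha.unique (hasValue_zero_iff.2 ((hmemV' _).1 h).2))
    have hlt : Module.finrank K V' < Module.finrank K V :=
      Submodule.finrank_lt_finrank_of_lt (lt_of_le_of_ne inf_le_left fun h => he₀' (h ▸ he₀V))
    have hge : Module.finrank K V ≤ Module.finrank K V' + 1 := by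
      refine (Submodule.finrank_mono hsup).trans
        ((Submodule.finrank_add_le_finrank_add_finrank _ _).trans (add_le_add le_rfl ?_))
      exact (finrank_span_le_card ({e₀} : Set F)).trans (by simp)
    obtain ⟨e, r, he, her, hli⟩ := ih V' (inf_le_left.trans hV) (by omega)
    refine ⟨Fin.cons e₀ e, Fin.cons r₀ r, fun i => ?_, fun i => ?_, ?_⟩
    · refine Fin.cases he₀V (fun j => ?_) i
      exact ((hmemV' _).1 (he j)).1
    · refine Fin.cases he₀ (fun j => ?_) i
      exact her j
    · rw [linearIndependent_finCons]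
      refine ⟨hli, fun hmem => ?_⟩
      have hall : ∀ z ∈ Submodule.span k (Set.range r), AtLeast Q 1 z := by
        intro z hz
        induction hz using Submodule.span_induction with
        | mem y hy =>
          obtain ⟨j, rfl⟩ := hy
          obtain ⟨h0, hv⟩ := hasValue_red hF (her j) (hnp _ ((hmemV' _).1 (he j)).1) hP
            (hasValue_zero_iff.2 ((hmemV' _).1 (he j)).2)
          rwa [show (⟨(0 : K), h0⟩ : A) = 0 from rfl, map_zero, hasValue_zero_iff] at hv
        | zero => exact atLeast_zero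
        | add x y _ _ hx hy => exact hx.add hy
        | smul b x _ hx => rw [Algebra.smul_def]; exact hx.smul b
      have h1 := hall r₀ hmem
      rw [atLeast_iff hr₀, hQ.2] at h1
      omega

/-- Every element downstairs lifts as soon as the dimensions agree. -/
theorem exists_lift {D : Divisor K F} (hD : ell (R.push D) ≤ ell D) {r : Fk}
    (hr : r ∈ riemannRochSpace (R.push D)) : ∃ f ∈ riemannRochSpace D, R.Red f r := by
  classical
  haveI := finite_riemannRochSpace hk (R.push D)
  obtain ⟨e, ē, he, hred, hli⟩ := exists_lift_basis hF hk (R := R) D _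
    (riemannRochSpace D) le_rfl rfl
  have hmem : ∀ i, ē i ∈ riemannRochSpace (R.push D) := fun i =>
    red_mem_riemannRochSpace hF (hred i) (he i)
  have hspan : Submodule.span k (Set.range ē) = riemannRochSpace (R.push D) := by
    refine Submodule.eq_of_le_of_finrank_le
      (Submodule.span_le.2 (Set.range_subset_iff.2 hmem)) ?_
    rw [finrank_span_eq_card hli, Fintype.card_fin]
    exact Int.ofNat_le.1 hD
  rw [← hspan, Submodule.mem_span_range_iff_exists_fun] at hr
  obtain ⟨b, rfl⟩ := hr
  choose a ha using fun i => R.π_surjective (b i)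
  refine ⟨∑ i, algebraMap K F (a i : K) * e i, sum_mem fun i _ => ?_, ?_⟩
  · rw [← Algebra.smul_def]; exact Submodule.smul_mem _ _ (he i)
  · have hs : ∀ s : Finset (Fin (Module.finrank K (riemannRochSpace D))),
        R.Red (∑ i ∈ s, algebraMap K F (a i : K) * e i) (∑ i ∈ s, b i • ē i) := by
      intro s
      induction s using Finset.induction with
      | empty => simpa using red_zero
      | @insert j s hj ih =>
        rw [Finset.sum_insert hj, Finset.sum_insert hj, Algebra.smul_def, ← ha j]
        exact ((red_const (a j)).mul (hred j)).add ih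
    exact hs _

/-- Coordinates on a residue disc. -/
def IsCoord (R : Reduction K F k Fk A) (Q : Place k Fk) (t : F) : Prop :=
  ∃ r : Fk, R.Red t r ∧ Q.ord r = 1 ∧ NoPole R Q t

theorem exists_coord (hg : genus K F ≤ genus k Fk) (Q : Place k Fk) :
    ∃ t : F, IsCoord R Q t := by
  classical
  obtain ⟨c, hc⟩ := exists_threshold hF
  obtain ⟨c', hc'⟩ := exists_threshold hk
  haveI := infinite_places hk
  obtain ⟨Q₀, hQ₀⟩ := (Set.finite_singleton Q).infinite_compl.nonempty
  rw [Set.mem_compl_iff, Set.mem_singleton_iff] at hQ₀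
  obtain ⟨P₀, hP₀⟩ := spl_surjective hF hk (R := R) Q₀
  set N : ℕ := c.toNat + c'.toNat + 2
  have hdeg : ∀ j : ℤ, Divisor.degree (Finsupp.single Q₀ (N : ℤ) - Finsupp.single Q j) = N - j :=
    fun j => by simp [hk.deg_eq_one]
  have hell1 := hc' (Finsupp.single Q₀ (N : ℤ) - Finsupp.single Q 1) (by rw [hdeg]; omega)
  have hell2 := hc' (Finsupp.single Q₀ (N : ℤ) - Finsupp.single Q 2) (by rw [hdeg]; omega)
  rw [hdeg] at hell1 hell2
  obtain ⟨r, hr, hr'⟩ : ∃ r ∈ riemannRochSpace (Finsupp.single Q₀ (N : ℤ) - Finsupp.single Q 1),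
      r ∉ riemannRochSpace (Finsupp.single Q₀ (N : ℤ) - Finsupp.single Q 2) := by
    by_contra hno
    push Not at hno
    haveI := finite_riemannRochSpace hk (Finsupp.single Q₀ (N : ℤ) - Finsupp.single Q 2)
    have h := Submodule.finrank_mono (s := riemannRochSpace
      (Finsupp.single Q₀ (N : ℤ) - Finsupp.single Q 1)) hno
    have : ell (Finsupp.single Q₀ (N : ℤ) - Finsupp.single Q 1) ≤
        ell (Finsupp.single Q₀ (N : ℤ) - Finsupp.single Q 2) := Int.ofNat_le.2 h
    omega
  have hordQ : Q.ord r = 1 := by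
    rw [FA.Curve.mem_riemannRochSpace] at hr hr'
    push Not at hr'
    obtain ⟨w, hw⟩ := hr'
    have hw' := hr w
    rw [AtLeast, not_or] at hw
    rw [atLeast_iff hw.1] at hw'
    rcases eq_or_ne w Q with rfl | hwQ
    · simp [Finsupp.single_eq_of_ne (Ne.symm hQ₀)] at hw hw'
      omega
    · simp [Finsupp.single_eq_of_ne hwQ] at hw hw'
      omega
  set D : Divisor K F := Finsupp.single P₀ (N : ℤ)
  have hpush : R.push D = Finsupp.single Q₀ (N : ℤ) := by rw [push_single, hP₀]
  have hD : ell (R.push D) ≤ ell D := by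
    rw [hc D (by simp [D, hF.deg_eq_one]; omega),
      hc' (R.push D) (by simp [hpush, hk.deg_eq_one]; omega), degree_push hF hk]
    omega
  have hrD : r ∈ riemannRochSpace (R.push D) := by
    rw [hpush]
    exact riemannRochSpace_mono (sub_le_self _ (Finsupp.single_nonneg.2 zero_le_one)) hr
  obtain ⟨t, ht, htr⟩ := exists_lift hF hk hD hrD
  refine ⟨t, r, htr, hordQ, fun P hP => ?_⟩
  have := FA.Curve.mem_riemannRochSpace.1 ht P
  rwa [Finsupp.single_eq_of_ne (fun h => hQ₀ (by rw [← hP₀, ← h, hP])), neg_zero] at this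

omit [IsAlgClosed k] hk in
/-- The coordinate of a place of the disc. -/
theorem IsCoord.exists_value {Q : Place k Fk} {t : F} (ht : IsCoord R Q t)
    {P : Place K F} (hP : R.spl P = Q) :
    ∃ a : K, HasValue P t a ∧ A.valuation a < 1 ∧ P.ord (t - algebraMap K F a) = 1 ∧
      ∀ P', R.spl P' = Q → P' ≠ P → P'.ord (t - algebraMap K F a) = 0 := by
  classical
  obtain ⟨r, htr, hord, hnp⟩ := ht
  obtain ⟨a, ha⟩ := exists_hasValue hF (hnp P hP)
  obtain ⟨haA, hav⟩ := hasValue_red hF htr hnp hP ha
  have hr0 : r ≠ 0 := fun h => by simp [h] at hord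
  have hzero : HasValue Q r 0 := hasValue_zero_iff.2 (Or.inr hord.ge)
  have hπ : R.π ⟨a, haA⟩ = 0 := hav.unique hzero
  have hred := htr.sub (red_const (R := R) ⟨a, haA⟩)
  rw [hπ, map_zero, sub_zero] at hred
  replace hred : R.Red (t - algebraMap K F a) r := hred
  have hne := hred.ne_zero hr0
  have hnp' : NoPole R Q (t - algebraMap K F a) :=
    fun P' hP' => (hnp P' hP').sub (atLeast_algebraMap a)
  have h1 := (atLeast_iff hne).1 ha
  have hsingle := sum_le_ord hF hred hr0 hnp' {P}
    (fun _ h => Finset.mem_singleton.1 h ▸ hP)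
  rw [Finset.sum_singleton, hord] at hsingle
  refine ⟨a, ha, (R.π_eq_zero _).1 hπ, by
    show P.ord (t - algebraMap K F a) = 1
    exact le_antisymm hsingle h1, fun P' hP' hPP' => ?_⟩
  have h2 := sum_le_ord hF hred hr0 hnp' {P, P'} (by
    intro x hx
    rcases Finset.mem_insert.1 hx with rfl | hx
    · exact hP
    · rw [Finset.mem_singleton.1 hx]; exact hP')
  rw [Finset.sum_pair hPP'.symm, hord] at h2
  have h3 := (atLeast_iff hne).1 (hnp' P' hP')
  omega

end Reduction

end FA.CurveRed
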