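import Fermat.Agent.CurveRed.Transfer

/-!
# The centre of a place on the special fibre

A place where `x` has an integral value specialises to a place of the reduced curve: the values of
the regular functions reduce to the values of their reductions.
-/

set_option autoImplicit false
set_option linter.style.haveILetI false
set_option linter.unusedSectionVars false
set_option maxHeartbeats 1600000

noncomputable section

namespace FA.CurveRed.ConstRed

open AlgebraicCurve FA.ModField FA.Curve Polynomial IntermediateField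

variable {K F k Fk : Type*} [Field K] [Field F] [Algebra K F] [Field k] [Field Fk] [Algebra k Fk]
  {A : ValuationSubring K} {C : ConstRed K F k Fk A} [IsAlgClosed K] [IsAlgClosed k]
  (hF : IsFunctionField K F) (hk : IsFunctionField k Fk) {x : F} {xb : Fk}

omit [IsAlgClosed K] [IsAlgClosed k] in
/-- A linearly independent family of reductions comes from an independent family. -/
theorem linearIndependent_of_red {ι : Type*} [Fintype ι] {z : ι → F} {zb : ι → Fk}
    (hz : ∀ i, C.Red (z i) (zb i)) (hzb : LinearIndependent k zb) : LinearIndependent K z := by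
  classical
  rw [Fintype.linearIndependent_iff]
  intro a ha
  by_contra hne
  push Not at hne
  obtain ⟨j, hj0, hj⟩ := exists_max_coeff A a hne
  have h1 : C.Red (∑ i, algebraMap K F (a i / a j) * z i)
      (∑ i, algebraMap k Fk (C.π ⟨_, hj i⟩) * zb i) :=
    red_sum fun i _ => (red_const ⟨_, hj i⟩).mul (hz i)
  have h0 : ∑ i, algebraMap K F (a i / a j) * z i = 0 := by
    have h2 : ∑ i, algebraMap K F (a i) * z i = 0 := by simpa [Algebra.smul_def] using ha
    rw [← mul_zero (algebraMap K F (a j)⁻¹), ← h2, Finset.mul_sum]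
    exact Finset.sum_congr rfl fun i _ => by rw [div_eq_inv_mul, map_mul, mul_assoc]
  rw [h0] at h1
  have h3 := Fintype.linearIndependent_iff.1 hzb (fun i => C.π ⟨_, hj i⟩)
    (by simpa [Algebra.smul_def] using (red_zero.unique h1).symm) j
  rw [C.π_eq_zero] at h3
  simp [div_self hj0] at h3

/-- `Q` is a centre of `P`: values of regular functions reduce to values of reductions. -/
def IsCenter (C : ConstRed K F k Fk A) (x : F) (xb : Fk) (P : Place K F) (Q : Place k Fk) : Prop :=
  0 ≤ Q.ord xb ∧ ∀ (u : F) (ub : Fk), u ∈ regSub (K := K) x → C.Red u ub → ∀ b : K, HasValue P u b →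
    ∃ hb : b ∈ A, HasValue Q ub (C.π ⟨b, hb⟩)

include hF hk

/-- A regular function reducing to `1` has no zero where `x` is integral. -/
theorem Chart.not_zero_of_red_one (h : C.Chart x xb) {P : Place K F} {c : K} (hcA : c ∈ A)
    (hc : HasValue P x c) {g : F} (hg : g ∈ regSub (K := K) x) (hg1 : C.Red g 1) :
    ¬ AtLeast P 1 g := by
  classical
  intro hgP
  have hx := h.transX
  have hg0 : g ≠ 0 := hg1.ne_zero one_ne_zero
  haveI := hF.finiteDimensional hx
  haveI := hk.finiteDimensional h.trans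
  haveI := hasPrincipalDivisors hF
  haveI : Algebra.IsIntegral K⟮x⟯ F := Algebra.IsIntegral.of_finite _ _
  obtain ⟨n, bk, y, hy⟩ := h.exists_lifts hk
  have hn : Module.finrank K⟮x⟯ F ≤ Fintype.card (Fin n) :=
    h.degree_le.trans (Module.finrank_eq_card_basis bk).le
  have hN := red_norm h.compat h.scaled_base bk hy hn hg1
  rw [map_one] at hN
  set Nm := Algebra.norm K⟮x⟯ g
  have hN' : C.Red (Nm : F) 1 := comap_red.1 hN
  have hx0 : x ≠ 0 := x_ne_zero hF hx
  set gx : K⟮x⟯ := AdjoinSimple.gen K x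
  have hfib : ∀ (Q : Place K F) (w : Place K F), w ∈ (Q.restrict K⟮x⟯).fiber F →
      (0 ≤ Q.ord x ↔ 0 ≤ w.ord x) := by
    intro Q w hw
    have h1 := ord_coe hF hx Q gx
    have h2 := ord_coe hF hx w gx
    rw [show ((gx : K⟮x⟯) : F) = x from rfl] at h1 h2
    rw [h1, h2, Place.mem_fiber.1 hw]
    have e1 : (0 : ℤ) < Q.ramificationIndex K⟮x⟯ := by exact_mod_cast Q.ramificationIndex_pos
    have e2 : (0 : ℤ) < w.ramificationIndex K⟮x⟯ := by exact_mod_cast w.ramificationIndex_pos
    rw [mul_nonneg_iff_of_pos_left e1, mul_nonneg_iff_of_pos_left e2]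
  have hordN : ∀ Q : Place K F, ((Nm : K⟮x⟯) : F) ≠ 0 ∧ Q.ord (Nm : F) =
      (Q.ramificationIndex K⟮x⟯ : ℤ) * ∑ w ∈ (Q.restrict K⟮x⟯).fiber F, w.ord g := by
    intro Q
    refine ⟨hN'.ne_zero one_ne_zero, ?_⟩
    rw [ord_coe hF hx, sum_fiber_ord (isFunctionField_simple hx) hF _ hg0]
  have hreg : (Nm : F) ∈ regSub (K := K) x := fun Q hQ => Or.inr (by
    rw [(hordN Q).2]
    exact mul_nonneg (Int.natCast_nonneg _) (Finset.sum_nonneg fun w hw =>
      (atLeast_iff hg0).1 (hg w ((hfib Q w hw).1 hQ))))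
  obtain ⟨p, hp⟩ := exists_poly hF hx Nm.2 hreg
  rw [hp] at hN'
  obtain ⟨p', rfl, hp'⟩ := red_poly h.red_x h.trans hN'
  have hp1 : p'.map C.π = 1 := by
    refine sub_eq_zero.1 (transcendental_iff.1 h.trans _ ?_)
    rw [map_sub, map_one, ← hp', sub_self]
  have hxP : 0 ≤ P.ord x := (atLeast_iff hx0).1 hc.atLeast
  have hP0 : (p'.map A.subtype).eval c = 0 := by
    refine (hc.aeval _).unique ?_
    rw [← hp, hasValue_zero_iff]
    refine Or.inr ?_
    rw [(hordN P).2]
    have hmem : P ∈ (P.restrict K⟮x⟯).fiber F := Place.mem_fiber.2 rfl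
    have h1 := Finset.single_le_sum (f := fun w : Place K F => w.ord g)
      (fun w hw => (atLeast_iff hg0).1 (hg w ((hfib P w hw).1 hxP))) hmem
    have p1 : (1 : ℤ) ≤ P.ramificationIndex K⟮x⟯ := by
      exact_mod_cast P.ramificationIndex_pos
    have h2 := (atLeast_iff hg0).1 hgP
    nlinarith
  have h1 : p'.eval ⟨c, hcA⟩ = 0 := by
    apply A.subtype_injective
    rw [map_zero, ← eval₂_hom, ← eval_map]
    exact hP0
  have h2 := congrArg C.π h1
  rw [← eval₂_hom, ← eval_map, hp1, eval_one, map_zero] at h2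
  exact one_ne_zero h2

/-- Values of integral regular functions are integral, and small if the reduction vanishes. -/
theorem Chart.value_mem (h : C.Chart x xb) {P : Place K F} {c : K} (hcA : c ∈ A)
    (hc : HasValue P x c) {u : F} {ub : Fk} (hu : u ∈ regSub (K := K) x) (hub : C.Red u ub)
    {b : K} (hb : HasValue P u b) : ∃ hbA : b ∈ A, ub = 0 → C.π ⟨b, hbA⟩ = 0 := by
  have key : ∀ (hbi : b⁻¹ ∈ A), b ≠ 0 →
      algebraMap k Fk (C.π ⟨b⁻¹, hbi⟩) * ub = 0 → False := by
    intro hbi hb0 h0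
    have hg1 := red_one.sub ((red_const (C := C) ⟨b⁻¹, hbi⟩).mul hub)
    rw [h0, sub_zero] at hg1
    refine h.not_zero_of_red_one hF hk hcA hc
      (sub_mem (one_mem _) (mul_mem ((regSub (K := K) x).algebraMap_mem _) hu)) hg1 ?_
    have h1 := (hb.smul b⁻¹).neg
    rwa [inv_mul_cancel₀ hb0, map_one, neg_sub] at h1
  by_cases hbA : b ∈ A
  · refine ⟨hbA, fun hub0 => ?_⟩
    by_contra hne
    have hb0 : b ≠ 0 := fun h0 => hne (by
      rw [show (⟨b, hbA⟩ : A) = 0 from Subtype.ext h0, map_zero])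
    have hbi : b⁻¹ ∈ A := by
      rw [C.π_eq_zero, not_lt] at hne
      rw [← A.valuation_le_one_iff, map_inv₀]
      exact inv_le_one_of_one_le₀ hne
    exact key hbi hb0 (by rw [hub0, mul_zero])
  · exfalso
    have hbi : b⁻¹ ∈ A := (A.mem_or_inv_mem b).resolve_left hbA
    have hb0 : b ≠ 0 := fun h0 => hbA (h0 ▸ zero_mem A)
    refine key hbi hb0 ?_
    have : C.π ⟨b⁻¹, hbi⟩ = 0 := by
      rw [C.π_eq_zero]
      show A.valuation b⁻¹ < 1
      rw [map_inv₀]
      exact inv_lt_one_of_one_lt₀ (lt_of_not_ge fun h' => hbA ((A.valuation_le_one_iff b).1 h'))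
    rw [this, map_zero, zero_mul]

/-- The centre exists. -/
theorem Chart.exists_center (h : C.Chart x xb) (hfull : C.Full x xb) {P : Place K F} {c : K}
    (hcA : c ∈ A) (hc : HasValue P x c) : ∃ Q, IsCenter C x xb P Q := by
  classical
  have hx := h.transX
  have hx0 : x ≠ 0 := x_ne_zero hF hx
  have hxb0 : xb ≠ 0 := x_ne_zero hk h.trans
  have hxP : 0 ≤ P.ord x := (atLeast_iff hx0).1 hc.atLeast
  set cb := C.π ⟨c, hcA⟩
  have hxc : C.Red (x - algebraMap K F c) (xb - algebraMap k Fk cb) :=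
    h.red_x.sub (red_const ⟨c, hcA⟩)
  have hne : xb - algebraMap k Fk cb ≠ 0 := fun h0 =>
    h.trans (by rw [sub_eq_zero.1 h0]; exact isAlgebraic_algebraMap _)
  set S := (finite_zeros hk (xb - algebraMap k Fk cb)).toFinset
  have hS : ∀ Q, Q ∈ S ↔ 0 < Q.ord (xb - algebraMap k Fk cb) := fun Q => Set.Finite.mem_toFinset _
  have hSfin : ∀ Q ∈ S, 0 ≤ Q.ord xb := fun Q hQ => (atLeast_iff hxb0).1
    (show HasValue Q xb cb from Or.inr (Int.add_one_le_iff.2 ((hS Q).1 hQ))).atLeast
  by_contra hno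
  push Not at hno
  have hfac : ∀ Q ∈ S, ∃ (w : F) (wb : Fk) (b : K) (hb : b ∈ A), w ∈ regSub (K := K) x ∧
      C.Red w wb ∧ HasValue P w b ∧ AtLeast Q 1 wb ∧ C.π ⟨b, hb⟩ ≠ 0 := by
    intro Q hQ
    have h1 := hno Q
    rw [IsCenter, not_and] at h1
    have h2 := h1 (hSfin Q hQ)
    push Not at h2
    obtain ⟨u, ub, hu, hub, b, hb, hbad⟩ := h2
    obtain ⟨hbA, -⟩ := h.value_mem hF hk hcA hc hu hub hb
    obtain ⟨d, hd⟩ := exists_hasValue hk (h.red_mem_regSub hF hk hu hub Q (hSfin Q hQ))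
    obtain ⟨a, ha⟩ := C.π_surjective d
    refine ⟨u - algebraMap K F (a : K), ub - algebraMap k Fk (C.π a), b - a,
      sub_mem hbA a.2, sub_mem hu ((regSub (K := K) x).algebraMap_mem _),
      hub.sub (red_const a), hb.sub (hasValue_algebraMap P _), ha.symm ▸ hd, fun h0 => ?_⟩
    have he : C.π ⟨b, hbA⟩ = d := by
      rw [show (⟨b - a, sub_mem hbA a.2⟩ : A) = ⟨b, hbA⟩ - a from rfl, map_sub, sub_eq_zero] at h0
      rw [h0, ha]
    exact hbad hbA (he.symm ▸ hd)
  choose! w wb b hbA hw hwb hbv hQ hπb using hfac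
  set N : ℕ := ∑ Q ∈ S, (Q.ord (xb - algebraMap k Fk cb)).natAbs + 1
  set W := (∏ Q ∈ S, w Q) ^ N
  set Wb := (∏ Q ∈ S, wb Q) ^ N
  have hWreg : W ∈ regSub (K := K) x := pow_mem (prod_mem fun Q hQ' => hw Q hQ') N
  have hWred : C.Red W Wb := (red_prod fun Q hQ' => hwb Q hQ').pow N
  have hWbreg : Wb ∈ regSub (K := k) xb := h.red_mem_regSub hF hk hWreg hWred
  set zb := Wb * (xb - algebraMap k Fk cb)⁻¹ with hzbdef
  have hzb : zb ∈ regSub (K := k) xb := by
    intro Q hQ'
    rcases eq_or_ne Wb 0 with h0 | h0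
    · rw [hzbdef, h0, zero_mul]; exact atLeast_zero
    refine Or.inr ?_
    have hW0 := (atLeast_iff h0).1 (hWbreg Q hQ')
    rw [hzbdef, Q.ord_mul h0 (inv_ne_zero hne), Q.ord_inv]
    have hnn : 0 ≤ Q.ord (xb - algebraMap k Fk cb) := (atLeast_iff hne).1
      (AtLeast.sub (Or.inr hQ' : AtLeast Q 0 xb) (atLeast_algebraMap cb))
    rcases hnn.lt_or_eq with hpos | hzero
    · have hmem : Q ∈ S := (hS Q).2 hpos
      have hbig : AtLeast Q ((N : ℤ) * 1) Wb := by
        refine atLeast_pow ?_ N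
        rw [← Finset.mul_prod_erase _ _ hmem]
        have := (hQ Q hmem).mul (show AtLeast Q 0 (∏ Q' ∈ S.erase Q, wb Q') from
          prod_mem (S := regSub (K := k) xb) (fun Q' hQ'' => h.red_mem_regSub hF hk
            (hw Q' (Finset.mem_of_mem_erase hQ'')) (hwb Q' (Finset.mem_of_mem_erase hQ''))) Q hQ')
        simpa using this
      have h1 := (atLeast_iff h0).1 hbig
      have h2 := Finset.single_le_sum
        (f := fun Q' : Place k Fk => (Q'.ord (xb - algebraMap k Fk cb)).natAbs)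
        (fun _ _ => Nat.zero_le _) hmem
      omega
    · omega
  obtain ⟨z, hz, hzred⟩ := hfull zb hzb
  have hred0 : C.Red (W - z * (x - algebraMap K F c)) 0 := by
    have h1 := hWred.sub (hzred.mul hxc)
    rwa [hzbdef, mul_assoc, inv_mul_cancel₀ hne, mul_one, sub_self] at h1
  obtain ⟨zv, hzv⟩ := exists_hasValue hF (hz P hxP)
  have hprod : ∀ T : Finset (Place k Fk), T ⊆ S →
      ∃ hT : (∏ Q ∈ T, b Q) ∈ A, HasValue P (∏ Q ∈ T, w Q) (∏ Q ∈ T, b Q) ∧
        C.π ⟨_, hT⟩ ≠ 0 := by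
    intro T
    induction T using Finset.induction with
    | empty =>
      intro _
      refine ⟨by simp, by simpa using hasValue_algebraMap P (1 : K), ?_⟩
      simp only [Finset.prod_empty]
      rw [show (⟨(1 : K), _⟩ : A) = 1 from rfl, map_one]
      exact one_ne_zero
    | @insert a T ha ih =>
      intro hsub
      rw [Finset.insert_subset_iff] at hsub
      obtain ⟨hT, hTv, hTπ⟩ := ih hsub.2
      have hm : (∏ Q ∈ insert a T, b Q) ∈ A := by
        rw [Finset.prod_insert ha]; exact mul_mem (hbA a hsub.1) hT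
      refine ⟨hm, ?_, ?_⟩
      · rw [Finset.prod_insert ha, Finset.prod_insert ha]; exact (hbv a hsub.1).mul hTv
      · rw [show (⟨_, hm⟩ : A) = ⟨b a, hbA a hsub.1⟩ * ⟨_, hT⟩ from
          Subtype.ext (Finset.prod_insert ha), map_mul]
        exact mul_ne_zero (hπb a hsub.1) hTπ
  obtain ⟨hT, hTv, hTπ⟩ := hprod S (Finset.Subset.refl S)
  have hv : HasValue P (W - z * (x - algebraMap K F c)) ((∏ Q ∈ S, b Q) ^ N) := by
    have h1 := (hTv.pow N).sub (hzv.mul (hc.sub (hasValue_algebraMap P c)))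
    rwa [sub_self, mul_zero, sub_zero] at h1
  obtain ⟨hA', hπ'⟩ := h.value_mem hF hk hcA hc
    (sub_mem hWreg (mul_mem hz (sub_mem (self_mem_regSub x)
      ((regSub (K := K) x).algebraMap_mem _)))) hred0 hv
  have h3 := hπ' rfl
  rw [show (⟨_, hA'⟩ : A) = ⟨_, hT⟩ ^ N from rfl, map_pow, pow_eq_zero_iff] at h3
  · exact hTπ h3
  · omega

end FA.CurveRed.ConstRed
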