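import Fermat.Agent.Curve.Basic

/-!
# Constant reductions and finite extensions

A `ConstRed` is a ring of integral functions with its reduction.  If every element of a subfield
can be scaled to a nonzero reduction, and a family lifts a basis of the reduced extension whose
size is at least the degree, then the same holds for the whole field, coordinates of integral
elements are integral, and trace and norm commute with reduction.
-/

set_option autoImplicit false
set_option linter.style.haveILetI false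
set_option linter.unusedSectionVars false

noncomputable section

namespace FA.CurveRed

open Polynomial

/-- Integral functions with their reduction. -/
structure ConstRed (K F k Fk : Type*) [Field K] [Field F] [Algebra K F] [Field k] [Field Fk]
    [Algebra k Fk] (A : ValuationSubring K) where
  /-- the residue map -/
  π : A →+* k
  π_surjective : Function.Surjective π
  π_eq_zero : ∀ a : A, π a = 0 ↔ A.valuation a < 1
  /-- the integral functions -/
  G : Subring F
  algebraMap_mem : ∀ a : A, algebraMap K F a ∈ G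
  /-- the reduction -/
  red : G →+* Fk
  red_algebraMap : ∀ a : A, red ⟨algebraMap K F a, algebraMap_mem a⟩ = algebraMap k Fk (π a)
  red_inv : ∀ g : G, red g ≠ 0 →
    ∃ h : ((g : F))⁻¹ ∈ G, red ⟨(g : F)⁻¹, h⟩ = (red g)⁻¹

namespace ConstRed

section Single

variable {K F k Fk : Type*} [Field K] [Field F] [Algebra K F] [Field k] [Field Fk] [Algebra k Fk]
  {A : ValuationSubring K} (C : ConstRed K F k Fk A)

/-- `f` is integral with reduction `r`. -/
def Red (f : F) (r : Fk) : Prop := ∃ h : f ∈ C.G, C.red ⟨f, h⟩ = r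

variable {C}

theorem Red.unique {f : F} {r r' : Fk} (h : C.Red f r) (h' : C.Red f r') : r = r' :=
  h.2.symm.trans h'.2

theorem red_of_mem (g : C.G) : C.Red (g : F) (C.red g) := ⟨g.2, rfl⟩

theorem Red.add {f g : F} {r s : Fk} (h : C.Red f r) (h' : C.Red g s) : C.Red (f + g) (r + s) :=
  ⟨add_mem h.1 h'.1, by rw [← h.2, ← h'.2, ← map_add]; rfl⟩

theorem Red.mul {f g : F} {r s : Fk} (h : C.Red f r) (h' : C.Red g s) : C.Red (f * g) (r * s) :=
  ⟨mul_mem h.1 h'.1, by rw [← h.2, ← h'.2, ← map_mul]; rfl⟩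

theorem Red.neg {f : F} {r : Fk} (h : C.Red f r) : C.Red (-f) (-r) :=
  ⟨neg_mem h.1, by rw [← h.2, ← map_neg]; rfl⟩

theorem Red.sub {f g : F} {r s : Fk} (h : C.Red f r) (h' : C.Red g s) : C.Red (f - g) (r - s) := by
  rw [sub_eq_add_neg, sub_eq_add_neg]; exact h.add h'.neg

theorem red_one : C.Red 1 1 := ⟨one_mem _, map_one C.red⟩

theorem red_zero : C.Red 0 0 := ⟨zero_mem _, map_zero C.red⟩

theorem Red.pow {f : F} {r : Fk} (h : C.Red f r) (n : ℕ) : C.Red (f ^ n) (r ^ n) := by
  induction n with
  | zero => simpa using red_one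
  | succ n ih => rw [pow_succ, pow_succ]; exact ih.mul h

theorem red_sum {ι : Type*} {s : Finset ι} {f : ι → F} {r : ι → Fk}
    (h : ∀ i ∈ s, C.Red (f i) (r i)) : C.Red (∑ i ∈ s, f i) (∑ i ∈ s, r i) := by
  classical
  induction s using Finset.induction with
  | empty => simpa using red_zero
  | @insert a s ha ih =>
    rw [Finset.sum_insert ha, Finset.sum_insert ha]
    exact (h a (Finset.mem_insert_self a s)).add (ih fun i hi => h i (Finset.mem_insert_of_mem hi))

theorem red_prod {ι : Type*} {s : Finset ι} {f : ι → F} {r : ι → Fk}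
    (h : ∀ i ∈ s, C.Red (f i) (r i)) : C.Red (∏ i ∈ s, f i) (∏ i ∈ s, r i) := by
  classical
  induction s using Finset.induction with
  | empty => simpa using red_one
  | @insert a s ha ih =>
    rw [Finset.prod_insert ha, Finset.prod_insert ha]
    exact (h a (Finset.mem_insert_self a s)).mul (ih fun i hi => h i (Finset.mem_insert_of_mem hi))

theorem red_const (a : A) : C.Red (algebraMap K F a) (algebraMap k Fk (C.π a)) :=
  ⟨C.algebraMap_mem a, C.red_algebraMap a⟩

theorem Red.inv {f : F} {r : Fk} (h : C.Red f r) (hr : r ≠ 0) : C.Red f⁻¹ r⁻¹ := by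
  obtain ⟨h1, h2⟩ := h
  obtain ⟨h3, h4⟩ := C.red_inv ⟨f, h1⟩ (h2 ▸ hr)
  exact ⟨h3, h4.trans (by rw [h2])⟩

theorem Red.ne_zero {f : F} {r : Fk} (h : C.Red f r) (hr : r ≠ 0) : f ≠ 0 := by
  rintro rfl
  exact hr (h.unique red_zero)

theorem red_const_iff {c : K} {r : Fk} :
    C.Red (algebraMap K F c) r ↔ ∃ h : c ∈ A, r = algebraMap k Fk (C.π ⟨c, h⟩) := by
  refine ⟨fun h => ?_, fun ⟨hc, hr⟩ => hr ▸ red_const ⟨c, hc⟩⟩
  by_cases hc : c ∈ A
  · exact ⟨hc, h.unique (red_const ⟨c, hc⟩)⟩
  · exfalso
    have hci : c⁻¹ ∈ A := (A.mem_or_inv_mem c).resolve_left hc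
    have hc0 : c ≠ 0 := fun h0 => hc (h0 ▸ zero_mem A)
    have h0 : C.π ⟨c⁻¹, hci⟩ = 0 := by
      rw [C.π_eq_zero]
      show A.valuation c⁻¹ < 1
      rw [map_inv₀]
      exact inv_lt_one_of_one_lt₀ (lt_of_not_ge fun h => hc ((A.valuation_le_one_iff c).1 h))
    have h1 := (red_const (C := C) ⟨c⁻¹, hci⟩).mul h
    rw [h0, map_zero, zero_mul, ← map_mul, inv_mul_cancel₀ hc0, map_one] at h1
    exact one_ne_zero (red_one.unique h1)

/-- A scalar in front of a function with nonzero reduction. -/
theorem Red.smul_cancel {c : K} {g : F} {r s : Fk} (hg : C.Red g s) (hs : s ≠ 0)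
    (h : C.Red (algebraMap K F c * g) r) :
    ∃ hc : c ∈ A, r = algebraMap k Fk (C.π ⟨c, hc⟩) * s := by
  have h1 := h.mul (hg.inv hs)
  rw [mul_assoc, mul_inv_cancel₀ (hg.ne_zero hs), mul_one] at h1
  obtain ⟨hc, he⟩ := red_const_iff.1 h1
  exact ⟨hc, by rw [← he, mul_assoc, inv_mul_cancel₀ hs, mul_one]⟩

variable (C) in
/-- Every nonzero element of `S` can be scaled to a nonzero reduction. -/
def ScaledOn (S : Set F) : Prop :=
  ∀ f ∈ S, f ≠ 0 → ∃ (c : K) (g : F) (r : Fk), f = algebraMap K F c * g ∧ C.Red g r ∧ r ≠ 0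

variable (C) in
/-- Every nonzero element can be scaled to a nonzero reduction. -/
def Scaled : Prop := C.ScaledOn Set.univ

/-- The scalar of largest valuation in a finite family. -/
theorem exists_max_coeff (A : ValuationSubring K) {ι : Type*} [Fintype ι] (c : ι → K)
    (hc : ∃ i, c i ≠ 0) : ∃ j, c j ≠ 0 ∧ ∀ i, c i / c j ∈ A := by
  classical
  obtain ⟨i₀, hi₀⟩ := hc
  obtain ⟨j, -, hj⟩ := Finset.exists_max_image Finset.univ (fun i => A.valuation (c i))
    ⟨i₀, Finset.mem_univ _⟩
  have hj0 : c j ≠ 0 := fun h => hi₀ (by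
    have h1 := hj i₀ (Finset.mem_univ _)
    rw [h, map_zero] at h1
    exact (map_eq_zero A.valuation).1 (le_antisymm h1 zero_le))
  refine ⟨j, hj0, fun i => (A.valuation_le_one_iff _).1 ?_⟩
  rw [map_div₀]
  exact div_le_one_of_le₀ (hj i (Finset.mem_univ _)) zero_le

/-- Simultaneous scaling. -/
theorem exists_normalize {S : Set F} (hS : C.ScaledOn S) {ι : Type*} [Fintype ι] (a : ι → F)
    (ha : ∀ i, a i ∈ S) :
    (∀ i, a i = 0) ∨ ∃ (c : K) (b : ι → F) (s : ι → Fk), c ≠ 0 ∧
      (∀ i, a i = algebraMap K F c * b i) ∧ (∀ i, C.Red (b i) (s i)) ∧ ∃ i, s i ≠ 0 := by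
  classical
  refine or_iff_not_imp_left.2 fun h => ?_
  push Not at h
  obtain ⟨i₀, hi₀⟩ := h
  have hex : ∀ i, ∃ (c : K) (g : F) (r : Fk), a i = algebraMap K F c * g ∧ C.Red g r ∧
      (c ≠ 0 → r ≠ 0) := by
    intro i
    rcases eq_or_ne (a i) 0 with h0 | h0
    · exact ⟨0, 0, 0, by rw [h0, mul_zero], red_zero, fun h => absurd rfl h⟩
    · obtain ⟨c, g, r, h1, h2, h3⟩ := hS _ (ha i) h0
      exact ⟨c, g, r, h1, h2, fun _ => h3⟩
  choose c g r h1 h2 h3 using hex
  have hci : c i₀ ≠ 0 := fun h => hi₀ (by rw [h1 i₀, h, map_zero, zero_mul])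
  obtain ⟨j, hj0, hj⟩ := exists_max_coeff A c ⟨i₀, hci⟩
  refine ⟨c j, fun i => algebraMap K F (c i / c j) * g i,
    fun i => algebraMap k Fk (C.π ⟨_, hj i⟩) * r i, hj0, fun i => ?_,
    fun i => (red_const ⟨_, hj i⟩).mul (h2 i), j, ?_⟩
  · rw [← mul_assoc, ← map_mul, mul_div_cancel₀ _ hj0, h1 i]
  · have hone : C.π ⟨c j / c j, hj j⟩ = 1 := by
      rw [← map_one C.π]; exact congrArg C.π (Subtype.ext (div_self hj0))
    simp only [hone, map_one, one_mul]
    exact h3 j hj0

/-- `C` on a subfield with prescribed subfield of reductions. -/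
theorem scaledOn_univ (h : C.Scaled) (S : Set F) : C.ScaledOn S := fun f _ hf => h f trivial hf

/-- Finite dimensional subspaces of the span of a family with independent reductions have bases
with independent reductions. -/
theorem exists_lift_basis_of_span {κ : Type*} [Fintype κ] {z : κ → F} {zb : κ → Fk}
    (hz : ∀ i, C.Red (z i) (zb i)) (hzb : LinearIndependent k zb) (n : ℕ) :
    ∀ V : Submodule K F, V ≤ Submodule.span K (Set.range z) → Module.finrank K V = n →
      ∃ (e : Fin n → F) (r : Fin n → Fk), (∀ i, e i ∈ V) ∧ (∀ i, C.Red (e i) (r i)) ∧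
        LinearIndependent k r := by
  classical
  -- linear independence upstairs
  have hli : LinearIndependent K z := by
    rw [Fintype.linearIndependent_iff]
    intro a ha
    by_contra hne
    push Not at hne
    obtain ⟨j, hj0, hj⟩ := exists_max_coeff A a hne
    have h1 : C.Red (∑ i, algebraMap K F (a i / a j) * z i)
        (∑ i, algebraMap k Fk (C.π ⟨_, hj i⟩) * zb i) :=
      red_sum fun i _ => (red_const ⟨_, hj i⟩).mul (hz i)
    have h0 : ∑ i, algebraMap K F (a i / a j) * z i = 0 := by
      have h2 : ∑ i, algebraMap K F (a i) * z i = 0 := by simpa [Algebra.smul_def] using ha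
      rw [← mul_zero (algebraMap K F (a j)⁻¹), ← h2, Finset.mul_sum]
      exact Finset.sum_congr rfl fun i _ => by rw [div_eq_inv_mul, map_mul, mul_assoc]
    rw [h0] at h1
    have h3 := Fintype.linearIndependent_iff.1 hzb (fun i => C.π ⟨_, hj i⟩)
      (by simpa [Algebra.smul_def] using (red_zero.unique h1).symm) j
    rw [C.π_eq_zero] at h3
    simp [div_self hj0] at h3
  set T : Submodule K F := Submodule.span K (Set.range z)
  let b : Module.Basis κ K T := Module.Basis.span hli
  have hrepr : ∀ f (hf : f ∈ T), f = ∑ i, algebraMap K F (b.repr ⟨f, hf⟩ i) * z i := by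
    intro f hf
    have h := congrArg Subtype.val (b.sum_repr ⟨f, hf⟩)
    rw [AddSubmonoidClass.coe_finsetSum] at h
    refine h.symm.trans (Finset.sum_congr rfl fun i _ => ?_)
    rw [Submodule.coe_smul, Algebra.smul_def, Module.Basis.span_apply]
  induction n with
  | zero =>
    intro V _ _
    exact ⟨Fin.elim0, Fin.elim0, fun i => i.elim0, fun i => i.elim0, linearIndependent_empty_type⟩
  | succ n ih =>
    intro V hV hn
    haveI : Module.Finite K T := Module.Finite.span_of_finite K (Set.finite_range z)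
    haveI : Module.Finite K V := Submodule.finiteDimensional_of_le hV
    obtain ⟨f, hfV, hf0⟩ := Submodule.exists_mem_ne_zero_of_ne_bot (p := V) fun h => by
      rw [h, finrank_bot] at hn; omega
    set a := fun i => b.repr ⟨f, hV hfV⟩ i
    obtain ⟨j, hj0, hj⟩ := exists_max_coeff A a (by
      by_contra hne
      push Not at hne
      exact hf0 (by rw [hrepr f (hV hfV)]; simp [hne, a] ))
    set e₀ := algebraMap K F (a j)⁻¹ * f
    have he₀V : e₀ ∈ V := by
      simpa [e₀, Algebra.smul_def] using V.smul_mem (a j)⁻¹ hfV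
    set β := fun i => C.π ⟨_, hj i⟩
    have hβj : β j = 1 := by
      rw [← map_one C.π]; exact congrArg C.π (Subtype.ext (div_self hj0))
    have he₀ : C.Red e₀ (∑ i, algebraMap k Fk (β i) * zb i) := by
      have heq : e₀ = ∑ i, algebraMap K F (a i / a j) * z i := by
        simp only [e₀]
        conv_lhs => rw [hrepr f (hV hfV)]
        rw [Finset.mul_sum]
        exact Finset.sum_congr rfl fun i _ => by rw [div_eq_inv_mul, map_mul, mul_assoc]
      rw [heq]
      exact red_sum fun i _ => (red_const ⟨_, hj i⟩).mul (hz i)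
    -- the hyperplane
    let coordj : V →ₗ[K] K := (b.coord j).comp (Submodule.inclusion hV)
    set V' : Submodule K F := (LinearMap.ker coordj).map V.subtype
    have hV'V : V' ≤ V := by rintro _ ⟨y, -, rfl⟩; exact y.2
    have hmemV' : ∀ g (hg : g ∈ V'), b.repr ⟨g, hV (hV'V hg)⟩ j = 0 := by
      rintro _ ⟨y, hy, rfl⟩
      exact hy
    have hsurj : coordj ⟨e₀, he₀V⟩ = 1 := by
      have : (⟨e₀, hV he₀V⟩ : T) = (a j)⁻¹ • ⟨f, hV hfV⟩ := Subtype.ext (by
        simp [e₀, Algebra.smul_def])
      show b.repr ⟨e₀, hV he₀V⟩ j = 1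
      rw [this, map_smul, Finsupp.smul_apply, smul_eq_mul]
      exact inv_mul_cancel₀ hj0
    have hn' : Module.finrank K V' = n := by
      rw [← (Submodule.equivMapOfInjective V.subtype Subtype.val_injective _).finrank_eq]
      have h1 := LinearMap.finrank_range_add_finrank_ker coordj
      have h2 : LinearMap.range coordj = ⊤ := LinearMap.range_eq_top.2 fun c =>
        ⟨c • ⟨e₀, he₀V⟩, by rw [map_smul, hsurj, smul_eq_mul, mul_one]⟩
      rw [h2, finrank_top, Module.finrank_self, hn] at h1
      omega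
    obtain ⟨e, r, he, her, hlir⟩ := ih V' (hV'V.trans hV) hn'
    have hr : ∀ l, ∃ γ : κ → k, γ j = 0 ∧ r l = ∑ i, γ i • zb i := by
      intro l
      have hl := hrepr (e l) (hV (hV'V (he l)))
      set q := fun i => b.repr ⟨e l, hV (hV'V (he l))⟩ i
      have hqj : q j = 0 := hmemV' _ (he l)
      by_cases hq0 : ∀ i, q i = 0
      · refine ⟨0, rfl, ?_⟩
        have h0 : e l = 0 := by rw [hl]; simp [q] at hq0; simp [hq0]
        have := her l
        rw [h0] at this
        simpa using this.unique red_zero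
      · push Not at hq0
        obtain ⟨i₁, hi₁, hq⟩ := exists_max_coeff A q hq0
        have hred : C.Red (∑ i, algebraMap K F (q i / q i₁) * z i)
            (∑ i, algebraMap k Fk (C.π ⟨_, hq i⟩) * zb i) :=
          red_sum fun i _ => (red_const ⟨_, hq i⟩).mul (hz i)
        have hne : (∑ i, algebraMap k Fk (C.π ⟨_, hq i⟩) * zb i) ≠ 0 := fun h => by
          have h3 := Fintype.linearIndependent_iff.1 hzb (fun i => C.π ⟨_, hq i⟩)
            (by simpa [Algebra.smul_def] using h) i₁
          rw [C.π_eq_zero] at h3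
          simp [div_self hi₁] at h3
        have heq : e l = algebraMap K F (q i₁) * ∑ i, algebraMap K F (q i / q i₁) * z i := by
          conv_lhs => rw [hl]
          rw [Finset.mul_sum]
          exact Finset.sum_congr rfl fun i _ => by
            rw [← mul_assoc, ← map_mul, mul_div_cancel₀ _ hi₁]
        obtain ⟨hc, hrl⟩ := hred.smul_cancel hne (heq ▸ her l)
        refine ⟨fun i => C.π ⟨_, hc⟩ * C.π ⟨_, hq i⟩, ?_, ?_⟩
        · have : C.π ⟨q j / q i₁, hq j⟩ = 0 := by
            rw [← map_zero C.π]; exact congrArg C.π (Subtype.ext (by simp [hqj]))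
          simp [this]
        · rw [hrl, Finset.mul_sum]
          exact Finset.sum_congr rfl fun i _ => by rw [Algebra.smul_def, map_mul, mul_assoc]
    choose γ hγj hγ using hr
    refine ⟨Fin.cons e₀ e, Fin.cons (∑ i, algebraMap k Fk (β i) * zb i) r, fun i => ?_,
      fun i => ?_, ?_⟩
    · refine Fin.cases he₀V (fun l => hV'V (he l)) i
    · refine Fin.cases he₀ (fun l => her l) i
    · rw [linearIndependent_finCons]
      refine ⟨hlir, fun hmem => ?_⟩
      obtain ⟨d, hd⟩ := (Submodule.mem_span_range_iff_exists_fun k).1 hmem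
      have h3 := Fintype.linearIndependent_iff.1 hzb (fun i => β i - ∑ l, d l * γ l i) (by
        simp only [sub_smul, Finset.sum_sub_distrib, Finset.sum_smul, mul_smul]
        rw [Finset.sum_comm]
        simp only [← Finset.smul_sum, ← hγ, hd]
        simp [Algebra.smul_def]) j
      simp [hβj, hγj] at h3

end Single

section Compat

variable {K E F k Ek Fk : Type*} [Field K] [Field E] [Field F] [Algebra K E] [Algebra K F]
  [Algebra E F] [IsScalarTower K E F] [Field k] [Field Ek] [Field Fk] [Algebra k Ek] [Algebra k Fk]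
  [Algebra Ek Fk] [IsScalarTower k Ek Fk] {A : ValuationSubring K}

/-- Reductions of the small and of the big field agree. -/
def Compat (C₀ : ConstRed K E k Ek A) (C : ConstRed K F k Fk A) : Prop :=
  ∀ e r, C₀.Red e r → C.Red (algebraMap E F e) (algebraMap Ek Fk r)

variable {C₀ : ConstRed K E k Ek A} {C : ConstRed K F k Fk A} (hc : Compat C₀ C)
  (hs : C₀.Scaled) {ι : Type*} [Fintype ι] (bk : Module.Basis ι Ek Fk) {y : ι → F}
  (hy : ∀ i, C.Red (y i) (bk i))

include hc hs bk hy

theorem linearIndependent_lift : LinearIndependent E y := by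
  rw [Fintype.linearIndependent_iff]
  intro a ha
  rcases exists_normalize hs a (fun _ => trivial) with h | ⟨c, b, s, hc0, hab, hbs, i, hi⟩
  · exact h
  exfalso
  have h1 : C.Red (∑ i, algebraMap E F (b i) * y i) (∑ i, algebraMap Ek Fk (s i) * bk i) :=
    red_sum fun i _ => (hc _ _ (hbs i)).mul (hy i)
  have h0 : ∑ i, algebraMap E F (b i) * y i = 0 := by
    have h2 : ∑ i, algebraMap E F (a i) * y i = 0 := by simpa [Algebra.smul_def] using ha
    simp only [hab, map_mul, ← IsScalarTower.algebraMap_apply, mul_assoc, ← Finset.mul_sum] at h2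
    exact (mul_eq_zero.1 h2).resolve_left (by simpa using hc0)
  rw [h0] at h1
  exact hi (Fintype.linearIndependent_iff.1 bk.linearIndependent s
    (by simpa [Algebra.smul_def] using (red_zero.unique h1).symm) i)

theorem card_le_finrank [FiniteDimensional E F] : Fintype.card ι ≤ Module.finrank E F :=
  (linearIndependent_lift hc hs bk hy).fintype_card_le_finrank

variable [FiniteDimensional E F] (hn : Module.finrank E F ≤ Fintype.card ι)
include hn

/-- The lifted basis. -/
theorem exists_basis : ∃ b : Module.Basis ι E F, ∀ i, b i = y i := by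
  have hli := linearIndependent_lift hc hs bk hy
  haveI : Nonempty ι := Fintype.card_pos_iff.1 (lt_of_lt_of_le Module.finrank_pos hn)
  exact ⟨basisOfLinearIndependentOfCardEqFinrank hli
    (le_antisymm hli.fintype_card_le_finrank hn), fun i => by simp⟩

/-- Scaled coordinates. -/
theorem exists_coord_scale {f : F} (hf : f ≠ 0) :
    ∃ (c : K) (b : ι → E) (s : ι → Ek), c ≠ 0 ∧ f = algebraMap K F c * ∑ i, algebraMap E F (b i) * y i ∧
      (∀ i, C₀.Red (b i) (s i)) ∧
      C.Red (∑ i, algebraMap E F (b i) * y i) (∑ i, algebraMap Ek Fk (s i) * bk i) ∧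
      (∑ i, algebraMap Ek Fk (s i) * bk i) ≠ 0 := by
  obtain ⟨B, hB⟩ := exists_basis hc hs bk hy hn
  have hrepr : f = ∑ i, algebraMap E F (B.repr f i) * y i := by
    conv_lhs => rw [← B.sum_repr f]
    simp [Algebra.smul_def, hB]
  rcases exists_normalize hs (fun i => B.repr f i) (fun _ => trivial) with
    h | ⟨c, b, s, hc0, hab, hbs, i, hi⟩
  · exact absurd (by rw [hrepr]; simp [h]) hf
  refine ⟨c, b, s, hc0, ?_, hbs, red_sum fun i _ => (hc _ _ (hbs i)).mul (hy i), fun h => hi ?_⟩
  · conv_lhs => rw [hrepr]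
    simp only [hab, map_mul, ← IsScalarTower.algebraMap_apply, mul_assoc, ← Finset.mul_sum]
  · exact Fintype.linearIndependent_iff.1 bk.linearIndependent s
      (by simpa [Algebra.smul_def] using h) i

theorem scaled_ext : C.Scaled := fun f _ hf => by
  obtain ⟨c, b, s, -, he, -, hr, hne⟩ := exists_coord_scale hc hs bk hy hn hf
  exact ⟨c, _, _, he, hr, hne⟩

/-- Coordinates of integral elements are integral. -/
theorem red_repr (B : Module.Basis ι E F) (hB : ∀ i, B i = y i) {f : F} {r : Fk}
    (h : C.Red f r) (i : ι) : C₀.Red (B.repr f i) (bk.repr r i) := by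
  rcases eq_or_ne f 0 with rfl | hf
  · rw [h.unique red_zero, map_zero, map_zero, Finsupp.zero_apply, Finsupp.zero_apply]
    exact red_zero
  obtain ⟨c, b, s, -, he, hbs, hr, hne⟩ := exists_coord_scale hc hs bk hy hn hf
  obtain ⟨hcA, hrc⟩ := hr.smul_cancel hne (he ▸ h)
  have h1 : B.repr f i = algebraMap K E c * b i := by
    have : f = ∑ l, (algebraMap K E c * b l) • B l := by
      rw [he, Finset.mul_sum]
      exact Finset.sum_congr rfl fun l _ => by
        rw [Algebra.smul_def, map_mul, ← IsScalarTower.algebraMap_apply, hB, mul_assoc]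
    rw [this, B.repr_sum_self]
  have h2 : bk.repr r i = algebraMap k Ek (C₀.π ⟨c, hcA⟩) * s i := by
    have : r = ∑ l, (algebraMap k Ek (C.π ⟨c, hcA⟩) * s l) • bk l := by
      rw [hrc, Finset.mul_sum]
      exact Finset.sum_congr rfl fun l _ => by
        rw [Algebra.smul_def, map_mul, ← IsScalarTower.algebraMap_apply, mul_assoc]
    have hπ : C.π ⟨c, hcA⟩ = C₀.π ⟨c, hcA⟩ := by
      have h3 := hc _ _ (red_const (C := C₀) ⟨c, hcA⟩)
      rw [← IsScalarTower.algebraMap_apply, ← IsScalarTower.algebraMap_apply] at h3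
      exact ((algebraMap k Fk).injective (h3.unique (red_const ⟨c, hcA⟩))).symm
    rw [this, bk.repr_sum_self, hπ]
  rw [h1, h2]
  exact (red_const ⟨c, hcA⟩).mul (hbs i)

variable [DecidableEq ι]

/-- Integral elements have integral matrices reducing to the matrix of the reduction. -/
theorem red_matrix (B : Module.Basis ι E F) (hB : ∀ i, B i = y i) {f : F} {r : Fk}
    (h : C.Red f r) : ∃ M : Matrix ι ι C₀.G, M.map C₀.G.subtype = Algebra.leftMulMatrix B f ∧
      M.map C₀.red = Algebra.leftMulMatrix bk r := by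
  have hM : ∀ i j, C₀.Red (Algebra.leftMulMatrix B f i j) (Algebra.leftMulMatrix bk r i j) := by
    intro i j
    rw [Algebra.leftMulMatrix_eq_repr_mul, Algebra.leftMulMatrix_eq_repr_mul]
    exact red_repr hc hs bk hy hn B hB (hB j ▸ h.mul (hy j)) i
  exact ⟨fun i j => ⟨_, (hM i j).1⟩, rfl, Matrix.ext fun i j => (hM i j).2⟩

theorem red_charpoly_coeff (B : Module.Basis ι E F) (hB : ∀ i, B i = y i) {f : F} {r : Fk}
    (h : C.Red f r) (l : ℕ) : C₀.Red ((Algebra.leftMulMatrix B f).charpoly.coeff l)
      ((Algebra.leftMulMatrix bk r).charpoly.coeff l) := by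
  obtain ⟨M, h1, h2⟩ := red_matrix hc hs bk hy hn B hB h
  rw [← h1, ← h2, Matrix.charpoly_map, Matrix.charpoly_map, coeff_map, coeff_map]
  exact red_of_mem _

theorem red_norm {f : F} {r : Fk} (h : C.Red f r) :
    C₀.Red (Algebra.norm E f) (Algebra.norm Ek r) := by
  obtain ⟨B, hB⟩ := exists_basis hc hs bk hy hn
  obtain ⟨M, h1, h2⟩ := red_matrix hc hs bk hy hn B hB h
  rw [Algebra.norm_eq_matrix_det B, Algebra.norm_eq_matrix_det bk, ← h1, ← h2,
    show (M.map C₀.G.subtype).det = C₀.G.subtype M.det from (RingHom.map_det _ _).symm,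
    show (M.map C₀.red).det = C₀.red M.det from (RingHom.map_det _ _).symm]
  exact red_of_mem _

theorem red_trace {f : F} {r : Fk} (h : C.Red f r) :
    C₀.Red (Algebra.trace E F f) (Algebra.trace Ek Fk r) := by
  obtain ⟨B, hB⟩ := exists_basis hc hs bk hy hn
  obtain ⟨M, h1, h2⟩ := red_matrix hc hs bk hy hn B hB h
  rw [Algebra.trace_eq_matrix_trace B, Algebra.trace_eq_matrix_trace bk, ← h1, ← h2]
  simp only [Matrix.trace, Matrix.diag, Matrix.map_apply]
  exact red_sum fun i _ => red_of_mem _

end Compat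

end ConstRed

end FA.CurveRed
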