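import Fermat.Agent.Curve.DualityGenus
import Fermat.Agent.CurveRed.Ext
import Fermat.Agent.CurveRed.Quot

/-!
# Charts

A chart of a constant reduction is an integral function `x` with transcendental reduction such
that the degree over `K(x)` does not drop.  Then all functions scale, every finite dimensional
space has a basis with independent reductions and `L(m·B)` reduces into `L(m·B̄)`.
-/

set_option autoImplicit false
set_option linter.style.haveILetI false
set_option linter.unusedSectionVars false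

noncomputable section

namespace FA.CurveRed

open AlgebraicCurve FA.ModField FA.Curve Polynomial IntermediateField

variable {K F k Fk : Type*} [Field K] [Field F] [Algebra K F] [Field k] [Field Fk] [Algebra k Fk]
  {A : ValuationSubring K}

section OfQuot

variable {W : Type*} [CommRing W] {u : W →+* F} {v : W →+* Fk}

/-- The constant reduction of a ring of integral functions with two evaluations. -/
def constRedOfQuot (π : A →+* k) (cA : A →+* W) (hu : Function.Injective u)
    (hπ : Function.Surjective π) (hπ0 : ∀ a : A, π a = 0 ↔ A.valuation a < 1)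
    (hcu : ∀ a : A, u (cA a) = algebraMap K F a)
    (hcv : ∀ a : A, v (cA a) = algebraMap k Fk (π a)) : ConstRed K F k Fk A where
  π := π
  π_surjective := hπ
  π_eq_zero := hπ0
  G := intFuns u v
  algebraMap_mem a := ⟨v (cA a), hcu a ▸ isQuot_apply (cA a)⟩
  red := redFun u v hu
  red_algebraMap a := (redFun_eq u v hu (r := v (cA a))
    (show IsQuot u v (algebraMap K F a) (v (cA a)) from hcu a ▸ isQuot_apply (cA a))).trans (hcv a)
  red_inv g hg := by
    have h := (isQuot_redFun u v hu g).inv hu hg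
    exact ⟨⟨_, h⟩, redFun_eq u v hu (f := ⟨(g : F)⁻¹, _, h⟩) h⟩

theorem constRedOfQuot_red {π : A →+* k} {cA : A →+* W} {hu : Function.Injective u}
    {hπ : Function.Surjective π} {hπ0 : ∀ a : A, π a = 0 ↔ A.valuation a < 1}
    {hcu : ∀ a : A, u (cA a) = algebraMap K F a}
    {hcv : ∀ a : A, v (cA a) = algebraMap k Fk (π a)} {f : F} {r : Fk} :
    (constRedOfQuot π cA hu hπ hπ0 hcu hcv).Red f r ↔ IsQuot u v f r :=
  ⟨fun ⟨h, he⟩ => he ▸ isQuot_redFun u v hu ⟨f, h⟩,
    fun h => ⟨⟨r, h⟩, redFun_eq u v hu (f := ⟨f, r, h⟩) h⟩⟩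

end OfQuot

namespace ConstRed

variable (C : ConstRed K F k Fk A)

/-- The reduction on a subfield whose integral elements reduce into `Ek`. -/
def comap (E : IntermediateField K F) (Ek : IntermediateField k Fk)
    (h : ∀ e ∈ E, ∀ r, C.Red e r → r ∈ Ek) : ConstRed K E k Ek A where
  π := C.π
  π_surjective := C.π_surjective
  π_eq_zero := C.π_eq_zero
  G := C.G.comap (algebraMap E F)
  algebraMap_mem a := C.algebraMap_mem a
  red :=
    { toFun := fun g => ⟨C.red ⟨((g : E) : F), g.2⟩, h _ (g : E).2 _ ⟨g.2, rfl⟩⟩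
      map_one' := Subtype.ext (map_one C.red)
      map_zero' := Subtype.ext (map_zero C.red)
      map_add' := fun a b => Subtype.ext (map_add C.red ⟨((a : E) : F), a.2⟩ ⟨((b : E) : F), b.2⟩)
      map_mul' := fun a b => Subtype.ext (map_mul C.red ⟨((a : E) : F), a.2⟩ ⟨((b : E) : F), b.2⟩) }
  red_algebraMap a := Subtype.ext (C.red_algebraMap a)
  red_inv g hg := by
    obtain ⟨h1, h2⟩ := C.red_inv ⟨((g : E) : F), g.2⟩ fun h0 => hg (Subtype.ext h0)
    exact ⟨h1, Subtype.ext h2⟩

variable {C}

theorem comap_red {E : IntermediateField K F} {Ek : IntermediateField k Fk}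
    {h : ∀ e ∈ E, ∀ r, C.Red e r → r ∈ Ek} {e : E} {r : Ek} :
    (C.comap E Ek h).Red e r ↔ C.Red (e : F) (r : Fk) :=
  ⟨fun ⟨h1, h2⟩ => ⟨h1, congrArg Subtype.val h2⟩, fun ⟨h1, h2⟩ => ⟨h1, Subtype.ext h2⟩⟩

theorem compat_comap (E : IntermediateField K F) (Ek : IntermediateField k Fk)
    (h : ∀ e ∈ E, ∀ r, C.Red e r → r ∈ Ek) : Compat (C.comap E Ek h) C :=
  fun _ _ he => comap_red.1 he

theorem red_aeval {x : F} {xb : Fk} (hx : C.Red x xb) (P : A[X]) :
    C.Red (aeval x (P.map A.subtype)) (aeval xb (P.map C.π)) := by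
  induction P using Polynomial.induction_on' with
  | add p q hp hq => simpa [Polynomial.map_add] using hp.add hq
  | monomial n a =>
    rw [Polynomial.map_monomial, Polynomial.map_monomial, aeval_monomial, aeval_monomial]
    exact (red_const a).mul (hx.pow n)

/-- Polynomials scale. -/
theorem exists_scale_poly {p : K[X]} (hp : p ≠ 0) :
    ∃ (c : K) (P : A[X]), c ≠ 0 ∧ p = Polynomial.C c * P.map A.subtype ∧ P.map C.π ≠ 0 := by
  classical
  set d := p.natDegree
  obtain ⟨j, hj0, hj⟩ := exists_max_coeff A (fun i : Fin (d + 1) => p.coeff i)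
    ⟨⟨d, Nat.lt_succ_self d⟩, by simpa [d] using leadingCoeff_ne_zero.2 hp⟩
  set P : A[X] := ∑ i : Fin (d + 1), monomial (i : ℕ) (⟨_, hj i⟩ : A)
  have hcoeff : ∀ n, P.coeff n = if h : n < d + 1 then ⟨_, hj ⟨n, h⟩⟩ else 0 := by
    intro n
    simp only [P, finsetSum_coeff, coeff_monomial]
    split_ifs with h
    · rw [Finset.sum_eq_single ⟨n, h⟩ (fun i _ hi => if_neg fun he => hi (Fin.ext he))
        (fun h' => absurd (Finset.mem_univ _) h'), if_pos rfl]
    · exact Finset.sum_eq_zero fun i _ => if_neg fun he => h (by rw [← he]; exact i.2)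
  refine ⟨p.coeff j, P, hj0, Polynomial.ext fun n => ?_, fun h => ?_⟩
  · rw [coeff_C_mul, coeff_map, hcoeff]
    split_ifs with hn
    · exact (mul_div_cancel₀ _ hj0).symm
    · rw [map_zero, mul_zero, coeff_eq_zero_of_natDegree_lt (by omega)]
  · have h1 := congrArg (fun q : k[X] => q.coeff (j : ℕ)) h
    simp only [coeff_map, hcoeff, dif_pos j.2, Polynomial.coeff_zero] at h1
    rw [C.π_eq_zero] at h1
    simp [div_self hj0] at h1

theorem transcendental_of_red [IsAlgClosed K] {x : F} {xb : Fk} (hx : C.Red x xb)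
    (ht : Transcendental k xb) : Transcendental K x := by
  by_contra hal
  obtain ⟨c, rfl⟩ : ∃ c, x = algebraMap K F c := by
    by_contra hno
    push Not at hno
    exact hal (transcendental_of_not_const hno)
  obtain ⟨hc, rfl⟩ := red_const_iff.1 hx
  exact ht (isAlgebraic_algebraMap _)

variable (C) in
/-- A chart: the degree over `K(x)` does not drop. -/
structure Chart (x : F) (xb : Fk) : Prop where
  red_x : C.Red x xb
  trans : Transcendental k xb
  degree_le : Module.finrank K⟮x⟯ F ≤ Module.finrank k⟮xb⟯ Fk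
  gen : IntermediateField.adjoin k {r | ∃ f, C.Red f r} = ⊤

theorem Chart.inv {x : F} {xb : Fk} (h : C.Chart x xb) : C.Chart x⁻¹ xb⁻¹ where
  red_x := h.red_x.inv fun h0 => h.trans (by rw [h0]; exact isAlgebraic_zero)
  trans h' := h.trans (by simpa using h'.inv)
  degree_le := by rw [adjoin_inv_eq, adjoin_inv_eq]; exact h.degree_le
  gen := h.gen

/-- Elements of `K(x)` scale, with reductions in `k(x̄)`. -/
theorem scale_adjoin {x : F} {xb : Fk} (hx : C.Red x xb) (ht : Transcendental k xb) {e : F}
    (he : e ∈ K⟮x⟯) (he0 : e ≠ 0) : ∃ (c : K) (g : F) (r : Fk),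
      e = algebraMap K F c * g ∧ C.Red g r ∧ r ≠ 0 ∧ g ∈ K⟮x⟯ ∧ r ∈ k⟮xb⟯ := by
  obtain ⟨p, q, rfl⟩ := (IntermediateField.mem_adjoin_simple_iff K e).1 he
  have hp : p ≠ 0 := fun h => he0 (by simp [h])
  have hq : q ≠ 0 := fun h => he0 (by simp [h])
  obtain ⟨c, P, -, rfl, hP⟩ := C.exists_scale_poly hp
  obtain ⟨d, Q, hd, rfl, hQ⟩ := C.exists_scale_poly hq
  refine ⟨c / d, aeval x (P.map A.subtype) * (aeval x (Q.map A.subtype))⁻¹,
    aeval xb (P.map C.π) * (aeval xb (Q.map C.π))⁻¹, ?_, ?_, ?_, ?_, ?_⟩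
  · rw [map_mul, map_mul, aeval_C, aeval_C, map_div₀]; ring
  · exact (red_aeval hx P).mul ((red_aeval hx Q).inv fun h => hQ (transcendental_iff.1 ht _ h))
  · exact mul_ne_zero (fun h => hP (transcendental_iff.1 ht _ h))
      (inv_ne_zero fun h => hQ (transcendental_iff.1 ht _ h))
  · exact mul_mem (aeval_mem x _) (inv_mem (aeval_mem x _))
  · exact mul_mem (aeval_mem xb _) (inv_mem (aeval_mem xb _))

theorem red_adjoin_mem {x : F} {xb : Fk} (hx : C.Red x xb) (ht : Transcendental k xb) :
    ∀ e ∈ K⟮x⟯, ∀ r, C.Red e r → r ∈ k⟮xb⟯ := by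
  intro e he r hr
  rcases eq_or_ne e 0 with rfl | he0
  · rw [hr.unique red_zero]; exact zero_mem _
  obtain ⟨c, g, s, rfl, hg, hs, -, hsm⟩ := scale_adjoin hx ht he he0
  obtain ⟨hc, rfl⟩ := hg.smul_cancel hs hr
  exact mul_mem (k⟮xb⟯.algebraMap_mem _) hsm

/-- A polynomial with integral value has integral coefficients. -/
theorem red_poly {x : F} {xb : Fk} (hx : C.Red x xb) (ht : Transcendental k xb) {p : K[X]}
    {r : Fk} (h : C.Red (aeval x p) r) :
    ∃ P : A[X], p = P.map A.subtype ∧ r = aeval xb (P.map C.π) := by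
  rcases eq_or_ne p 0 with rfl | hp
  · exact ⟨0, by simp, by rw [map_zero] at h; rw [h.unique red_zero]; simp⟩
  obtain ⟨c, P, -, rfl, hP⟩ := C.exists_scale_poly hp
  rw [map_mul, aeval_C] at h
  obtain ⟨hc, hr⟩ := (red_aeval hx P).smul_cancel (fun h' => hP (transcendental_iff.1 ht _ h')) h
  refine ⟨Polynomial.C (⟨c, hc⟩ : A) * P, ?_, ?_⟩
  · rw [Polynomial.map_mul, Polynomial.map_C]; rfl
  · rw [hr, Polynomial.map_mul, Polynomial.map_C, map_mul, aeval_C]

namespace Chart

variable {x : F} {xb : Fk} (h : C.Chart x xb)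

/-- The reduction on `K(x)`. -/
def base (h : C.Chart x xb) : ConstRed K K⟮x⟯ k k⟮xb⟯ A :=
  C.comap K⟮x⟯ k⟮xb⟯ (red_adjoin_mem h.red_x h.trans)

include h

theorem compat : Compat h.base C := compat_comap _ _ _

theorem scaled_base : h.base.Scaled := by
  rintro ⟨e, he⟩ - he0
  obtain ⟨c, g, r, heq, hg, hr, hgm, hrm⟩ :=
    scale_adjoin h.red_x h.trans he fun h0 => he0 (Subtype.ext h0)
  exact ⟨c, ⟨g, hgm⟩, ⟨r, hrm⟩, Subtype.ext heq, comap_red.2 hg,
    fun h0 => hr (congrArg Subtype.val h0)⟩

variable [IsAlgClosed K] [IsAlgClosed k] (hF : IsFunctionField K F) (hk : IsFunctionField k Fk)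

theorem transX : Transcendental K x := transcendental_of_red h.red_x h.trans

include hk in
/-- A lifted basis over the base. -/
theorem exists_lifts : ∃ (n : ℕ) (bk : Module.Basis (Fin n) k⟮xb⟯ Fk) (y : Fin n → F),
    ∀ i, C.Red (y i) (bk i) := by
  classical
  haveI := hk.finiteDimensional h.trans
  set S : Submodule k⟮xb⟯ Fk := Submodule.span k⟮xb⟯ {r | ∃ f, C.Red f r} with hS
  have hone : (1 : Fk) ∈ S := Submodule.subset_span ⟨1, red_one⟩
  have hmul : ∀ a b, a ∈ S → b ∈ S → a * b ∈ S := by
    intro a b ha hb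
    induction ha using Submodule.span_induction with
    | mem a ha =>
      induction hb using Submodule.span_induction with
      | mem b hb =>
        obtain ⟨f, hf⟩ := ha
        obtain ⟨g, hg⟩ := hb
        exact Submodule.subset_span ⟨f * g, hf.mul hg⟩
      | zero => rw [mul_zero]; exact zero_mem _
      | add b c _ _ hb hc => rw [mul_add]; exact add_mem hb hc
      | smul c b _ hb => rw [mul_smul_comm]; exact Submodule.smul_mem _ c hb
    | zero => rw [zero_mul]; exact zero_mem _
    | add a c _ _ ha hc => rw [add_mul]; exact add_mem ha hc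
    | smul c a _ ha => rw [smul_mul_assoc]; exact Submodule.smul_mem _ c ha
  set SA : Subalgebra k⟮xb⟯ Fk := S.toSubalgebra hone hmul
  have htop : S = ⊤ := by
    rw [eq_top_iff]
    intro r _
    let L : IntermediateField k Fk :=
      (SA.restrictScalars k).toIntermediateField fun a ha => Subalgebra.inv_mem_of_algebraic SA
        (x := ⟨a, ha⟩) (Algebra.IsAlgebraic.isAlgebraic a)
    have hle : IntermediateField.adjoin k {r | ∃ f, C.Red f r} ≤ L :=
      IntermediateField.adjoin_le_iff.2 fun a ha => Submodule.subset_span ha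
    rw [h.gen] at hle
    exact hle IntermediateField.mem_top
  obtain ⟨t, htsub, hspan, hli⟩ := exists_linearIndependent k⟮xb⟯ {r | ∃ f, C.Red f r}
  haveI : Finite t := hli.finite
  haveI := Fintype.ofFinite t
  let b₀ : Module.Basis t k⟮xb⟯ Fk := Module.Basis.mk hli (by
    rw [Subtype.range_coe, hspan, ← hS, htop])
  choose f hf using fun i : t => htsub i.2
  refine ⟨Fintype.card t, b₀.reindex (Fintype.equivFin t), fun i => f ((Fintype.equivFin t).symm i),
    fun i => ?_⟩
  rw [Module.Basis.reindex_apply, Module.Basis.mk_apply]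
  exact hf _

include hF hk

theorem finrank_eq : Module.finrank K⟮x⟯ F = Module.finrank k⟮xb⟯ Fk := by
  haveI := hF.finiteDimensional h.transX
  obtain ⟨n, bk, y, hy⟩ := h.exists_lifts hk
  refine le_antisymm h.degree_le ?_
  rw [Module.finrank_eq_card_basis bk]
  exact card_le_finrank h.compat h.scaled_base bk hy

theorem scaled : C.Scaled := by
  haveI := hF.finiteDimensional h.transX
  obtain ⟨n, bk, y, hy⟩ := h.exists_lifts hk
  exact scaled_ext h.compat h.scaled_base bk hy
    (h.degree_le.trans (Module.finrank_eq_card_basis bk).le)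

/-- Every finite dimensional space has a basis with independent reductions. -/
theorem exists_lift_basis (V : Submodule K F) [Module.Finite K V] :
    ∃ (e : Fin (Module.finrank K V) → F) (r : Fin (Module.finrank K V) → Fk),
      (∀ i, e i ∈ V) ∧ (∀ i, C.Red (e i) (r i)) ∧ LinearIndependent k r := by
  classical
  haveI := hF.finiteDimensional h.transX
  have hx := h.transX
  obtain ⟨n, bk, y, hy⟩ := h.exists_lifts hk
  obtain ⟨B, hB⟩ := exists_basis h.compat h.scaled_base bk hy
    (h.degree_le.trans (Module.finrank_eq_card_basis bk).le)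
  let v := Module.finBasis K V
  choose p q hpq using fun li : Fin (Module.finrank K V) × Fin n =>
    (IntermediateField.mem_adjoin_simple_iff K ((B.repr (v li.1 : F) li.2 : K⟮x⟯) : F)).1
      (B.repr (v li.1 : F) li.2).2
  set q' := fun li => if q li = 0 then 1 else q li
  have hq' : ∀ li, q' li ≠ 0 := fun li => by simp only [q']; split_ifs <;> simp [*]
  set Q := ∏ li, q' li
  obtain ⟨c, Qi, hc, hQc, hQi⟩ := C.exists_scale_poly (p := Q)
    (Finset.prod_ne_zero_iff.2 fun li _ => hq' li)
  set s := aeval x (Qi.map A.subtype)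
  have hs : C.Red s (aeval xb (Qi.map C.π)) := red_aeval h.red_x Qi
  have hsb : aeval xb (Qi.map C.π) ≠ 0 := fun h' => hQi (transcendental_iff.1 h.trans _ h')
  have hs0 : s ≠ 0 := hs.ne_zero hsb
  have hco : ∀ li : Fin (Module.finrank K V) × Fin n, ∃ P : K[X], s * ((B.repr (v li.1 : F) li.2 : K⟮x⟯) : F) = aeval x P := by
    intro li
    rw [hpq li]
    by_cases h0 : q li = 0
    · exact ⟨0, by simp [h0]⟩
    · refine ⟨Polynomial.C c⁻¹ * ((∏ j ∈ Finset.univ.erase li, q' j) * p li), ?_⟩
      have e1 : q' li = q li := if_neg h0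
      have e2 : algebraMap K F c * s =
          aeval x (q li) * aeval x (∏ j ∈ Finset.univ.erase li, q' j) := by
        rw [← e1, ← map_mul (aeval x), Finset.mul_prod_erase _ _ (Finset.mem_univ li),
          show Finset.univ.prod q' = Q from rfl, hQc, map_mul, aeval_C]
      have hc' : algebraMap K F c ≠ 0 := by simpa using hc
      have hq0 : aeval x (q li) ≠ 0 := fun h' => h0 (transcendental_iff.1 hx _ h')
      rw [map_mul, aeval_C, map_mul, map_inv₀]
      field_simp
      linear_combination (aeval x (p li)) * e2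
  choose P hP using hco
  set D := Finset.univ.sup fun li => (P li).natDegree
  have hzind : LinearIndependent k fun ji : Fin (D + 1) × Fin n => xb ^ (ji.1 : ℕ) * bk ji.2 := by
    have hpow : LinearIndependent k
        fun j : Fin (D + 1) => (AdjoinSimple.gen k xb) ^ (j : ℕ) := by
      rw [Fintype.linearIndependent_iff]
      intro a ha
      have h1 : aeval xb (∑ j : Fin (D + 1), monomial (j : ℕ) (a j)) = 0 := by
        have := congrArg (fun z : k⟮xb⟯ => (z : Fk)) ha
        simpa [aeval_monomial, Algebra.smul_def] using this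
      have h2 := transcendental_iff.1 h.trans _ h1
      intro j
      have h3 := congrArg (fun z : k[X] => z.coeff (j : ℕ)) h2
      simpa [finsetSum_coeff, coeff_monomial, Fin.val_inj] using h3
    convert linearIndependent_smul hpow bk.linearIndependent using 1
    funext ji
    simp [IntermediateField.smul_def]
  set s' : F →ₗ[K] F := LinearMap.mulLeft K s
  have hinj : Function.Injective s' := fun a b hab => mul_left_cancel₀ hs0 hab
  have hle : V.map s' ≤ Submodule.span K
      (Set.range fun ji : Fin (D + 1) × Fin n => x ^ (ji.1 : ℕ) * y ji.2) := by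
    rw [Submodule.map_le_iff_le_comap]
    intro f hf
    have hf' : f = ((⟨f, hf⟩ : V) : F) := rfl
    rw [hf', ← v.sum_repr ⟨f, hf⟩, Submodule.mem_comap, AddSubmonoidClass.coe_finsetSum, map_sum]
    refine sum_mem fun l _ => ?_
    rw [Submodule.coe_smul, map_smul]
    refine Submodule.smul_mem _ _ ?_
    show s * (v l : F) ∈ _
    conv => rw [← B.sum_repr (v l : F), Finset.mul_sum]
    refine sum_mem fun i _ => ?_
    rw [IntermediateField.smul_def, smul_eq_mul, ← mul_assoc, hP (l, i),
      aeval_eq_sum_range' (n := D + 1) (Nat.lt_succ_of_le (Finset.le_sup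
        (f := fun li => (P li).natDegree) (Finset.mem_univ (l, i)))), Finset.sum_mul, hB]
    refine sum_mem fun j hj => ?_
    rw [smul_mul_assoc]
    exact Submodule.smul_mem _ _ (Submodule.subset_span ⟨(⟨j, Finset.mem_range.1 hj⟩, i), rfl⟩)
  obtain ⟨e, r, he, her, hli⟩ := exists_lift_basis_of_span
    (fun ji : Fin (D + 1) × Fin n => (h.red_x.pow (ji.1 : ℕ)).mul (hy ji.2)) hzind
    (Module.finrank K V) (V.map s') hle (Submodule.equivMapOfInjective s' hinj V).finrank_eq.symm
  refine ⟨fun i => s⁻¹ * e i, fun i => (aeval xb (Qi.map C.π))⁻¹ * r i, fun i => ?_,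
    fun i => (hs.inv hsb).mul (her i), ?_⟩
  · obtain ⟨a, ha, hae⟩ := he i
    show s⁻¹ * e i ∈ V
    rw [← hae, LinearMap.mulLeft_apply, ← mul_assoc, inv_mul_cancel₀ hs0, one_mul]
    exact ha
  · exact hli.map' (LinearMap.mulLeft k (aeval xb (Qi.map C.π))⁻¹)
      (LinearMap.ker_eq_bot'.2 fun a ha =>
        (mul_eq_zero.1 ha).resolve_left (inv_ne_zero hsb))

end Chart

end ConstRed

end FA.CurveRed
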