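import Fermat.Agent.CurveRed.Transfer

/-!
# Descent of good reduction along a cover

If regular functions lift for a cover, they lift below: norms give separation and uniformizers,
traces give a nonzero ideal of liftable functions.  No tameness is needed.
-/

set_option autoImplicit false
set_option linter.style.haveILetI false
set_option linter.unusedSectionVars false

noncomputable section

namespace FA.Curve

open AlgebraicCurve FA.ModField Polynomial

/-- A multiplier clearing the poles away from finitely many values. -/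
theorem exists_multiplier_set {K F : Type*} [Field K] [Field F] [Algebra K F] [IsAlgClosed K]
    (hF : IsFunctionField K F) {y : F} (Vals : Finset K) {f : F}
    (hf : ∀ P : Place K F, ∀ c ∈ Vals, HasValue P y c → AtLeast P 0 f) :
    ∃ q : F, q * f ∈ regSub (K := K) y ∧
      ∀ P : Place K F, ∀ c ∈ Vals, HasValue P y c → ∃ γ : K, γ ≠ 0 ∧ HasValue P q γ := by
  classical
  set T := (divOf hF f).support.filter fun P => 0 ≤ P.ord y ∧ P.ord f < 0
  have hT : ∀ P ∈ T, ∃ a, HasValue P y a := fun P hP =>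
    exists_hasValue hF (Or.inr (Finset.mem_filter.1 hP).2.1)
  choose! val hval using hT
  set M : ℕ := ∑ P ∈ T, (P.ord f).natAbs
  set q : F := ∏ a ∈ T.image val, (y - algebraMap K F a) ^ M with hq
  have hav : ∀ a ∈ T.image val, a ∉ Vals := by
    intro a ha hav
    obtain ⟨P, hP, rfl⟩ := Finset.mem_image.1 ha
    have hfP := hf P _ hav (hval P hP)
    have hneg := (Finset.mem_filter.1 hP).2.2
    rw [atLeast_iff (fun h0 => by simp [h0] at hneg)] at hfP
    omega
  have hprod : ∀ (P : Place K F) (U : Finset K), 0 ≤ P.ord y →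
      AtLeast P 0 (∏ a ∈ U, (y - algebraMap K F a) ^ M) := by
    intro P U hP
    induction U using Finset.induction with
    | empty => exact Or.inr (by simp)
    | @insert a U ha ih =>
      rw [Finset.prod_insert ha]
      have h0 : AtLeast P 0 y := Or.inr hP
      have h1 := atLeast_pow (h0.sub (atLeast_algebraMap a)) M
      simpa using h1.mul ih
  refine ⟨q, fun P hP => ?_, fun P c hc hP => ?_⟩
  · by_cases hPT : P ∈ T
    · rw [hq, ← Finset.mul_prod_erase _ _ (Finset.mem_image_of_mem val hPT)]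
      have h1 := atLeast_pow (hval P hPT) M
      rw [mul_one] at h1
      refine ((h1.mul (hprod P _ hP)).mul (atLeast_ord f)).mono ?_
      have := Finset.single_le_sum (f := fun P : Place K F => (P.ord f).natAbs)
        (fun _ _ => Nat.zero_le _) hPT
      omega
    · have hford : 0 ≤ P.ord f := by
        by_contra hneg
        exact hPT (Finset.mem_filter.2 ⟨Finsupp.mem_support_iff.2 (by simp; omega), hP, by omega⟩)
      have hf0 : AtLeast P 0 f := Or.inr hford
      have := (hprod P (T.image val) hP).mul hf0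
      rw [hq]
      rwa [add_zero] at this
  · suffices key : ∀ U : Finset K, HasValue P (∏ a ∈ U, (y - algebraMap K F a) ^ M)
        (∏ a ∈ U, (c - a) ^ M) from
      ⟨_, Finset.prod_ne_zero_iff.2 fun a ha => pow_ne_zero _
        (sub_ne_zero.2 fun (h0 : c = a) => hav a ha (h0 ▸ hc)), key _⟩
    intro U
    induction U using Finset.induction with
    | empty => simpa using hasValue_algebraMap P (1 : K)
    | @insert a U ha ih =>
      rw [Finset.prod_insert ha, Finset.prod_insert ha]
      exact ((hP.sub (hasValue_algebraMap P a)).pow M).mul ih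

/-- All places where `y` takes one of finitely many values. -/
theorem exists_value_set {K F : Type*} [Field K] [Field F] [Algebra K F] [IsAlgClosed K]
    (hF : IsFunctionField K F) {y : F} (hy : Transcendental K y) (Vals : Finset K) :
    ∃ S : Finset (Place K F), ∀ P, P ∈ S ↔ ∃ c ∈ Vals, HasValue P y c := by
  classical
  have hne : ∀ c : K, y - algebraMap K F c ≠ 0 := fun c h0 =>
    hy (by rw [sub_eq_zero.1 h0]; exact isAlgebraic_algebraMap c)
  refine ⟨Vals.biUnion fun c => (divOf hF (y - algebraMap K F c)).support.filter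
    fun P => 0 < P.ord (y - algebraMap K F c), fun P => ?_⟩
  simp only [Finset.mem_biUnion, Finset.mem_filter, Finsupp.mem_support_iff, divOf_apply]
  refine exists_congr fun c => and_congr_right fun _ => ?_
  rw [HasValue, atLeast_iff (hne c)]
  omega

end FA.Curve

namespace FA.CurveRed.ConstRed

open AlgebraicCurve FA.ModField FA.Curve Polynomial IntermediateField

variable {K F F' k Fk Fk' : Type*} [Field K] [Field F] [Field F'] [Algebra K F] [Algebra K F']
  [Algebra F F'] [IsScalarTower K F F'] [Field k] [Field Fk] [Field Fk'] [Algebra k Fk]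
  [Algebra k Fk'] [Algebra Fk Fk'] [IsScalarTower k Fk Fk'] {A : ValuationSubring K}
  {C : ConstRed K F k Fk A} {C' : ConstRed K F' k Fk' A} [IsAlgClosed K] [IsAlgClosed k]

/-- Regular functions downstairs with regular lifts. -/
def liftAlg (C : ConstRed K F k Fk A) (x : F) : Subalgebra k Fk where
  carrier := {r | ∃ f ∈ regSub (K := K) x, C.Red f r}
  mul_mem' := fun ⟨f, hf, hr⟩ ⟨g, hg, hs⟩ => ⟨f * g, mul_mem hf hg, hr.mul hs⟩
  add_mem' := fun ⟨f, hf, hr⟩ ⟨g, hg, hs⟩ => ⟨f + g, add_mem hf hg, hr.add hs⟩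
  algebraMap_mem' c := by
    obtain ⟨a, rfl⟩ := C.π_surjective c
    exact ⟨_, (regSub (K := K) x).algebraMap_mem a, red_const a⟩

theorem mem_liftAlg {x : F} {r : Fk} :
    r ∈ liftAlg C x ↔ ∃ f ∈ regSub (K := K) x, C.Red f r := Iff.rfl

/-- Regular functions lift below as soon as they lift for the cover. -/
theorem full_of_cover (hF : IsFunctionField K F) (hF' : IsFunctionField K F')
    (hk : IsFunctionField k Fk) (hk' : IsFunctionField k Fk') (hc : Compat C C') {x : F} {xb : Fk}
    (h : C.Chart x xb) (h' : C'.Chart (algebraMap F F' x) (algebraMap Fk Fk' xb))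
    (hfull : C'.Full (algebraMap F F' x) (algebraMap Fk Fk' xb))
    (htr : ∃ u : Fk', Algebra.trace Fk Fk' u ≠ 0) : C.Full x xb := by
  classical
  haveI := FA.Curve.module_finite (F' := F') hF hF'
  haveI := FA.Curve.module_finite (F' := Fk') hk hk'
  haveI : Algebra.IsIntegral F F' := Algebra.IsIntegral.of_finite F F'
  haveI : Algebra.IsIntegral Fk Fk' := Algebra.IsIntegral.of_finite Fk Fk'
  haveI := hasPrincipalDivisors hF'
  haveI := hasPrincipalDivisors hk'
  have hxb := h.trans
  have hxb' := h'.trans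
  -- a lifted basis of the cover
  obtain ⟨n, bk₁, y₁, hy₁⟩ := h'.exists_lifts hk'
  have hspan : Submodule.span Fk (Set.range bk₁) = ⊤ := by
    rw [eq_top_iff]
    intro z _
    rw [← bk₁.sum_repr z]
    refine sum_mem fun i _ => ?_
    have hle : k⟮algebraMap Fk Fk' xb⟯ ≤ (IsScalarTower.toAlgHom k Fk Fk').fieldRange :=
      IntermediateField.adjoin_le_iff.2 (Set.singleton_subset_iff.2 ⟨xb, rfl⟩)
    obtain ⟨a, ha⟩ := hle (bk₁.repr z i).2
    have : bk₁.repr z i • bk₁ i = a • bk₁ i := by
      rw [IntermediateField.smul_def, smul_eq_mul, Algebra.smul_def, ← ha]; rfl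
    rw [this]
    exact Submodule.smul_mem _ a (Submodule.subset_span ⟨i, rfl⟩)
  obtain ⟨t, htsub, htspan, htli⟩ := exists_linearIndependent Fk (Set.range bk₁)
  haveI : Finite t := htli.finite
  haveI := Fintype.ofFinite t
  let bk : Module.Basis t Fk Fk' := Module.Basis.mk htli (by
    rw [Subtype.range_coe, htspan, hspan])
  choose idx hidx using fun i : t => htsub i.2
  have hy : ∀ i : t, C'.Red (y₁ (idx i)) (bk i) := fun i => by
    have e : bk i = bk₁ (idx i) := by rw [Module.Basis.mk_apply, hidx i]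
    rw [e]; exact hy₁ _
  have hd : Module.finrank F F' ≤ Fintype.card t := by
    rw [← Module.finrank_eq_card_basis bk]
    have e1 := FA.Curve.finrank_adjoin_algebraMap (K := K) (F' := F') x
    have e2 := FA.Curve.finrank_adjoin_algebraMap (K := k) (F' := Fk') xb
    rw [h'.finrank_eq hF' hk', e2, ← h.finrank_eq hF hk] at e1
    exact le_of_eq (Nat.eq_of_mul_eq_mul_left (finrank_adjoin_pos hF h.transX) e1.symm)
  have hs := h.scaled hF hk
  -- norms and traces of regular functions
  have hsignF : ∀ (P : Place K F) (w : Place K F'), w ∈ P.fiber F' →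
      0 ≤ P.ord x → 0 ≤ w.ord (algebraMap F F' x) := by
    intro P w hw hP
    rw [w.ord_restrict, Place.mem_fiber.1 hw]
    exact mul_nonneg (Int.natCast_nonneg _) hP
  have hnorm : ∀ r ∈ regSub (K := k) (algebraMap Fk Fk' xb),
      Algebra.norm Fk r ∈ liftAlg C x := by
    intro r hr
    obtain ⟨f, hf, hfr⟩ := hfull r hr
    refine ⟨Algebra.norm F f, fun P hP => ?_, red_norm hc hs bk hy hd hfr⟩
    rcases eq_or_ne f 0 with rfl | hf0
    · rw [Algebra.norm_zero]; exact atLeast_zero
    · refine Or.inr ?_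
      rw [← sum_fiber_ord hF hF' P hf0]
      exact Finset.sum_nonneg fun w hw => (atLeast_iff hf0).1 (hf w (hsignF P w hw hP))
  have htrace : ∀ r ∈ regSub (K := k) (algebraMap Fk Fk' xb),
      Algebra.trace Fk Fk' r ∈ liftAlg C x := by
    intro r hr
    obtain ⟨f, hf, hfr⟩ := hfull r hr
    exact ⟨Algebra.trace F F' f, fun P hP =>
      atLeast_trace hF hF' fun w hw => hf w (hsignF P w hw hP), red_trace hc hs bk hy hd hfr⟩
  have hup : ∀ a ∈ regSub (K := k) xb,
      algebraMap Fk Fk' a ∈ regSub (K := k) (algebraMap Fk Fk' xb) := by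
    intro a ha w hw
    rw [w.ord_restrict] at hw
    have hpos : (0 : ℤ) < w.ramificationIndex Fk := by exact_mod_cast w.ramificationIndex_pos
    rcases ha (w.restrict Fk) ((mul_nonneg_iff_of_pos_left hpos).1 hw) with rfl | hge
    · rw [map_zero]; exact atLeast_zero
    · refine Or.inr ?_
      rw [w.ord_restrict]
      exact mul_nonneg hpos.le hge
  have hsub : ∀ v ∈ liftAlg C x, v ∈ regSub (K := k) xb := fun v ⟨f, hf, hv⟩ =>
    h.red_mem_regSub hF hk hf hv
  -- a nonzero liftable ideal
  obtain ⟨u₀, hu₀⟩ := htr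
  obtain ⟨s, hs0, hsu⟩ := FA.Curve.exists_clear hk' hxb' u₀
  set i₀ := Algebra.trace Fk Fk' (aeval (algebraMap Fk Fk' xb) s * u₀)
  have hi₀ne : i₀ ≠ 0 := by
    simp only [i₀]
    rw [aeval_algebraMap_apply, ← Algebra.smul_def, map_smul, smul_eq_mul]
    exact mul_ne_zero (fun h0 => hs0 (transcendental_iff.1 hxb s h0)) hu₀
  have hideal : ∀ a ∈ regSub (K := k) xb, i₀ * a ∈ liftAlg C x := by
    intro a ha
    have : i₀ * a = Algebra.trace Fk Fk'
        (algebraMap Fk Fk' a * (aeval (algebraMap Fk Fk' xb) s * u₀)) := by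
      rw [← Algebra.smul_def, map_smul, smul_eq_mul, mul_comm]
    rw [this]
    exact htrace _ (mul_mem (hup a ha) hsu)
  have hi₀ : i₀ ∈ regSub (K := k) xb := hsub _ (by simpa using hideal 1 (one_mem _))
  intro r hr
  set Z := (divOf hk i₀).support.filter fun Q => 0 ≤ Q.ord xb ∧ 0 < Q.ord i₀
  set M : ℕ := 1 + ∑ Q ∈ Z, (Q.ord i₀).natAbs
  have hZ : ∀ Q ∈ Z, ∃ c, HasValue Q xb c := fun Q hQ =>
    exists_hasValue hk (Or.inr (Finset.mem_filter.1 hQ).2.1)
  choose! val hval using hZ
  obtain ⟨S, hS⟩ := exists_value_set hk hxb (Z.image val)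
  have hZS : ∀ Q ∈ Z, Q ∈ S := fun Q hQ =>
    (hS Q).2 ⟨_, Finset.mem_image_of_mem val hQ, hval Q hQ⟩
  -- approximations of the indicator and of `r` at each zero
  have hind : ∀ P ∈ Z, ∃ e ∈ liftAlg C x, AtLeast P M (1 - e) ∧
      ∀ Q ∈ Z, Q ≠ P → AtLeast Q M e := by
    intro P hP
    obtain ⟨f, hf⟩ := exists_approx S (fun Q => if Q = P then 1 else 0) 1
    have hfreg : ∀ Q : Place k Fk, ∀ c ∈ Z.image val, HasValue Q xb c → AtLeast Q 0 f := by
      intro Q c hc hQ
      have h1 : AtLeast Q 0 (f - if Q = P then (1 : Fk) else 0) :=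
        (hf Q ((hS Q).2 ⟨c, hc, hQ⟩)).mono zero_le_one
      split_ifs at h1 with he
      · have h2 : AtLeast Q 0 (1 : Fk) := Or.inr (by simp)
        simpa using h1.add h2
      · simpa using h1
    obtain ⟨q, hq, hq1⟩ := exists_multiplier_set hk (Z.image val) hfreg
    obtain ⟨γ, hγ, hqP⟩ := hq1 P _ (Finset.mem_image_of_mem val hP) (hval P hP)
    set d := Module.finrank Fk Fk'
    have hN : (q * f) ^ d ∈ liftAlg C x := by
      rw [← Algebra.norm_algebraMap (S := Fk')]
      exact hnorm _ (hup _ hq)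
    set g := (q * f) ^ d * algebraMap k Fk (γ ^ d)⁻¹
    have hg : g ∈ liftAlg C x := mul_mem hN (Subalgebra.algebraMap_mem _ _)
    have hgP : HasValue P g 1 := by
      have hfP : HasValue P f 1 := by
        have := hf P (hZS P hP)
        rw [if_pos rfl] at this
        rw [HasValue, map_one]
        exact this
      have := ((hqP.mul hfP).pow d).mul_algebraMap (γ ^ d)⁻¹
      rwa [mul_one, mul_inv_cancel₀ (pow_ne_zero d hγ)] at this
    have hd0 : d ≠ 0 := Module.finrank_pos.ne'
    have hgQ : ∀ Q ∈ Z, Q ≠ P → AtLeast Q 1 g := by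
      intro Q hQ hne
      have hfQ := hf Q (hZS Q hQ)
      rw [if_neg hne, sub_zero] at hfQ
      obtain ⟨δ, -, hqQ⟩ := hq1 Q _ (Finset.mem_image_of_mem val hQ) (hval Q hQ)
      have h1 : HasValue Q ((q * f) ^ d * algebraMap k Fk (γ ^ d)⁻¹) ((δ * 0) ^ d * (γ ^ d)⁻¹) :=
        ((hqQ.mul (hasValue_zero_iff.2 hfQ)).pow d).mul_algebraMap _
      rw [mul_zero, zero_pow hd0, zero_mul, hasValue_zero_iff] at h1
      exact h1
    set y := g ^ M
    refine ⟨1 - (1 - y) ^ M, sub_mem (one_mem _) (pow_mem (sub_mem (one_mem _) (pow_mem hg M)) M),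
      ?_, fun Q hQ hne => ?_⟩
    · have h1 : AtLeast P 1 (1 - y) := by
        have h2 : AtLeast P 1 (y - algebraMap k Fk (1 ^ M)) := hgP.pow M
        rw [one_pow, map_one] at h2
        simpa using h2.neg
      rw [sub_sub_cancel]
      simpa using atLeast_pow h1 M
    · have hy' : AtLeast Q M y := by simpa using atLeast_pow (hgQ Q hQ hne) M
      rw [← mul_neg_geom_sum (1 - y) M, sub_sub_cancel]
      have hone : AtLeast Q 0 (1 : Fk) := Or.inr (by simp)
      have hsum : AtLeast Q 0 (∑ i ∈ Finset.range M, (1 - y) ^ i) := atLeast_sum fun i _ => by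
        simpa using atLeast_pow (hone.sub (hy'.mono (Int.natCast_nonneg M))) i
      simpa using hy'.mul hsum
  have happ : ∀ P ∈ Z, ∃ v ∈ liftAlg C x, AtLeast P M (r - v) := by
    intro P hP
    obtain ⟨P', hP'⟩ := fiber_nonempty hk hk' P
    obtain ⟨π', hπ'⟩ := exists_uniformizer P'
    obtain ⟨S', hS'⟩ := exists_value_set hk' hxb' {val P}
    obtain ⟨f, hf⟩ := exists_approx S' (fun w => if w = P' then π' else 1) 2
    have hone : ∀ w : Place k Fk', AtLeast w 0 (1 : Fk') := fun w => Or.inr (by simp)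
    have hf' : ∀ w ∈ S', f ≠ 0 ∧ w.ord f = if w = P' then 1 else 0 := by
      intro w hw
      have h1 := hf w hw
      split_ifs with he
      · rw [if_pos he] at h1
        subst he
        have := ord_add_eq_left (v := w) (f := π') (g := f - π') (fun h0 => by simp [h0] at hπ')
          (by rw [hπ']; exact h1)
        rwa [add_sub_cancel, hπ'] at this
      · rw [if_neg he] at h1
        have := ord_add_eq_left (v := w) (f := (1 : Fk')) (g := f - 1) one_ne_zero
          (by rw [w.ord_one]; exact h1.mono (by norm_num))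
        rwa [add_sub_cancel, w.ord_one] at this
    have hfib : ∀ w ∈ P.fiber Fk', HasValue w (algebraMap Fk Fk' xb) (val P) := by
      intro w hw
      have hne : xb - algebraMap k Fk (val P) ≠ 0 := fun h0 =>
        hxb (by rw [sub_eq_zero.1 h0]; exact isAlgebraic_algebraMap _)
      have h1 := (atLeast_iff hne).1 (hval P hP)
      rw [HasValue, IsScalarTower.algebraMap_apply k Fk Fk', ← map_sub,
        atLeast_iff ((_root_.map_ne_zero _).2 hne), w.ord_restrict, Place.mem_fiber.1 hw]
      have : (0 : ℤ) < w.ramificationIndex Fk := by exact_mod_cast w.ramificationIndex_pos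
      nlinarith
    have hfreg : ∀ w : Place k Fk', ∀ c ∈ ({val P} : Finset k),
        HasValue w (algebraMap Fk Fk' xb) c → AtLeast w 0 f := fun w c hc hw => by
      obtain ⟨-, h1⟩ := hf' w ((hS' w).2 ⟨c, hc, hw⟩)
      refine Or.inr ?_
      rw [h1]; split_ifs <;> norm_num
    obtain ⟨q, hq, hq1⟩ := exists_multiplier_set hk' {val P} hfreg
    set τ := Algebra.norm Fk (q * f)
    have hτ : τ ∈ liftAlg C x := hnorm _ hq
    have hfS : ∀ w ∈ P.fiber Fk', w ∈ S' := fun w hw =>
      (hS' w).2 ⟨_, Finset.mem_singleton_self _, hfib w hw⟩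
    have hqf : ∀ w ∈ P.fiber Fk', q * f ≠ 0 ∧ w.ord (q * f) = if w = P' then 1 else 0 := by
      intro w hw
      obtain ⟨γ, hγ, hqw⟩ := hq1 w _ (Finset.mem_singleton_self _) (hfib w hw)
      obtain ⟨hq0, hq0'⟩ := hqw.ord_eq_zero hγ
      obtain ⟨hf0, hf1⟩ := hf' w (hfS w hw)
      exact ⟨mul_ne_zero hq0 hf0, by rw [w.ord_mul hq0 hf0, hq0', zero_add, hf1]⟩
    have hne : q * f ≠ 0 := (hqf P' hP').1
    have hτord : P.ord τ = 1 := by
      rw [← sum_fiber_ord hk hk' P hne, Finset.sum_congr rfl fun w hw => (hqf w hw).2,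
        Finset.sum_ite_eq', if_pos hP']
    have hτ0 : τ ≠ 0 := fun h0 => by simp [h0] at hτord
    suffices key : ∀ j : ℕ, ∃ v ∈ liftAlg C x, AtLeast P j (r - v) from key M
    intro j
    induction j with
    | zero => exact ⟨0, zero_mem _, by simpa using hr P (Finset.mem_filter.1 hP).2.1⟩
    | succ j ih =>
      obtain ⟨v, hv, hvr⟩ := ih
      have hz : AtLeast P 0 ((r - v) * (τ⁻¹) ^ j) := by
        refine (hvr.mul (atLeast_ord (τ⁻¹ ^ j))).mono (le_of_eq ?_)
        rw [place_ord_pow, P.ord_inv, hτord]; ring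
      obtain ⟨c, hc⟩ := exists_hasValue hk hz
      refine ⟨v + algebraMap k Fk c * τ ^ j,
        add_mem hv (mul_mem (Subalgebra.algebraMap_mem _ _) (pow_mem hτ j)), ?_⟩
      have hpow : AtLeast P j (τ ^ j) := Or.inr (by rw [place_ord_pow, hτord, mul_one])
      have h1 := AtLeast.mul hc hpow
      rw [sub_mul, mul_assoc, ← mul_pow, inv_mul_cancel₀ hτ0, one_pow, mul_one] at h1
      rw [show r - (v + algebraMap k Fk c * τ ^ j) = r - v - algebraMap k Fk c * τ ^ j by ring]
      exact h1.mono (by push_cast; linarith)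
  choose! e he heP heQ using hind
  choose! v hv hvP using happ
  set V := ∑ P ∈ Z, e P * v P
  have hV : V ∈ liftAlg C x := sum_mem fun P hP => mul_mem (he P hP) (hv P hP)
  have hdiv : (r - V) / i₀ ∈ regSub (K := k) xb := by
    intro Q hQ
    have hnum : AtLeast Q 0 (r - V) := (hr Q hQ).sub (hsub V hV Q hQ)
    rw [div_eq_mul_inv]
    by_cases hQZ : Q ∈ Z
    · have h1 : AtLeast Q M (r - V) := by
        rw [show r - V = (r - v Q) + v Q * (1 - e Q) - ∑ P ∈ Z.erase Q, e P * v P by
          rw [show V = e Q * v Q + ∑ P ∈ Z.erase Q, e P * v P from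
            (Finset.add_sum_erase Z (fun P => e P * v P) hQZ).symm]
          ring]
        refine ((hvP Q hQZ).add ?_).sub (atLeast_sum fun P hP => ?_)
        · simpa using (hsub _ (hv Q hQZ) Q hQ).mul (heP Q hQZ)
        · obtain ⟨hne, hP'⟩ := Finset.mem_erase.1 hP
          simpa using (heQ P hP' Q hQZ hne.symm).mul (hsub _ (hv P hP') Q hQ)
      refine (h1.mul (atLeast_ord i₀⁻¹)).mono ?_
      rw [Q.ord_inv]
      have := Finset.single_le_sum (f := fun Q : Place k Fk => (Q.ord i₀).natAbs)
        (fun _ _ => Nat.zero_le _) hQZ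
      omega
    · have h0 : Q.ord i₀ = 0 := by
        have h1 := (atLeast_iff hi₀ne).1 (hi₀ Q hQ)
        by_contra hne
        exact hQZ (Finset.mem_filter.2
          ⟨Finsupp.mem_support_iff.2 (by simpa using hne), hQ, by omega⟩)
      refine (hnum.mul (atLeast_ord i₀⁻¹)).mono ?_
      rw [Q.ord_inv, h0]; simp
  obtain ⟨f, hf, hfr⟩ := mem_liftAlg.1 (add_mem hV (hideal _ hdiv))
  refine ⟨f, hf, ?_⟩
  rwa [mul_div_cancel₀ _ hi₀ne, add_sub_cancel] at hfr

/-- Equality of genera descends along covers. -/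
theorem genus_le_of_cover (hF : IsFunctionField K F) (hF' : IsFunctionField K F')
    (hk : IsFunctionField k Fk) (hk' : IsFunctionField k Fk') (hc : Compat C C') {x : F} {xb : Fk}
    (h : C.Chart x xb) (h' : C'.Chart (algebraMap F F' x) (algebraMap Fk Fk' xb))
    [Algebra.IsSeparable K⟮x⟯ F] [Algebra.IsSeparable k⟮xb⟯ Fk]
    (htr : ∃ u : Fk', Algebra.trace Fk Fk' u ≠ 0) (hg : genus K F' ≤ genus k Fk') :
    genus K F ≤ genus k Fk := by
  have hinv : C'.Chart (algebraMap F F' x⁻¹) (algebraMap Fk Fk' xb⁻¹) := by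
    rw [map_inv₀, map_inv₀]; exact h'.inv
  exact h.genus_le_of_full hF hk (full_of_cover hF hF' hk hk' hc h h' (h'.full_of_genus hF' hk' hg) htr)
    (full_of_cover hF hF' hk hk' hc h.inv hinv (hinv.full_of_genus hF' hk' hg) htr)

end FA.CurveRed.ConstRed
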