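import Fermat.Agent.CurveRed.Basic

/-!
# Torsion prime to the residue characteristic injects into the special fibre

A first order argument on residue discs: if the classes `k • z` all reduce to zero, the
coordinates of the unique effective divisors `E k ~ E 0 + k z` satisfy a linear recurrence up to
second order, so periodicity forces `z = 0`.
-/

set_option autoImplicit false
set_option linter.style.haveILetI false

noncomputable section

namespace FA.CurveRed.Reduction

open AlgebraicCurve FA.ModField FA.Curve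

variable {K F k Fk : Type*} [Field K] [Field F] [Algebra K F] [Field k] [Field Fk] [Algebra k Fk]
  {A : ValuationSubring K} {R : Reduction K F k Fk A} [IsAlgClosed K] [IsAlgClosed k]
  (hF : IsFunctionField K F) (hk : IsFunctionField k Fk)

omit [IsAlgClosed K] [IsAlgClosed k] in
theorem sum_single_apply {X ι : Type*} [DecidableEq X] [Fintype ι] (P : ι → X) (x : X) :
    (∑ i, Finsupp.single (P i) (1 : ℤ)) x = (Finset.univ.filter fun i => P i = x).card := by
  rw [Finset.sum_apply', Finset.card_filter, Nat.cast_sum]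
  exact Finset.sum_congr rfl fun i _ => by simp [Finsupp.single_apply]

omit [IsAlgClosed K] [IsAlgClosed k] in
theorem sum_single_apply_over {ι : Type*} [Fintype ι] [DecidableEq (Place K F)]
    {Q : ι → Place k Fk} (hQ : Function.Injective Q) {P : ι → Place K F}
    (hP : ∀ i, R.spl (P i) = Q i) {i : ι} {P' : Place K F} (hP' : R.spl P' = Q i) :
    (∑ j, Finsupp.single (P j) (1 : ℤ)) P' = if P' = P i then 1 else 0 := by
  rw [Finset.sum_apply', Finset.sum_eq_single i
    (fun j _ hj => Finsupp.single_eq_of_ne fun h => hj (hQ (by rw [← hP j, ← h, hP'])))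
    (fun h => absurd (Finset.mem_univ i) h), Finsupp.single_apply]
  simp only [eq_comm]

omit [IsAlgClosed K] in
include hk in
theorem eq_const_of_ord_eq_zero {r : Fk} (h : ∀ Q : Place k Fk, Q.ord r = 0) :
    ∃ b : k, r = algebraMap k Fk b := by
  by_contra hno
  push Not at hno
  obtain ⟨Q, hQ⟩ := exists_ord_neg hk (transcendental_of_not_const hno)
  have := h Q
  omega

include hk in
theorem eq_zero_of_mem_of_hasValue {D : Divisor k Fk} (hell : ell D = 1) (hD : 0 ≤ D) {r : Fk}
    (hr : r ∈ riemannRochSpace D) {Q : Place k Fk} (hQ : HasValue Q r 0) : r = 0 := by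
  haveI := finite_riemannRochSpace hk D
  have h1 : (1 : Fk) ∈ riemannRochSpace D := by
    rw [FA.Curve.mem_riemannRochSpace]
    intro w
    refine Or.inr ?_
    have := Finsupp.le_def.1 hD w
    simp only [Finsupp.coe_zero, Pi.zero_apply] at this
    rw [w.ord_one]; omega
  have hle : Submodule.span k ({1} : Set Fk) ≤ riemannRochSpace D :=
    (Submodule.span_singleton_le_iff_mem _ _).2 h1
  have heq : Submodule.span k ({1} : Set Fk) = riemannRochSpace D := by
    refine Submodule.eq_of_le_of_finrank_le hle ?_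
    rw [finrank_span_singleton one_ne_zero]
    exact Int.ofNat_le.1 (le_of_eq hell)
  rw [← heq, Submodule.mem_span_singleton] at hr
  obtain ⟨b, rfl⟩ := hr
  rw [Algebra.smul_def, mul_one] at hQ ⊢
  rw [(hasValue_algebraMap Q b).unique hQ, map_zero]

include hF hk in
/-- The second order relation between the coordinates of three divisors in linear progression. -/
theorem second_order {ι : Type*} [Fintype ι] [Nonempty ι] {Q : ι → Place k Fk}
    (hQ : Function.Injective Q) (hell : ell (∑ i, Finsupp.single (Q i) (1 : ℤ)) = 1)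
    {t : ι → F} (ht : ∀ i, IsCoord R (Q i) (t i))
    {P Pp Pm : ι → Place K F} (hP : ∀ i, R.spl (P i) = Q i) (hPp : ∀ i, R.spl (Pp i) = Q i)
    (hPm : ∀ i, R.spl (Pm i) = Q i) {a ap am : ι → K} (ha : ∀ i, HasValue (P i) (t i) (a i))
    (hap : ∀ i, HasValue (Pp i) (t i) (ap i)) (ham : ∀ i, HasValue (Pm i) (t i) (am i))
    {f : F} (hf : f ≠ 0) (hdiv : divOf hF f = (∑ i, Finsupp.single (Pp i) (1 : ℤ)) +
      (∑ i, Finsupp.single (Pm i) (1 : ℤ)) - (∑ i, Finsupp.single (P i) (1 : ℤ)) -
      ∑ i, Finsupp.single (P i) (1 : ℤ))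
    {γ : A.ValueGroup} (hγp : ∀ i, A.valuation (ap i - a i) ≤ γ)
    (hγm : ∀ i, A.valuation (am i - a i) ≤ γ) (i : ι) :
    A.valuation (ap i + am i - 2 * a i) ≤ γ * γ := by
  classical
  -- the facts about coordinates
  have hcoord : ∀ (j : ι) (X : Place K F) (x : K), R.spl X = Q j → HasValue X (t j) x →
      A.valuation x < 1 ∧ X.ord (t j - algebraMap K F x) = 1 ∧
        ∀ P', R.spl P' = Q j → P' ≠ X → P'.ord (t j - algebraMap K F x) = 0 := by
    intro j X x hX hx
    obtain ⟨y, hy, h1, h2, h3⟩ := (ht j).exists_value hF hX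
    rw [hx.unique hy]
    exact ⟨h1, h2, h3⟩
  choose r hr hr1 hnp using ht
  have hr0 : ∀ j, r j ≠ 0 := fun j h => by simpa [h] using hr1 j
  have hsmall : ∀ (x : K), A.valuation x < 1 → ∃ h : x ∈ A, R.π ⟨x, h⟩ = 0 := fun x hx =>
    ⟨(A.valuation_le_one_iff x).1 hx.le, (R.π_eq_zero _).2 hx⟩
  have hredsub : ∀ (j : ι) (x : K), A.valuation x < 1 →
      R.Red (t j - algebraMap K F x) (r j) := fun j x hx => by
    obtain ⟨h, h0⟩ := hsmall x hx
    have := (hr j).sub (red_const (R := R) ⟨x, h⟩)
    rw [h0, map_zero, sub_zero] at this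
    exact this
  -- normalise `f`
  obtain ⟨c₀, f₁, b₁, hc₀, hff₁, hf₁, hb₁⟩ := exists_scale' (R := R) hf
  have hf₁0 : f₁ ≠ 0 := hf₁.ne_zero hb₁
  have hordf₁ : ∀ X : Place K F, X.ord f₁ = divOf hF f X := fun X => by
    rw [divOf_apply, hff₁, X.ord_mul (by simpa using hc₀) hf₁0, place_ord_algebraMap, zero_add]
  have hdiv₁ : divOf hF f₁ = divOf hF f := Finsupp.ext fun X => by
    rw [divOf_apply, hordf₁]
  obtain ⟨β, rfl⟩ : ∃ b : k, b₁ = algebraMap k Fk b := by
    refine eq_const_of_ord_eq_zero hk fun Q' => ?_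
    rw [← push_divOf hF hf₁ hb₁ Q', hdiv₁, hdiv]
    simp only [push, Finsupp.mapDomain_sub, Finsupp.mapDomain_add, Finsupp.mapDomain_finsetSum,
      Finsupp.mapDomain_single, hP, hPp, hPm]
    simp
  haveI := infinite_places hk
  obtain ⟨Qs, hQs⟩ := (Set.finite_range Q).infinite_compl.nonempty
  obtain ⟨Ps, hPs⟩ := spl_surjective hF hk (R := R) Qs
  have hQs' : ∀ j, Q j ≠ Qs := fun j h => hQs ⟨j, h⟩
  have hdiv0 : ∀ X : Place K F, R.spl X = Qs → divOf hF f X = 0 := by
    intro X hX
    have hne : ∀ (Z : ι → Place K F), (∀ j, R.spl (Z j) = Q j) →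
        (∑ j, Finsupp.single (Z j) (1 : ℤ)) X = 0 := fun Z hZ => by
      rw [Finset.sum_apply']
      exact Finset.sum_eq_zero fun j _ => Finsupp.single_eq_of_ne fun h =>
        hQs' j (by rw [← hZ j, ← h, hX])
    simp only [hdiv, Finsupp.sub_apply, Finsupp.add_apply, hne P hP, hne Pp hPp, hne Pm hPm]
    simp
  have hnpf : NoPole R Qs f₁ := fun X hX => Or.inr (by rw [hordf₁, hdiv0 X hX])
  obtain ⟨e, he⟩ := exists_hasValue hF (hnpf Ps hPs)
  obtain ⟨heA, heQ⟩ := hasValue_red hF hf₁ hnpf hPs he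
  have hπe : R.π ⟨e, heA⟩ = β := heQ.unique (hasValue_algebraMap Qs β)
  have hβ : β ≠ 0 := fun h => hb₁ (by rw [h, map_zero])
  have he1 : A.valuation e = 1 := (π_ne_zero_iff (R := R) _).1 (hπe ▸ hβ)
  have he0 : e ≠ 0 := fun h => by simp [h] at he1
  have heinv : e⁻¹ ∈ A := (A.valuation_le_one_iff _).1 (by rw [map_inv₀, he1, inv_one])
  set s : F := algebraMap K F e⁻¹ * f₁ with hs
  have hreds : R.Red s 1 := by
    have h := (red_const (R := R) ⟨e⁻¹, heinv⟩).mul hf₁
    rw [← map_mul, show R.π ⟨e⁻¹, heinv⟩ * β = 1 by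
      rw [← hπe, ← map_mul, ← map_one R.π]
      exact congrArg R.π (Subtype.ext (inv_mul_cancel₀ he0)), map_one] at h
    exact h
  have hvals : HasValue Ps s 1 := by
    have := he.smul e⁻¹
    rwa [inv_mul_cancel₀ he0] at this
  have hs0 : s ≠ 0 := hreds.ne_zero one_ne_zero
  have hords : ∀ X : Place K F, X.ord s = divOf hF f X := fun X => by
    rw [hs, X.ord_mul (by simpa using he0) hf₁0, place_ord_algebraMap, zero_add, hordf₁]
  -- the scale of `s - 1`
  obtain ⟨c₁, u, ub, hu, hub, hub0⟩ : ∃ (c : K) (u : F) (ub : Fk),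
      s - 1 = algebraMap K F c * u ∧ R.Red u ub ∧ (c ≠ 0 → ub ≠ 0) := by
    rcases eq_or_ne (s - 1) 0 with h | h
    · exact ⟨0, 0, 0, by rw [h, mul_zero], red_zero, fun h => absurd rfl h⟩
    · obtain ⟨c, u, ub, -, h1, h2, h3⟩ := exists_scale' (R := R) h
      exact ⟨c, u, ub, h1, h2, fun _ => h3⟩
  set cand : Option ι → K := fun o => o.elim c₁ fun j => ap j + am j - 2 * a j
  obtain ⟨o, -, ho⟩ := Finset.exists_max_image (Finset.univ : Finset (Option ι))
    (fun o => A.valuation (cand o)) Finset.univ_nonempty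
  by_contra hbig
  rw [not_le] at hbig
  have hlarge : γ * γ < A.valuation (cand o) :=
    lt_of_lt_of_le hbig (ho (some i) (Finset.mem_univ _))
  set c := cand o with hcdef
  have hc0 : c ≠ 0 := fun h => by simp [h] at hlarge
  have hvc : 0 < A.valuation c := zero_lt_iff.2 ((Valuation.ne_zero_iff _).2 hc0)
  have hdivle : ∀ x : K, A.valuation x ≤ A.valuation c → x / c ∈ A := fun x hx =>
    (A.valuation_le_one_iff _).1 (by
      rw [map_div₀]; exact div_le_one_of_le₀ hx zero_le)
  set w : F := algebraMap K F c⁻¹ * (s - 1) with hw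
  have hc1 : c₁ / c ∈ A := hdivle c₁ (ho none (Finset.mem_univ _))
  have hredw : R.Red w (algebraMap k Fk (R.π ⟨c₁ / c, hc1⟩) * ub) := by
    have h := (red_const (R := R) ⟨c₁ / c, hc1⟩).mul hub
    have heq : algebraMap K F ((⟨c₁ / c, hc1⟩ : A) : K) * u = w := by
      rw [hw, hu]
      show algebraMap K F (c₁ / c) * u = _
      rw [map_div₀, map_inv₀]; ring
    rw [heq] at h
    exact h
  set wb := algebraMap k Fk (R.π ⟨c₁ / c, hc1⟩) * ub
  -- the identity on each disc
  have hdisc : ∀ j : ι, ∃ Xb : Fk, AtLeast (Q j) 0 Xb ∧ ∃ σA : (ap j + am j - 2 * a j) / c ∈ A,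
      r j * r j * Xb =
        -(wb * (r j * r j)) - algebraMap k Fk (R.π ⟨_, σA⟩) * r j := by
    intro j
    obtain ⟨hva, hoa, hoa'⟩ := hcoord j (P j) (a j) (hP j) (ha j)
    obtain ⟨hvp, hop, hop'⟩ := hcoord j (Pp j) (ap j) (hPp j) (hap j)
    obtain ⟨hvm, hom, hom'⟩ := hcoord j (Pm j) (am j) (hPm j) (ham j)
    set τ := t j - algebraMap K F (a j) with hτ
    set τp := t j - algebraMap K F (ap j) with hτp
    set τm := t j - algebraMap K F (am j) with hτm
    have hrτ := hredsub j _ hva
    have hrτp := hredsub j _ hvp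
    have hrτm := hredsub j _ hvm
    have hτ0 := hrτ.ne_zero (hr0 j)
    have hτp0 := hrτp.ne_zero (hr0 j)
    have hτm0 := hrτm.ne_zero (hr0 j)
    set U := s * τ * τ / (τp * τm) with hU
    have hU0 : U ≠ 0 := div_ne_zero (mul_ne_zero (mul_ne_zero hs0 hτ0) hτ0)
      (mul_ne_zero hτp0 hτm0)
    have hUid : τp * τm * U = s * τ * τ := by
      rw [hU, mul_comm, div_mul_cancel₀ _ (mul_ne_zero hτp0 hτm0)]
    have hrU : R.Red U 1 := by
      have h : R.Red (τp * τm * U) (r j * r j) := by
        rw [hUid]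
        simpa using (hreds.mul hrτ).mul hrτ
      obtain ⟨y, hy, hyr⟩ := mem_of_mul_mem (hrτp.mul hrτm) (mul_ne_zero (hr0 j) (hr0 j)) h
      rwa [mul_eq_left₀ (mul_ne_zero (hr0 j) (hr0 j)) |>.1 hyr] at hy
    have hUnp : NoPole R (Q j) U := by
      intro X hX
      refine Or.inr (le_of_eq ?_)
      rw [hU, div_eq_mul_inv, X.ord_mul (mul_ne_zero (mul_ne_zero hs0 hτ0) hτ0)
        (inv_ne_zero (mul_ne_zero hτp0 hτm0)), X.ord_inv, X.ord_mul (mul_ne_zero hs0 hτ0) hτ0,
        X.ord_mul hs0 hτ0, X.ord_mul hτp0 hτm0, hords, hdiv]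
      simp only [Finsupp.sub_apply, Finsupp.add_apply,
        sum_single_apply_over hQ hP hX, sum_single_apply_over hQ hPp hX,
        sum_single_apply_over hQ hPm hX]
      have e1 : X.ord τ = if X = P j then 1 else 0 := by
        split_ifs with h
        · rw [h]; exact hoa
        · exact hoa' X hX h
      have e2 : X.ord τp = if X = Pp j then 1 else 0 := by
        split_ifs with h
        · rw [h]; exact hop
        · exact hop' X hX h
      have e3 : X.ord τm = if X = Pm j then 1 else 0 := by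
        split_ifs with h
        · rw [h]; exact hom
        · exact hom' X hX h
      rw [e1, e2, e3]; ring
    have hσA : (ap j + am j - 2 * a j) / c ∈ A := hdivle _ (ho (some j) (Finset.mem_univ _))
    have hπlt : A.valuation ((ap j - a j) * (am j - a j) / c) < 1 := by
      rw [map_div₀, map_mul, div_lt_one₀ hvc]
      exact lt_of_le_of_lt (mul_le_mul' (hγp j) (hγm j)) hlarge
    obtain ⟨hπA, hπ0⟩ := hsmall _ hπlt
    set X' := algebraMap K F c⁻¹ * (1 - U) with hX'
    have hXid : τ * τ * X' = -(w * (τ * τ)) +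
        U * (-(algebraMap K F ((ap j + am j - 2 * a j) / c) * τ) +
          algebraMap K F ((ap j - a j) * (am j - a j) / c)) := by
      have hcF : algebraMap K F c ≠ 0 := by simpa using hc0
      have hUid' : τp * τm * U = s * τ * τ := hUid
      have hp' : τp = τ - (algebraMap K F (ap j) - algebraMap K F (a j)) := by
        rw [hτp, hτ]; ring
      have hm' : τm = τ - (algebraMap K F (am j) - algebraMap K F (a j)) := by
        rw [hτm, hτ]; ring
      rw [hp', hm'] at hUid'
      simp only [hX', hw, map_div₀, map_inv₀, map_sub, map_add, map_mul, map_ofNat]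
      field_simp
      linear_combination (-1 : F) * hUid'
    have hrX : R.Red (τ * τ * X') (-(wb * (r j * r j)) +
        1 * (-(algebraMap k Fk (R.π ⟨_, hσA⟩) * r j) + algebraMap k Fk (R.π ⟨_, hπA⟩))) := by
      rw [hXid]
      exact (hredw.mul (hrτ.mul hrτ)).neg.add
        (hrU.mul (((red_const ⟨_, hσA⟩).mul hrτ).neg.add (red_const ⟨_, hπA⟩)))
    obtain ⟨Xb, hXb, hXeq⟩ := mem_of_mul_mem (hrτ.mul hrτ) (mul_ne_zero (hr0 j) (hr0 j)) hrX
    refine ⟨Xb, ?_, hσA, ?_⟩
    · rcases eq_or_ne Xb 0 with rfl | hne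
      · exact atLeast_zero
      · have hnpX : NoPole R (Q j) X' := fun X hX =>
          ((AtLeast.sub (Or.inr (by simp)) (hUnp X hX))).smul c⁻¹
        have h1 := sum_le_ord hF hXb hne hnpX ∅ (by simp)
        exact Or.inr (by simpa using h1)
    · rw [hXeq, hπ0, map_zero]; ring
  choose Xb hXb σA hid using hdisc
  have hwQ : ∀ j, AtLeast (Q j) (-1) wb := by
    intro j
    have h2 : wb = -Xb j - algebraMap k Fk (R.π ⟨_, σA j⟩) * (r j)⁻¹ := by
      apply mul_right_cancel₀ (mul_ne_zero (hr0 j) (hr0 j))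
      rw [sub_mul, neg_mul, mul_comm (Xb j), hid j]
      field_simp [hr0 j]
      ring
    rw [h2]
    refine ((hXb j).neg.mono (by norm_num)).sub (AtLeast.smul (Or.inr ?_) _)
    rw [(Q j).ord_inv, hr1 j]
  have hwb0 : wb = 0 := by
    set E : Divisor k Fk := ∑ j, Finsupp.single (Q j) (1 : ℤ)
    have hE0 : 0 ≤ E := Finset.sum_nonneg fun j _ => Finsupp.single_nonneg.2 zero_le_one
    -- `wb` has at most simple poles, all at the `Q j`
    have hmem : wb ∈ riemannRochSpace E := by
      rw [FA.Curve.mem_riemannRochSpace]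
      intro Q'
      by_cases hQ' : ∃ j, Q j = Q'
      · obtain ⟨j, rfl⟩ := hQ'
        have : E (Q j) = 1 := by
          rw [sum_single_apply, Finset.card_eq_one.2 ⟨j, ?_⟩]
          · rfl
          · ext x
            simp [hQ.eq_iff]
        rw [this]
        exact hwQ j
      · push Not at hQ'
        have : E Q' = 0 := by
          rw [Finset.sum_apply']
          exact Finset.sum_eq_zero fun j _ => Finsupp.single_eq_of_ne (hQ' j).symm
        rw [this, neg_zero]
        rcases eq_or_ne wb 0 with h | h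
        · rw [h]; exact atLeast_zero
        have hnpw : NoPole R Q' w := fun X hX => by
          refine (AtLeast.sub ?_ (Or.inr (by simp))).smul _
          refine Or.inr ?_
          have hne : ∀ (Z : ι → Place K F), (∀ j, R.spl (Z j) = Q j) →
              (∑ j, Finsupp.single (Z j) (1 : ℤ)) X = 0 := fun Z hZ => by
            rw [Finset.sum_apply']
            exact Finset.sum_eq_zero fun j _ => Finsupp.single_eq_of_ne fun h =>
              hQ' j (by rw [← hZ j, ← h, hX])
          simp only [hords, hdiv, Finsupp.sub_apply, Finsupp.add_apply, hne P hP, hne Pp hPp,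
            hne Pm hPm]
          simp
        have := sum_le_ord hF hredw h hnpw ∅ (by simp)
        exact Or.inr (by simpa using this)
    have hnpw : NoPole R Qs w := fun X hX =>
      (AtLeast.sub (Or.inr (by rw [hords, hdiv0 X hX])) (Or.inr (by simp))).smul _
    have hv : HasValue Ps w 0 := by
      have := ((hvals.sub (hasValue_algebraMap Ps 1)).smul c⁻¹)
      rwa [map_one, sub_self, mul_zero] at this
    obtain ⟨h0, hv'⟩ := hasValue_red hF hredw hnpw hPs hv
    rw [show (⟨(0 : K), h0⟩ : A) = 0 from rfl, map_zero] at hv'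
    exact eq_zero_of_mem_of_hasValue hk hell hE0 hmem hv'
  -- `c` is attained
  rcases o with - | j
  · have hc₁ : c₁ ≠ 0 := hc0
    have hone : R.π ⟨c₁ / c, hc1⟩ = 1 := by
      rw [← map_one R.π]
      exact congrArg R.π (Subtype.ext (div_self hc₁))
    have : wb = ub := by simp only [wb, hone, map_one, one_mul]
    exact hub0 hc₁ (this ▸ hwb0)
  · have hone : R.π ⟨_, σA j⟩ = 1 := by
      rw [← map_one R.π]
      exact congrArg R.π (Subtype.ext (div_self hc0))
    have h2 := hid j
    rw [hwb0, hone, map_one, zero_mul, neg_zero, zero_sub, one_mul, mul_assoc,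
      ← mul_neg_one, mul_right_inj' (hr0 j)] at h2
    have hX0 : Xb j ≠ 0 := fun h => by rw [h, mul_zero] at h2; exact one_ne_zero (neg_eq_zero.1 h2.symm)
    have h3 := congrArg (Q j).ord h2
    rw [(Q j).ord_mul (hr0 j) hX0, hr1 j, place_ord_neg, (Q j).ord_one] at h3
    have h4 := (atLeast_iff hX0).1 (hXb j)
    omega

include hF hk

/-- A torsion class prime to the residue characteristic with principal reduction is zero. -/
theorem isPrincipal_of_push_isPrincipal (hg : genus K F ≤ genus k Fk) {m : ℕ} (hm0 : m ≠ 0)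
    (hm : A.valuation (m : K) = 1) {D : Divisor K F} (hD : Divisor.degree D = 0)
    (hmD : (m • D).IsPrincipal) (hred : (R.push D).IsPrincipal) : D.IsPrincipal := by
  classical
  obtain ⟨fm, hfm0, hfm⟩ := hmD
  obtain ⟨rb, hrb0, hrb⟩ := hred
  -- nonspecial divisor downstairs
  obtain ⟨S, hScard, -, hell'⟩ := exists_nonspecial hk ∅
  obtain ⟨S', hS'sub, hS'card⟩ := S.exists_subset_card_eq (hScard.symm ▸ hg)
  set Eb : Divisor k Fk := ∑ Q : S', Finsupp.single Q.1 (1 : ℤ) with hEb
  have hEb0 : 0 ≤ Eb := Finset.sum_nonneg fun j _ => Finsupp.single_nonneg.2 zero_le_one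
  have hdegEb : Divisor.degree Eb = genus K F := by
    simp [hEb, map_sum, hk.deg_eq_one, hS'card]
  have hell : ell Eb = 1 := by
    refine le_antisymm ?_ ?_
    · rw [← hell']
      refine ell_mono hk ?_
      rw [hEb, Finset.sum_coe_sort S' (fun Q => Finsupp.single Q (1 : ℤ))]
      exact Finset.sum_le_sum_of_subset_of_nonneg hS'sub
        fun Q _ _ => Finsupp.single_nonneg.2 zero_le_one
    · rw [← ell_zero hk]; exact ell_mono hk hEb0
  have hQinj : Function.Injective (fun Q : S' => Q.1) := Subtype.val_injective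
  choose P₀ hP₀ using fun Q : S' => spl_surjective hF hk (R := R) Q.1
  choose t ht using fun Q : S' => exists_coord hF hk hg (R := R) Q.1
  set E₀ : Divisor K F := ∑ Q : S', Finsupp.single (P₀ Q) (1 : ℤ) with hE₀
  have hpushE₀ : R.push E₀ = Eb := by
    simp [hE₀, hEb, push, Finsupp.mapDomain_finsetSum, hP₀]
  -- the divisors in linear progression
  have hexists : ∀ n : ℕ, ∃ (P : S' → Place K F) (f : F), (∀ Q, R.spl (P Q) = Q.1) ∧ f ≠ 0 ∧
      (∑ Q, Finsupp.single (P Q) (1 : ℤ)) = E₀ + n • D + divOf hF f := by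
    intro n
    have hdeg : Divisor.degree (E₀ + n • D) = genus K F := by
      rw [map_add, map_nsmul, hD, smul_zero, add_zero, ← degree_push hF hk (R := R), hpushE₀,
        hdegEb]
    have hpos : 0 < ell (E₀ + n • D) := by
      have := riemann_inequality hF (E₀ + n • D)
      omega
    obtain ⟨f, hf0, hle⟩ := exists_effective_of_ell_pos hF hpos
    set E := E₀ + n • D + divOf hF f
    obtain ⟨c, g, gb, hc, hfg, hgb, hgb0⟩ := exists_scale' (R := R) hf0
    have hdg : divOf hF f = divOf hF g := Finsupp.ext fun X => by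
      rw [divOf_apply, divOf_apply, hfg, X.ord_mul (by simpa using hc) (hgb.ne_zero hgb0),
        place_ord_algebraMap, zero_add]
    have hpushE : R.push E = Eb + divOf hk (rb ^ n * gb) := by
      ext Q
      have h1 : R.push (n • D) Q = n * Q.ord rb := by
        rw [push, ← Finsupp.mapDomain.addMonoidHom_apply, map_nsmul,
          Finsupp.mapDomain.addMonoidHom_apply, Finsupp.smul_apply, nsmul_eq_mul]
        have := hrb Q
        rw [push] at this
        rw [this]
      simp only [E, push_add, Finsupp.add_apply, hpushE₀, hdg, push_divOf hF hgb hgb0, h1,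
        divOf_apply]
      rw [Q.ord_mul (pow_ne_zero _ hrb0) hgb0, place_ord_pow]
      ring
    have hz0 : rb ^ n * gb ≠ 0 := mul_ne_zero (pow_ne_zero _ hrb0) hgb0
    have hz : rb ^ n * gb ∈ riemannRochSpace Eb := by
      rw [FA.Curve.mem_riemannRochSpace]
      intro Q
      refine Or.inr ?_
      have := Finsupp.le_def.1 (push_nonneg (R := R) hle) Q
      rw [hpushE] at this
      simp only [Finsupp.coe_zero, Pi.zero_apply, Finsupp.add_apply, divOf_apply] at this
      omega
    have hpushE' : R.push E = Eb := by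
      rw [hpushE, add_eq_left]
      ext Q
      rw [divOf_apply, Finsupp.zero_apply]
      haveI := finite_riemannRochSpace hk Eb
      have h1 : (1 : Fk) ∈ riemannRochSpace Eb := by
        rw [FA.Curve.mem_riemannRochSpace]
        intro Q'
        refine Or.inr ?_
        have := Finsupp.le_def.1 hEb0 Q'
        simp only [Finsupp.coe_zero, Pi.zero_apply] at this
        rw [Q'.ord_one]; omega
      have heq : Submodule.span k ({1} : Set Fk) = riemannRochSpace Eb := by
        refine Submodule.eq_of_le_of_finrank_le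
          ((Submodule.span_singleton_le_iff_mem _ _).2 h1) ?_
        rw [finrank_span_singleton one_ne_zero]
        exact Int.ofNat_le.1 (le_of_eq hell)
      rw [← heq, Submodule.mem_span_singleton] at hz
      obtain ⟨b, hb⟩ := hz
      rw [← hb, Algebra.smul_def, mul_one, place_ord_algebraMap]
    -- one place in each disc
    have hone : ∀ Q : S', ∃ P, R.spl P = Q.1 ∧ E P = 1 ∧
        ∀ P', R.spl P' = Q.1 → P' ≠ P → E P' = 0 := by
      intro Q
      have hsum : ∑ P ∈ E.support.filter (fun P => R.spl P = Q.1), E P = 1 := by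
        rw [Finset.sum_filter, ← push_apply (R := R) E Q.1, hpushE', hEb, sum_single_apply,
          Finset.card_eq_one.2 ⟨Q, ?_⟩]
        · rfl
        · ext x; simp
      obtain ⟨P, hP, hPne⟩ := Finset.exists_ne_zero_of_sum_ne_zero (hsum.symm ▸ one_ne_zero)
      rw [Finset.mem_filter] at hP
      have hnn : ∀ X, 0 ≤ E X := fun X => by simpa using Finsupp.le_def.1 hle X
      refine ⟨P, hP.2, ?_, fun P' hP' hne => ?_⟩
      · have h1 := Finset.single_le_sum (f := fun P => E P)
          (s := E.support.filter (fun P => R.spl P = Q.1)) (fun X _ => hnn X)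
          (Finset.mem_filter.2 hP)
        rw [hsum] at h1
        have := hnn P
        omega
      · by_contra h
        have h2 := Finset.sum_le_sum_of_subset_of_nonneg (f := fun P => E P)
          (show ({P, P'} : Finset _) ⊆ E.support.filter (fun P => R.spl P = Q.1) by
            intro x hx
            rcases Finset.mem_insert.1 hx with rfl | hx
            · exact Finset.mem_filter.2 hP
            · rw [Finset.mem_singleton.1 hx]
              exact Finset.mem_filter.2 ⟨Finsupp.mem_support_iff.2 h, hP'⟩)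
          (fun X _ _ => hnn X)
        rw [Finset.sum_pair (Ne.symm hne), hsum] at h2
        have := hnn P
        have := hnn P'
        omega
    choose P hP hP1 hP0 using hone
    refine ⟨P, f, hP, hf0, Finsupp.ext fun X => ?_⟩
    by_cases hX : ∃ Q : S', Q.1 = R.spl X
    · obtain ⟨Q, hQ⟩ := hX
      rw [sum_single_apply_over hQinj hP hQ.symm]
      split_ifs with h
      · rw [h]; exact (hP1 Q).symm
      · exact (hP0 Q X hQ.symm h).symm
    · push Not at hX
      rw [Finset.sum_apply', Finset.sum_eq_zero fun Q _ =>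
        Finsupp.single_eq_of_ne fun h => hX Q (by rw [h, hP]) , eq_comm]
      by_contra hne
      have hzero : R.push E (R.spl X) = 0 := by
        rw [hpushE', hEb, Finset.sum_apply']
        exact Finset.sum_eq_zero fun Q _ => Finsupp.single_eq_of_ne (hX Q).symm
      rw [push_apply, ← Finset.sum_filter, Finset.sum_eq_zero_iff_of_nonneg
        fun P _ => by simpa using Finsupp.le_def.1 hle P] at hzero
      exact hne (hzero X (Finset.mem_filter.2 ⟨Finsupp.mem_support_iff.2 hne, rfl⟩))
  choose P₁ f₁ hP₁ hf₁ hE₁ using hexists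
  set P : ℕ → S' → Place K F := fun n => if n = 0 ∨ n = m then P₀ else P₁ n with hPdef
  have hPspl : ∀ n Q, R.spl (P n Q) = Q.1 := fun n Q => by
    simp only [hPdef]; split_ifs
    · exact hP₀ Q
    · exact hP₁ n Q
  have hEP : ∀ n, n ≤ m → ∃ f : F, f ≠ 0 ∧
      (∑ Q, Finsupp.single (P n Q) (1 : ℤ)) = E₀ + n • D + divOf hF f := by
    intro n _
    by_cases hn : n = 0 ∨ n = m
    · rcases hn with rfl | rfl
      · refine ⟨1, one_ne_zero, Finsupp.ext fun X => ?_⟩
        simp [hPdef, hE₀, Place.ord_one]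
      · refine ⟨fm⁻¹, inv_ne_zero hfm0, Finsupp.ext fun X => ?_⟩
        have := hfm X
        simp only [hPdef, or_true, if_true, hE₀, Finsupp.add_apply, divOf_apply, Place.ord_inv,
          this]
        ring
    · exact ⟨f₁ n, hf₁ n, by simp only [hPdef, if_neg hn]; exact hE₁ n⟩
  rcases isEmpty_or_nonempty S' with hempty | hne
  · -- genus zero
    obtain ⟨f, hf0, hfe⟩ := hEP 1 (by omega)
    refine ⟨f⁻¹, inv_ne_zero hf0, fun X => ?_⟩
    have := congrArg (fun E : Divisor K F => E X) hfe
    simp [hE₀] at this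
    rw [X.ord_inv]; omega
  choose α hα hαlt _ _ using fun n Q => (ht Q).exists_value hF (hPspl n Q)
  set δ : ℕ → S' → K := fun n Q => α (n + 1) Q - α n Q
  haveI : Nonempty (Fin m) := ⟨⟨0, Nat.pos_of_ne_zero hm0⟩⟩
  obtain ⟨⟨n₀, Q₀⟩, -, hmax⟩ := Finset.exists_max_image (Finset.univ : Finset (Fin m × S'))
    (fun p => A.valuation (δ p.1 p.2)) Finset.univ_nonempty
  set ε := A.valuation (δ n₀ Q₀)
  have hε : ε < 1 := by
    show A.valuation (α ((n₀ : ℕ) + 1) Q₀ - α (n₀ : ℕ) Q₀) < 1
    exact lt_of_le_of_lt (Valuation.map_sub _ _ _) (max_lt (hαlt _ _) (hαlt _ _))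
  have hδle : ∀ n < m, ∀ Q, A.valuation (δ n Q) ≤ ε := fun n hn Q =>
    hmax (⟨n, hn⟩, Q) (Finset.mem_univ _)
  have hrec : ∀ n, n + 1 < m → ∀ Q, A.valuation (δ (n + 1) Q - δ n Q) ≤ ε * ε := by
    intro n hn Q
    obtain ⟨fa, hfa, ea⟩ := hEP (n + 1) hn.le
    obtain ⟨fp, hfp, ep⟩ := hEP (n + 2) hn
    obtain ⟨fq, hfq, eq'⟩ := hEP n (by omega)
    have hne0 : fp * fq * (fa * fa)⁻¹ ≠ 0 :=
      mul_ne_zero (mul_ne_zero hfp hfq) (inv_ne_zero (mul_ne_zero hfa hfa))
    have hdiv : divOf hF (fp * fq * (fa * fa)⁻¹) = (∑ i, Finsupp.single (P (n + 2) i) (1 : ℤ)) +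
        (∑ i, Finsupp.single (P n i) (1 : ℤ)) - (∑ i, Finsupp.single (P (n + 1) i) (1 : ℤ)) -
        ∑ i, Finsupp.single (P (n + 1) i) (1 : ℤ) := by
      rw [ea, ep, eq']
      ext X
      simp only [divOf_apply, Finsupp.sub_apply, Finsupp.add_apply, Finsupp.smul_apply,
        nsmul_eq_mul]
      rw [X.ord_mul (mul_ne_zero hfp hfq) (inv_ne_zero (mul_ne_zero hfa hfa)), X.ord_inv,
        X.ord_mul hfp hfq, X.ord_mul hfa hfa]
      push_cast; ring
    have h := second_order hF hk hQinj hell ht (hPspl (n + 1)) (hPspl (n + 2)) (hPspl n)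
      (hα (n + 1)) (hα (n + 2)) (hα n) hne0 hdiv (γ := ε)
      (fun i => hδle (n + 1) hn i)
      (fun i => by rw [← Valuation.map_neg, neg_sub]; exact hδle n (by omega) i) Q
    have he : α (n + 2) Q + α n Q - 2 * α (n + 1) Q = δ (n + 1) Q - δ n Q := by
      simp only [δ]; ring
    rwa [he] at h
  have hclose : ∀ n, n < m → ∀ Q, A.valuation (δ n Q - δ 0 Q) ≤ ε * ε := by
    intro n
    induction n with
    | zero => intro _ Q; simp
    | succ n ih =>
      intro hn Q
      have := Valuation.map_add_le A.valuation (hrec n hn Q) (ih (by omega) Q)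
      rwa [sub_add_sub_cancel] at this
  have htel : ∀ Q, ∑ n ∈ Finset.range m, δ n Q = 0 := fun Q => by
    simp only [δ]
    rw [Finset.sum_range_sub (fun n => α n Q), sub_eq_zero]
    exact ((hα m Q).unique (by
      have := hα 0 Q
      rwa [show P 0 Q = P m Q by simp [hPdef]] at this))
  have hsmall : ∀ n < m, ∀ Q, A.valuation (δ n Q) ≤ ε * ε := by
    have h0 : ∀ Q, A.valuation (δ 0 Q) ≤ ε * ε := fun Q => by
      have hs : (m : K) * δ 0 Q = -∑ n ∈ Finset.range m, (δ n Q - δ 0 Q) := by
        rw [Finset.sum_sub_distrib, htel Q, Finset.sum_const, Finset.card_range, nsmul_eq_mul]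
        ring
      have h1 : A.valuation ((m : K) * δ 0 Q) ≤ ε * ε := by
        rw [hs, Valuation.map_neg]
        exact Valuation.map_sum_le _ fun n hn => hclose n (Finset.mem_range.1 hn) Q
      rwa [map_mul, hm, one_mul] at h1
    intro n hn Q
    have := Valuation.map_add_le A.valuation (hclose n hn Q) (h0 Q)
    rwa [sub_add_cancel] at this
  have hεzero : ε = 0 := by
    by_contra h
    have h1 : ε ≤ ε * ε := hsmall n₀ n₀.2 Q₀
    have h2 : ε * ε < ε * 1 := mul_lt_mul_of_pos_left hε (zero_lt_iff.2 h)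
    rw [mul_one] at h2
    exact lt_irrefl _ (h1.trans_lt h2)
  have hP01 : ∀ Q, P 1 Q = P₀ Q := by
    intro Q
    have hd : δ 0 Q = 0 := by
      have := hδle 0 (Nat.pos_of_ne_zero hm0) Q
      rw [hεzero, le_zero_iff, map_eq_zero] at this
      exact this
    have ha : α 1 Q = α 0 Q := sub_eq_zero.1 hd
    have hP0Q : P 0 Q = P₀ Q := by simp [hPdef]
    by_contra hne
    obtain ⟨b, hb, -, hb1, hb2⟩ := (ht Q).exists_value hF (hPspl 0 Q)
    have h1 := hb2 (P 1 Q) (hPspl 1 Q) (hP0Q.symm ▸ hne)
    obtain ⟨b', hb', -, hb1', -⟩ := (ht Q).exists_value hF (hPspl 1 Q)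
    rw [(hα 1 Q).unique hb' |>.symm, ha, (hα 0 Q).unique hb] at hb1'
    omega
  obtain ⟨f, hf0, hfe⟩ := hEP 1 (Nat.pos_of_ne_zero hm0)
  refine ⟨f⁻¹, inv_ne_zero hf0, fun X => ?_⟩
  simp only [hP01, one_smul] at hfe
  have := congrArg (fun E : Divisor K F => E X) hfe
  simp only [hE₀, Finsupp.add_apply, divOf_apply] at this
  rw [X.ord_inv]
  omega

end FA.CurveRed.Reduction
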