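import Fermat.Agent.CurveRed.Quot
import Fermat.Agent.CurveRed.Torsion
import Fermat.Agent.CurveRed.FullField
import Fermat.Agent.ModField.Bar
import Fermat.Prelude.Def_ModularCurve_ReductionModL

/-!
# The constant reduction given by `ReductionInputsAlong`, and injectivity of the reduction on
prime-to-`ℓ` torsion given the genus inequality
-/

set_option autoImplicit false
set_option linter.style.haveILetI false
set_option linter.unusedSectionVars false
set_option synthInstance.maxHeartbeats 200000

noncomputable section

namespace FA.CurveRed

open ModularCurve AlgebraicCurve FA.Curve HahnSeries IntermediateField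

variable {L : Type*} [Field L] [Algebra ℚ L] (A : ValuationSubring L) {k : Type*} [Field k]
  (π : A →+* k) (N : ℕ) [NeZero N]

/-- The function field upstairs. -/
abbrev upField : IntermediateField L (LaurentSeries L) :=
  laurentBaseChange L (modularFunctionFieldFull N)

theorem isFunctionField_up : IsFunctionField L (upField (L := L) N) := by
  rw [upField, FA.ModField.laurentBaseChange_full L N]
  exact isFunctionField_fullC L N

theorem coeffMap_subtype_injective : Function.Injective (coeffMap (A.subtype : A →+* L)) :=
  fun x y hxy => by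
    ext n
    have := congrArg (fun s : LaurentSeries L => s.coeff n) hxy
    simpa only [coeffMap_coeff, ValuationSubring.subtype_apply] using this

/-- Integral series in both function fields. -/
def intSeries : Subring (LaurentSeries A) :=
  ((upField (L := L) N).toSubalgebra.toSubring.comap (coeffMap (A.subtype : A →+* L))) ⊓
    ((modularFunctionFieldFullC k N).toSubalgebra.toSubring.comap (coeffMap π))

/-- Generic evaluation. -/
def toUp : intSeries A π N →+* upField (L := L) N :=
  ((coeffMap (A.subtype : A →+* L)).comp (intSeries A π N).subtype).codRestrict _ fun y => y.2.1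

/-- Special evaluation. -/
def toDown : intSeries A π N →+* modularFunctionFieldFullC k N :=
  ((coeffMap π).comp (intSeries A π N).subtype).codRestrict _ fun y => y.2.2

theorem coeffMap_C' {R S : Type*} [CommRing R] [CommRing S] (φ : R →+* S) (a : R) :
    coeffMap φ (HahnSeries.C a) = HahnSeries.C (φ a) := by
  rw [HahnSeries.C_apply, coeffMap_single, ← HahnSeries.C_apply]

theorem C_mem_intSeries (a : A) : (HahnSeries.C a : LaurentSeries A) ∈ intSeries A π N := by
  refine ⟨?_, ?_⟩
  · show coeffMap _ _ ∈ upField (L := L) N
    rw [coeffMap_C']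
    have h1 := (upField (L := L) N).algebraMap_mem (a : L)
    rwa [algebraMap_laurentSeries_eq_single, ← HahnSeries.C_apply] at h1
  · show coeffMap _ _ ∈ modularFunctionFieldFullC k N
    rw [coeffMap_C']
    have h2 := (modularFunctionFieldFullC k N).algebraMap_mem (π a)
    rwa [algebraMap_laurentSeries_eq_single, ← HahnSeries.C_apply] at h2

/-- Constants. -/
def constSeries : A →+* intSeries A π N :=
  (HahnSeries.C : A →+* LaurentSeries A).codRestrict _ (C_mem_intSeries A π N)

theorem jqModC_mem_intSeries : jqModC A ∈ intSeries A π N := by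
  refine ⟨?_, ?_⟩
  · show coeffMap _ _ ∈ upField (L := L) N
    rw [coeffMap_jqModC, upField, FA.ModField.laurentBaseChange_full L N]
    exact jqModC_mem_full L N
  · show coeffMap _ _ ∈ modularFunctionFieldFullC k N
    rw [coeffMap_jqModC]
    exact jqModC_mem_full k N

variable {A π N}

theorem quotData (hπs : Function.Surjective π) (hπ0 : ∀ a : A, π a = 0 ↔ A.valuation a < 1)
    {r : Place L (upField (L := L) N) → Place k (modularFunctionFieldFullC k N)}
    (hr : IsPlaceReductionAlong A π N r) (hgen : PrincipalGeneratedByIntegral A π N) :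
    QuotData (toUp A π N) (toDown A π N) π (constSeries A π N) r where
  u_inj x y hxy := Subtype.ext (coeffMap_subtype_injective A (congrArg Subtype.val hxy))
  π_surjective := hπs
  π_eq_zero := hπ0
  u_const a := by
    apply Subtype.ext
    show coeffMap _ (HahnSeries.C a) = algebraMap L (LaurentSeries L) (a : L)
    rw [coeffMap_C', algebraMap_laurentSeries_eq_single, ← HahnSeries.C_apply]
    rfl
  v_const a := by
    apply Subtype.ext
    show coeffMap _ (HahnSeries.C a) = algebraMap k (LaurentSeries k) (π a)
    rw [coeffMap_C', algebraMap_laurentSeries_eq_single, ← HahnSeries.C_apply]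
  div_compat y hy D hD Q :=
    hr.2 (y : LaurentSeries A) y.2.1 y.2.2 (fun h => hy (Subtype.ext h)) D hD Q
  generated f hf D hD := by
    refine AddSubgroup.closure_mono ?_ (hgen ⟨f, hf, hD⟩)
    rintro E ⟨y, hy, hyk, hne, hE⟩
    exact ⟨⟨y, hy, hyk⟩, fun h => hne (congrArg Subtype.val h), hE⟩
  nonconst := by
    refine ⟨⟨_, jqModC_mem_intSeries A π N⟩, ?_⟩
    convert jBar_transcendental k N using 1
    exact Subtype.ext (coeffMap_jqModC π)

variable [IsAlgClosed L] [IsAlgClosed k]

/-- Torsion prime to the residue characteristic injects, given the genus inequality. -/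
theorem eq_zero_of_reductionAlong_eq_zero (hπs : Function.Surjective π)
    (hπ0 : ∀ a : A, π a = 0 ↔ A.valuation a < 1)
    (hg : FA.Curve.genus L (upField (L := L) N) ≤
      FA.Curve.genus k (modularFunctionFieldFullC k N))
    (h : ReductionInputsAlong A π N) {m : ℕ} (hm0 : m ≠ 0) (hm : A.valuation (m : L) = 1)
    (z : Pic0 L (upField (L := L) N)) (hmz : m • z = 0) (hz : reductionAlong A π N z = 0) :
    z = 0 := by
  obtain ⟨D, rfl⟩ := Pic0.mk_surjective z
  rw [reductionAlong_mk h D] at hz
  have h1 : (m • (D : Divisor L (upField (L := L) N))).IsPrincipal := by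
    have h' : Pic0.mk (m • D) = 0 := hmz
    rw [Pic0.mk, QuotientAddGroup.eq_zero_iff, AddSubgroup.mem_addSubgroupOf] at h'
    exact h'
  have h2 : (((quotData hπs hπ0 h.choose_spec.1 h.choose_spec.2).toReduction
      (isFunctionField_up N)).push (D : Divisor L (upField (L := L) N))).IsPrincipal := by
    rw [Pic0.mk, QuotientAddGroup.eq_zero_iff, AddSubgroup.mem_addSubgroupOf] at hz
    exact hz
  have h3 := Reduction.isPrincipal_of_push_isPrincipal (isFunctionField_up N)
    (isFunctionField_fullC k N) hg hm0 hm D.2 h1 h2
  rw [Pic0.mk, QuotientAddGroup.eq_zero_iff, AddSubgroup.mem_addSubgroupOf]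
  exact h3

end FA.CurveRed
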