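import Fermat.Agent.CurveRed.Center

/-!
# The specialisation of places of a constant reduction of good genus

Divisors of functions with nonzero reduction specialise to divisors of the reductions.
-/

set_option autoImplicit false
set_option linter.style.haveILetI false
set_option linter.unusedSectionVars false
set_option maxHeartbeats 1600000

noncomputable section

namespace FA.CurveRed.ConstRed

open AlgebraicCurve FA.ModField FA.Curve Polynomial IntermediateField

section General

variable {K F : Type*} [Field K] [Field F] [Algebra K F]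

theorem mul_mem_riemannRochSpace {D E : Divisor K F} {f g : F} (hf : f ∈ riemannRochSpace D)
    (hg : g ∈ riemannRochSpace E) : f * g ∈ riemannRochSpace (D + E) := by
  rw [FA.Curve.mem_riemannRochSpace] at hf hg ⊢
  intro v
  rw [Finsupp.add_apply, neg_add]
  exact (hf v).mul (hg v)

theorem sup_riemannRochSpace [IsAlgClosed K] (hF : IsFunctionField K F) {c : ℤ}
    (hc : ∀ D : Divisor K F, c ≤ Divisor.degree D →
      ell D = Divisor.degree D + 1 - FA.Curve.genus K F)
    {D₁ D₂ U I : Divisor K F} (hU : ∀ v, U v = max (D₁ v) (D₂ v))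
    (hI : ∀ v, I v = min (D₁ v) (D₂ v)) (hdeg : c ≤ Divisor.degree I) :
    riemannRochSpace U ≤ riemannRochSpace D₁ ⊔ riemannRochSpace D₂ := by
  classical
  have hI1 : I ≤ D₁ := Finsupp.le_def.2 fun v => by rw [hI]; exact min_le_left _ _
  have hI2 : I ≤ D₂ := Finsupp.le_def.2 fun v => by rw [hI]; exact min_le_right _ _
  have h1U : D₁ ≤ U := Finsupp.le_def.2 fun v => by rw [hU]; exact le_max_left _ _
  have h2U : D₂ ≤ U := Finsupp.le_def.2 fun v => by rw [hU]; exact le_max_right _ _
  haveI := finite_riemannRochSpace hF U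
  haveI := finite_riemannRochSpace hF D₁
  haveI := finite_riemannRochSpace hF D₂
  haveI := finite_riemannRochSpace hF I
  have hinf : riemannRochSpace D₁ ⊓ riemannRochSpace D₂ ≤ riemannRochSpace I := by
    intro f hf
    rw [Submodule.mem_inf, FA.Curve.mem_riemannRochSpace, FA.Curve.mem_riemannRochSpace] at hf
    rw [FA.Curve.mem_riemannRochSpace]
    intro v
    rw [hI]
    rcases le_total (D₁ v) (D₂ v) with h | h
    · rw [min_eq_left h]; exact hf.1 v
    · rw [min_eq_right h]; exact hf.2 v
  refine (Submodule.eq_of_le_of_finrank_le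
    (sup_le (riemannRochSpace_mono h1U) (riemannRochSpace_mono h2U)) ?_).ge
  have h1 := Submodule.finrank_sup_add_finrank_inf_eq (riemannRochSpace D₁) (riemannRochSpace D₂)
  have h2 := Submodule.finrank_mono hinf
  have hsum : Divisor.degree U + Divisor.degree I = Divisor.degree D₁ + Divisor.degree D₂ := by
    rw [← map_add, ← map_add]
    congr 1
    ext v
    simp only [Finsupp.add_apply, hU, hI, max_add_min]
  have eU := hc U (le_trans hdeg (degree_mono hF (hI1.trans h1U)))
  have e1 := hc D₁ (le_trans hdeg (degree_mono hF hI1))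
  have e2 := hc D₂ (le_trans hdeg (degree_mono hF hI2))
  have eI := hc I hdeg
  simp only [ell] at eU e1 e2 eI
  omega

end General

variable {K F k Fk : Type*} [Field K] [Field F] [Algebra K F] [Field k] [Field Fk] [Algebra k Fk]
  {A : ValuationSubring K} {C : ConstRed K F k Fk A} [IsAlgClosed K] [IsAlgClosed k]
  (hF : IsFunctionField K F) (hk : IsFunctionField k Fk) {x : F} {xb : Fk}

/-- The functions of `L(D)` have reductions filling `L(D̄)` once the dimensions allow it. -/
theorem exists_lift_of_red_mem (h : C.Chart x xb) {D : Divisor K F} {Db : Divisor k Fk}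
    (hF : IsFunctionField K F) (hk : IsFunctionField k Fk)
    (hmem : ∀ f r, f ∈ riemannRochSpace D → C.Red f r → r ∈ riemannRochSpace Db)
    (hell : ell Db ≤ ell D) : ∀ r ∈ riemannRochSpace Db, ∃ f ∈ riemannRochSpace D, C.Red f r := by
  classical
  haveI := finite_riemannRochSpace hF D
  haveI := finite_riemannRochSpace hk Db
  obtain ⟨e, rb, he, her, hli⟩ := h.exists_lift_basis hF hk (riemannRochSpace D)
  have hspan : Submodule.span k (Set.range rb) = riemannRochSpace Db := by
    refine Submodule.eq_of_le_of_finrank_le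
      (Submodule.span_le.2 (Set.range_subset_iff.2 fun i => hmem _ _ (he i) (her i))) ?_
    rw [finrank_span_eq_card hli, Fintype.card_fin]
    exact Int.ofNat_le.1 hell
  intro r hr
  rw [← hspan, Submodule.mem_span_range_iff_exists_fun] at hr
  obtain ⟨b, rfl⟩ := hr
  choose a ha using fun i => C.π_surjective (b i)
  refine ⟨∑ i, algebraMap K F (a i : K) * e i, sum_mem fun i _ => ?_, red_sum fun i _ => ?_⟩
  · rw [← Algebra.smul_def]; exact Submodule.smul_mem _ _ (he i)
  · rw [Algebra.smul_def, ← ha i]
    exact (red_const (a i)).mul (her i)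

include hF hk

/-- Zeros specialise to zeros of the reduction. -/
theorem Chart.red_mem_sub (h : C.Chart x xb) (hg : FA.Curve.genus K F ≤ FA.Curve.genus k Fk)
    (σ : Place K F → Place k Fk) (n : ℕ) :
    ∀ E : Divisor K F, 0 ≤ E → Divisor.degree E = n →
      (∀ P ∈ E.support, IsCenter C x xb P (σ P)) → (∀ P ∈ E.support, 0 ≤ P.ord x) →
      ∀ (m : ℕ) (u : F) (ub : Fk),
      u ∈ riemannRochSpace (m • poleDiv hF x - E) → C.Red u ub →
        ub ∈ riemannRochSpace (m • poleDiv hk xb - Finsupp.mapDomain σ E) := by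
  classical
  induction n with
  | zero =>
    intro E hE hdeg _ _ m u ub hu hub
    have hE0 : E = 0 := by
      ext v
      have h1 := degree_eq_finset_sum hF E (Finset.Subset.refl E.support)
      rw [hdeg] at h1
      have h2 := (Finset.sum_eq_zero_iff_of_nonneg fun w _ => Finsupp.le_def.1 hE w).1 h1.symm
      by_contra hv
      exact hv (h2 v (Finsupp.mem_support_iff.2 hv))
    rw [hE0, sub_zero] at hu
    rw [hE0, Finsupp.mapDomain_zero, sub_zero]
    exact h.red_mem_nB hF hk hu hub
  | succ n ih =>
    intro E hE hdeg hcen hside m u ub hu hub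
    obtain ⟨P, hP⟩ : E.support.Nonempty := by
      rw [Finset.nonempty_iff_ne_empty]
      intro h0
      rw [Finsupp.support_eq_empty] at h0
      rw [h0, map_zero] at hdeg
      omega
    have hEP : 1 ≤ E P := lt_of_le_of_ne (Finsupp.le_def.1 hE P) (Ne.symm (Finsupp.mem_support_iff.1 hP))
    set E' := E - Finsupp.single P 1 with hE'def
    have hE' : 0 ≤ E' := Finsupp.le_def.2 fun v => by
      rw [hE'def, Finsupp.coe_zero, Pi.zero_apply, Finsupp.sub_apply]
      rcases eq_or_ne v P with rfl | hv
      · rw [Finsupp.single_eq_same]; omega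
      · rw [Finsupp.single_eq_of_ne hv, sub_zero]; exact Finsupp.le_def.1 hE v
    have hdeg' : Divisor.degree E' = n := by
      rw [hE'def, map_sub, hdeg, Divisor.degree_single, hF.deg_eq_one]
      push_cast
      ring
    have hcen' : ∀ v ∈ E'.support, IsCenter C x xb v (σ v) := by
      intro v hv
      rw [Finsupp.mem_support_iff, hE'def, Finsupp.sub_apply] at hv
      rcases eq_or_ne v P with rfl | hne
      · exact hcen _ hP
      · rw [Finsupp.single_eq_of_ne hne, sub_zero] at hv
        exact hcen v (Finsupp.mem_support_iff.2 hv)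
    have hside' : ∀ v ∈ E'.support, 0 ≤ v.ord x := by
      intro v hv
      rw [Finsupp.mem_support_iff, hE'def, Finsupp.sub_apply] at hv
      rcases eq_or_ne v P with rfl | hne
      · exact hside _ hP
      · rw [Finsupp.single_eq_of_ne hne, sub_zero] at hv
        exact hside v (Finsupp.mem_support_iff.2 hv)
    have IH := ih E' hE' hdeg' hcen' hside'
    set Q := σ P
    have hQ := hcen P hP
    set pE := Finsupp.mapDomain σ E' with hpEdef
    have hmapE : Finsupp.mapDomain σ E = pE + Finsupp.single Q 1 := by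
      rw [hpEdef, ← Finsupp.mapDomain_single (f := σ) (a := P) (b := (1 : ℤ)),
        ← Finsupp.mapDomain_add, hE'def, sub_add_cancel]
    rw [hmapE]
    have hpE : 0 ≤ pE := Finsupp.le_def.2 fun v => by
      rw [hpEdef, Finsupp.coe_zero, Pi.zero_apply, Finsupp.mapDomain, Finsupp.sum_apply]
      exact Finset.sum_nonneg fun w _ => by
        beta_reduce
        rw [Finsupp.single_apply]; split_ifs
        · exact Finsupp.le_def.1 hE' w
        · exact le_rfl
    have hdpE : Divisor.degree pE = n := by
      rw [← hdeg', hpEdef]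
      clear_value E'
      clear hE'def hE' hdeg' hcen' hside' IH hpEdef pE hmapE hpE
      induction E' using Finsupp.induction with
      | zero => simp
      | single_add w a D _ _ ih' =>
        rw [Finsupp.mapDomain_add, map_add, map_add, ih', Finsupp.mapDomain_single,
          Divisor.degree_single, Divisor.degree_single, hF.deg_eq_one, hk.deg_eq_one]
    have hle : m • poleDiv hF x - E ≤ m • poleDiv hF x - E' :=
      sub_le_sub_left (Finsupp.le_def.2 fun v => by
        rw [hE'def, Finsupp.sub_apply]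
        rcases eq_or_ne v P with rfl | hne
        · rw [Finsupp.single_eq_same]; omega
        · rw [Finsupp.single_eq_of_ne hne, sub_zero]) _
    have hIH := IH m u ub (riemannRochSpace_mono hle hu) hub
    rcases eq_or_ne ub 0 with hub0 | hub0
    · rw [hub0]; exact zero_mem _
    by_contra hbad
    obtain ⟨Db, hDbdef⟩ : ∃ D, D = divOf hk ub + m • poleDiv hk xb := ⟨_, rfl⟩
    rw [FA.Curve.mem_riemannRochSpace] at hIH
    have hDb : ∀ v, pE v ≤ Db v := fun v => by
      have h1 := (atLeast_iff hub0).1 (hIH v)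
      rw [Finsupp.sub_apply] at h1
      rw [hDbdef, Finsupp.add_apply, divOf_apply]
      omega
    have hDbQ : Db Q = pE Q := by
      rw [FA.Curve.mem_riemannRochSpace] at hbad
      push Not at hbad
      obtain ⟨v, hv⟩ := hbad
      rw [atLeast_iff hub0, Finsupp.sub_apply, Finsupp.add_apply] at hv
      have h2 := hDb v
      rw [hDbdef, Finsupp.add_apply, divOf_apply] at h2
      rcases eq_or_ne v Q with rfl | hne
      · rw [Finsupp.single_eq_same] at hv
        rw [hDbdef, Finsupp.add_apply, divOf_apply]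
        omega
      · rw [Finsupp.single_eq_of_ne hne] at hv
        omega
    -- thresholds
    obtain ⟨c, hc⟩ := exists_threshold hF
    obtain ⟨c', hc'⟩ := exists_threshold hk
    have hn1 := finrank_adjoin_pos hF h.transX
    set nn : ℕ := Module.finrank K⟮x⟯ F
    have dB : ∀ j : ℕ, Divisor.degree (j • poleDiv hF x) = (j : ℤ) * nn := fun j => by
      rw [map_nsmul, degree_poleDiv hF h.transX, nsmul_eq_mul]
    have dBb : ∀ j : ℕ, Divisor.degree (j • poleDiv hk xb) = (j : ℤ) * nn := fun j => by
      rw [map_nsmul, degree_poleDiv hk h.trans, nsmul_eq_mul, ← h.finrank_eq hF hk]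
    have hge : FA.Curve.genus k Fk = FA.Curve.genus K F := le_antisymm (h.genus_ge hF hk) hg
    -- the auxiliary function
    obtain ⟨m', hm'def⟩ : ∃ j : ℕ, j = c.toNat + c'.toNat + 2 := ⟨_, rfl⟩
    have hm' : ((m' : ℕ) : ℤ) ≤ (m' : ℤ) * nn := by nlinarith
    have hx0 : x ≠ 0 := x_ne_zero hF h.transX
    have hBP : poleDiv hF x P = 0 := by
      rw [poleDiv_apply, max_eq_left]
      have := hside P hP
      omega
    have hsurj : ∀ r ∈ riemannRochSpace (m' • poleDiv hk xb - Finsupp.single Q 1),
        ∃ s ∈ riemannRochSpace (m' • poleDiv hF x - Finsupp.single P 1), C.Red s r := by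
      refine exists_lift_of_red_mem h hF hk (fun f r hf hr => ?_) ?_
      · have hf' : f ∈ riemannRochSpace (m' • poleDiv hF x) :=
          riemannRochSpace_mono (sub_le_self _ (Finsupp.single_nonneg.2 zero_le_one)) hf
        have hreg := ((mem_riemannRoch_nB hF h.transX).1 hf').1
        have hval : HasValue P f 0 := by
          rw [hasValue_zero_iff]
          have := FA.Curve.mem_riemannRochSpace.1 hf P
          simpa [hBP] using this
        obtain ⟨hb, hv⟩ := hQ.2 f r hreg hr 0 hval
        rw [show (⟨(0 : K), hb⟩ : A) = 0 from rfl, map_zero, hasValue_zero_iff] at hv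
        have hr' := h.red_mem_nB hF hk hf' hr
        rw [FA.Curve.mem_riemannRochSpace] at hr' ⊢
        intro v
        rcases eq_or_ne v Q with rfl | hne
        · refine hv.mono ?_
          rw [Finsupp.sub_apply, Finsupp.single_eq_same, Finsupp.smul_apply, poleDiv_apply,
            max_eq_left (neg_nonpos.2 hQ.1)]
          simp
        · simpa [Finsupp.single_eq_of_ne hne] using hr' v
      · rw [hc _ (by rw [map_sub, dB, Divisor.degree_single, hF.deg_eq_one]; omega),
          hc' _ (by rw [map_sub, dBb, Divisor.degree_single, hk.deg_eq_one]; omega),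
          map_sub, map_sub, dB, dBb, Divisor.degree_single, Divisor.degree_single, hF.deg_eq_one,
          hk.deg_eq_one]
        omega
    set W := riemannRochSpace (m' • poleDiv hk xb - Finsupp.single Q 1)
    set S := (Db.support ∪ pE.support).erase Q with hSdef
    let pt : Option S → Place k Fk := fun o => o.elim Q Subtype.val
    let sub : Option S → Submodule k W := fun o => Submodule.comap W.subtype
      (riemannRochSpace (m' • poleDiv hk xb - Finsupp.single Q 1 - Finsupp.single (pt o) 1))
    have hsub : ∀ o, sub o ≠ ⊤ := by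
      intro o htop
      haveI := finite_riemannRochSpace hk
        (m' • poleDiv hk xb - Finsupp.single Q 1 - Finsupp.single (pt o) 1)
      have hle' : ell (m' • poleDiv hk xb - Finsupp.single Q 1) ≤
          ell (m' • poleDiv hk xb - Finsupp.single Q 1 - Finsupp.single (pt o) 1) :=
        Int.ofNat_le.2 (Submodule.finrank_mono (Submodule.comap_subtype_eq_top.1 htop))
      have e1 := hc' (m' • poleDiv hk xb - Finsupp.single Q 1)
        (by rw [map_sub, dBb, Divisor.degree_single, hk.deg_eq_one]; omega)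
      have e2 := hc' (m' • poleDiv hk xb - Finsupp.single Q 1 - Finsupp.single (pt o) 1)
        (by rw [map_sub, map_sub, dBb, Divisor.degree_single, Divisor.degree_single,
          hk.deg_eq_one, hk.deg_eq_one]; omega)
      simp only [map_sub, dBb, Divisor.degree_single, hk.deg_eq_one] at e1 e2
      omega
    obtain ⟨⟨sb, hsb⟩, hsbn⟩ := Submodule.exists_forall_notMem_of_forall_ne_top sub hsub
    have hsb0 : sb ≠ 0 := fun h0 => hsbn none (by
      show sb ∈ riemannRochSpace _
      rw [h0]; exact zero_mem _)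
    have hsbW := FA.Curve.mem_riemannRochSpace.1 hsb
    obtain ⟨Da, hDadef⟩ : ∃ D, D = divOf hk sb + m' • poleDiv hk xb := ⟨_, rfl⟩
    have hDa : ∀ v, Finsupp.single Q (1 : ℤ) v ≤ Da v := fun v => by
      have h1 := (atLeast_iff hsb0).1 (hsbW v)
      rw [Finsupp.sub_apply] at h1
      rw [hDadef, Finsupp.add_apply, divOf_apply]
      omega
    have hexact : ∀ o, Da (pt o) = if pt o = Q then 1 else 0 := by
      intro o
      have hno := hsbn o
      change ¬ sb ∈ riemannRochSpace _ at hno
      rw [FA.Curve.mem_riemannRochSpace] at hno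
      push Not at hno
      obtain ⟨v, hv⟩ := hno
      rw [atLeast_iff hsb0, Finsupp.sub_apply, Finsupp.sub_apply] at hv
      have h1 := hDa v
      have h2 := hDa (pt o)
      rw [hDadef, Finsupp.add_apply, divOf_apply] at h1
      rcases eq_or_ne v (pt o) with rfl | hne
      · rw [Finsupp.single_eq_same] at hv
        rw [hDadef, Finsupp.add_apply, divOf_apply]
        split_ifs with hpQ
        · rw [hpQ, Finsupp.single_eq_same] at hv h1
          rw [hpQ]
          omega
        · rw [Finsupp.single_eq_of_ne hpQ] at hv h1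
          omega
      · rw [Finsupp.single_eq_of_ne hne] at hv
        omega
    have hDaQ : Da Q = 1 := by simpa [pt] using hexact none
    have hDaS : ∀ v ∈ S, Da v = 0 := fun v hv => by
      have h1 := hexact (some ⟨v, hv⟩)
      rwa [if_neg (show pt (some ⟨v, hv⟩) ≠ Q from (Finset.mem_erase.1 hv).1)] at h1
    obtain ⟨s, hs, hsred⟩ := hsurj sb hsb
    -- the space in large degree
    obtain ⟨j₁, hj₁⟩ : ∃ j : ℕ, j = c.toNat + c'.toNat + m' + n + 1 := ⟨_, rfl⟩
    obtain ⟨j₂, hj₂⟩ : ∃ j : ℕ, j = c.toNat + c'.toNat + m + n + 1 := ⟨_, rfl⟩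
    obtain ⟨M, hM⟩ : ∃ M : ℕ, M = j₁ + m := ⟨_, rfl⟩
    have hM' : M = j₂ + m' := by rw [hM, hj₁, hj₂]; ring
    have hj₁n : ((j₁ : ℕ) : ℤ) ≤ (j₁ : ℤ) * nn := by nlinarith
    have hj₂n : ((j₂ : ℕ) : ℤ) ≤ (j₂ : ℤ) * nn := by nlinarith
    have hMn : ((M : ℕ) : ℤ) ≤ (M : ℤ) * nn := by nlinarith
    obtain ⟨D₁, hD₁⟩ : ∃ D, D = M • poleDiv hk xb - Db := ⟨_, rfl⟩
    obtain ⟨D₂, hD₂⟩ : ∃ D, D = M • poleDiv hk xb - pE - Da := ⟨_, rfl⟩
    obtain ⟨U, hUdef⟩ : ∃ D, D = M • poleDiv hk xb - pE := ⟨_, rfl⟩
    have hU : ∀ v, U v = max (D₁ v) (D₂ v) := by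
      intro v
      simp only [hUdef, hD₁, hD₂, Finsupp.sub_apply]
      have h1 := hDb v
      have h2 := hDa v
      by_cases hne : v = Q
      · rw [hne] at h1 h2 ⊢
        rw [Finsupp.single_eq_same] at h2
        rw [max_eq_left (by omega)]
        omega
      · rw [Finsupp.single_eq_of_ne hne] at h2
        by_cases hvS : v ∈ S
        · have := hDaS v hvS
          rw [max_eq_right (by omega)]
          omega
        · rw [hSdef, Finset.mem_erase] at hvS
          push Not at hvS
          have h3 := hvS hne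
          rw [Finset.mem_union, not_or, Finsupp.mem_support_iff, Finsupp.mem_support_iff,
            not_not, not_not] at h3
          rw [max_eq_left (by omega)]
          omega
    have hdDb : Divisor.degree Db = (m : ℤ) * nn := by
      rw [hDbdef, map_add, degree_divOf, zero_add, dBb]
    have hdDa : Divisor.degree Da = (m' : ℤ) * nn := by
      rw [hDadef, map_add, degree_divOf, zero_add, dBb]
    have hI : c' ≤ Divisor.degree (D₁ ⊓ D₂) := by
      have hle' : M • poleDiv hk xb - Db - pE - Da ≤ D₁ ⊓ D₂ := Finsupp.le_def.2 fun v => by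
        simp only [Finsupp.inf_apply, hD₁, hD₂, Finsupp.sub_apply]
        have h1 := hDb v
        have h2 := hDa v
        have h3 : (0 : ℤ) ≤ pE v := Finsupp.le_def.1 hpE v
        have h4 : (0 : ℤ) ≤ Finsupp.single Q (1 : ℤ) v :=
          Finsupp.le_def.1 (Finsupp.single_nonneg.2 zero_le_one) v
        rw [le_inf_iff]
        omega
      refine le_trans ?_ (degree_mono hk hle')
      rw [map_sub, map_sub, map_sub, dBb, hdDb, hdpE, hdDa]
      have e : ((M : ℤ) * nn) = (j₁ : ℤ) * nn + (m : ℤ) * nn := by rw [hM]; push_cast; ring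
      have e' : ((j₁ : ℤ) * nn) =
          ((c.toNat + c'.toNat + n + 1 : ℕ) : ℤ) * nn + (m' : ℤ) * nn := by
        rw [hj₁]; push_cast; ring
      have e'' : ((c.toNat + c'.toNat + n + 1 : ℕ) : ℤ) ≤
          ((c.toNat + c'.toNat + n + 1 : ℕ) : ℤ) * nn := by nlinarith
      omega
    have hsup := sup_riemannRochSpace hk hc' hU (fun v => rfl) hI
    have hlift₁ : ∀ r ∈ riemannRochSpace (j₁ • poleDiv hk xb),
        ∃ f ∈ riemannRochSpace (j₁ • poleDiv hF x), C.Red f r := by
      refine exists_lift_of_red_mem h hF hk (fun f r hf hr => h.red_mem_nB hF hk hf hr) ?_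
      rw [hc _ (by rw [dB]; omega), hc' _ (by rw [dBb]; omega), dB, dBb]
      omega
    have hlift₂ : ∀ r ∈ riemannRochSpace (j₂ • poleDiv hk xb - pE),
        ∃ f ∈ riemannRochSpace (j₂ • poleDiv hF x - E'), C.Red f r := by
      refine exists_lift_of_red_mem h hF hk (fun f r hf hr => IH j₂ f r hf hr) ?_
      rw [hc _ (by rw [map_sub, dB, hdeg']; omega), hc' _ (by rw [map_sub, dBb, hdpE]; omega),
        map_sub, map_sub, dB, dBb, hdeg', hdpE]
      omega
    have hfill : ∀ z ∈ riemannRochSpace U,
        ∃ f ∈ riemannRochSpace (M • poleDiv hF x - E), C.Red f z := by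
      intro z hz
      obtain ⟨z₁, hz₁, z₂, hz₂, rfl⟩ := Submodule.mem_sup.1 (hsup hz)
      have hinv : ∀ r : Fk, r ≠ 0 → r⁻¹ ∈ riemannRochSpace (divOf hk r) := fun r _ => by
        rw [FA.Curve.mem_riemannRochSpace]
        exact fun v => Or.inr (by rw [divOf_apply, v.ord_inv])
      obtain ⟨f₁, hf₁, hf₁r⟩ := hlift₁ (z₁ * ub⁻¹) (by
        have := mul_mem_riemannRochSpace hz₁ (hinv ub hub0)
        rwa [show D₁ + divOf hk ub = j₁ • poleDiv hk xb by
          rw [hD₁, hDbdef, hM, add_nsmul]; abel] at this)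
      obtain ⟨f₂, hf₂, hf₂r⟩ := hlift₂ (z₂ * sb⁻¹) (by
        have := mul_mem_riemannRochSpace hz₂ (hinv sb hsb0)
        rwa [show D₂ + divOf hk sb = j₂ • poleDiv hk xb - pE by
          rw [hD₂, hDadef, hM', add_nsmul]; abel] at this)
      refine ⟨f₁ * u + f₂ * s, add_mem ?_ ?_, ?_⟩
      · have := mul_mem_riemannRochSpace hf₁ hu
        rwa [show j₁ • poleDiv hF x + (m • poleDiv hF x - E) = M • poleDiv hF x - E by
          rw [hM, add_nsmul]; abel] at this
      · have := mul_mem_riemannRochSpace hf₂ hs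
        rwa [show j₂ • poleDiv hF x - E' + (m' • poleDiv hF x - Finsupp.single P 1) =
            M • poleDiv hF x - E by rw [hM', add_nsmul, hE'def]; abel] at this
      · have := (hf₁r.mul hub).add (hf₂r.mul hsred)
        rwa [inv_mul_cancel_right₀ hub0, inv_mul_cancel_right₀ hsb0] at this
    haveI := finite_riemannRochSpace hk U
    haveI := finite_riemannRochSpace hF (M • poleDiv hF x - E)
    let bU := Module.finBasis k (riemannRochSpace U)
    choose f hf hfr using fun i => hfill (bU i : Fk) (bU i).2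
    have hli := linearIndependent_of_red hfr
      (bU.linearIndependent.map' (riemannRochSpace U).subtype (Submodule.ker_subtype _))
    have hcard := (LinearIndependent.of_comp (riemannRochSpace (M • poleDiv hF x - E)).subtype
      (v := fun i => (⟨f i, hf i⟩ : riemannRochSpace (M • poleDiv hF x - E)))
      hli).fintype_card_le_finrank
    rw [Fintype.card_fin] at hcard
    have e1 := hc' U (by rw [hUdef, map_sub, dBb, hdpE]; omega)
    have e2 := hc (M • poleDiv hF x - E) (by rw [map_sub, dB, hdeg]; omega)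
    simp only [hUdef, map_sub, dB, dBb, hdpE, hdeg, ell] at e1 e2
    omega

omit hk in
theorem divOf_one' : divOf hF (1 : F) = 0 :=
  Finsupp.ext fun v => by rw [divOf_apply, v.ord_one]; rfl

/-- The specialisation of places. -/
theorem Chart.exists_spl (h : C.Chart x xb) (hg : FA.Curve.genus K F ≤ FA.Curve.genus k Fk) :
    ∃ σ : Place K F → Place k Fk, ∀ (g : F) (gb : Fk), C.Red g gb → gb ≠ 0 →
      ∀ D : Divisor K F, (∀ P, D P = P.ord g) →
        ∀ Q, Finsupp.mapDomain σ D Q = Q.ord gb := by
  classical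
  have hfull := h.full_of_genus hF hk hg
  have hfull' := h.inv.full_of_genus hF hk hg
  have hx := h.transX
  have hx0 : x ≠ 0 := x_ne_zero hF hx
  have hxb0 : xb ≠ 0 := x_ne_zero hk h.trans
  have hother : ∀ P : Place K F, ¬ (∃ c, c ∈ A ∧ HasValue P x c) →
      ∃ c, ∃ hc : c ∈ A, C.π ⟨c, hc⟩ = 0 ∧ HasValue P x⁻¹ c := by
    intro P hP
    rcases lt_or_ge (P.ord x) 0 with hneg | hnn
    · refine ⟨0, zero_mem _, map_zero C.π, ?_⟩
      rw [hasValue_zero_iff]
      exact Or.inr (by rw [P.ord_inv]; omega)
    · obtain ⟨c, hc⟩ := exists_hasValue hF (Or.inr hnn : AtLeast P 0 x)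
      have hcA : c ∉ A := fun h' => hP ⟨c, h', hc⟩
      have hc0 : c ≠ 0 := fun h0 => hcA (h0 ▸ zero_mem A)
      refine ⟨c⁻¹, (A.mem_or_inv_mem c).resolve_left hcA, ?_, ?_⟩
      · rw [C.π_eq_zero]
        show A.valuation c⁻¹ < 1
        rw [map_inv₀]
        exact inv_lt_one_of_one_lt₀ (lt_of_not_ge fun h' => hcA ((A.valuation_le_one_iff c).1 h'))
      · have hord := (hc.ord_eq_zero hc0).2
        have he : x⁻¹ - algebraMap K F c⁻¹ =
            -(algebraMap K F c⁻¹ * x⁻¹ * (x - algebraMap K F c)) := by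
          have : algebraMap K F c ≠ 0 := (_root_.map_ne_zero _).2 hc0
          rw [map_inv₀]
          field_simp
          ring
        rw [HasValue, he]
        have h1 := ((atLeast_algebraMap (v := P) c⁻¹).mul (atLeast_ord x⁻¹)).mul hc
        rw [P.ord_inv, hord] at h1
        simpa using h1.neg
  let σ : Place K F → Place k Fk := fun P =>
    if hP : ∃ c, c ∈ A ∧ HasValue P x c then
      (h.exists_center hF hk hfull hP.choose_spec.1 hP.choose_spec.2).choose
    else
      (h.inv.exists_center hF hk hfull' (hother P hP).choose_spec.choose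
        (hother P hP).choose_spec.choose_spec.2).choose
  have hσ₁ : ∀ P, (∃ c, c ∈ A ∧ HasValue P x c) → IsCenter C x xb P (σ P) := fun P hP => by
    simp only [σ, dif_pos hP]
    exact Exists.choose_spec _
  have hσ₂ : ∀ P, ¬ (∃ c, c ∈ A ∧ HasValue P x c) →
      IsCenter C x⁻¹ xb⁻¹ P (σ P) ∧ (σ P).ord xb < 0 := fun P hP => by
    have hcen : IsCenter C x⁻¹ xb⁻¹ P (σ P) := by
      simp only [σ, dif_neg hP]
      exact Exists.choose_spec _
    refine ⟨hcen, ?_⟩
    obtain ⟨c, hc, hπ, hv⟩ := hother P hP
    obtain ⟨hb, hval⟩ := hcen.2 x⁻¹ xb⁻¹ (self_mem_regSub _) h.inv.red_x c hv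
    rw [show (⟨c, hb⟩ : A) = ⟨c, hc⟩ from rfl, hπ, hasValue_zero_iff,
      atLeast_iff (inv_ne_zero hxb0), Place.ord_inv] at hval
    omega
  have hside : ∀ P, (∃ c, c ∈ A ∧ HasValue P x c) → 0 ≤ P.ord x := fun P ⟨c, _, hc⟩ =>
    (atLeast_iff hx0).1 hc.atLeast
  have hside' : ∀ P, ¬ (∃ c, c ∈ A ∧ HasValue P x c) → 0 ≤ P.ord x⁻¹ := fun P hP => by
    obtain ⟨c, -, -, hv⟩ := hother P hP
    exact (atLeast_iff (inv_ne_zero hx0)).1 hv.atLeast
  -- the main case
  have key : ∀ (m : ℕ) (u : F) (ub : Fk), u ∈ riemannRochSpace (m • poleDiv hF x) → C.Red u ub →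
      ub ≠ 0 → Finsupp.mapDomain σ (divOf hF u + m • poleDiv hF x) =
        divOf hk ub + m • poleDiv hk xb := by
    intro m u ub hu hub hub0
    have hu0 := hub.ne_zero hub0
    set Z := divOf hF u + m • poleDiv hF x with hZdef
    set Zb := divOf hk ub + m • poleDiv hk xb with hZbdef
    have hZ : 0 ≤ Z := Finsupp.le_def.2 fun v => by
      have := (atLeast_iff hu0).1 (FA.Curve.mem_riemannRochSpace.1 hu v)
      rw [hZdef, Finsupp.coe_zero, Pi.zero_apply, Finsupp.add_apply, divOf_apply]
      omega
    have hub' : ub ∈ riemannRochSpace (m • poleDiv hk xb) := h.red_mem_nB hF hk hu hub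
    have hZb : ∀ v, 0 ≤ Zb v := fun v => by
      have := (atLeast_iff hub0).1 (FA.Curve.mem_riemannRochSpace.1 hub' v)
      rw [hZbdef, Finsupp.add_apply, divOf_apply]
      omega
    set Z₁ := Z.filter (fun P => ∃ c, c ∈ A ∧ HasValue P x c) with hZ₁
    set Z₂ := Z.filter (fun P => ¬ ∃ c, c ∈ A ∧ HasValue P x c) with hZ₂
    have hZ12 : Z₁ + Z₂ = Z := Finsupp.filter_add_filter_not Z _
    have hnn₁ : 0 ≤ Z₁ := Finsupp.le_def.2 fun v => by
      rw [hZ₁, Finsupp.filter_apply]; split_ifs
      · exact Finsupp.le_def.1 hZ v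
      · rfl
    have hnn₂ : 0 ≤ Z₂ := Finsupp.le_def.2 fun v => by
      rw [hZ₂, Finsupp.filter_apply]; split_ifs <;> first | exact Finsupp.le_def.1 hZ v | rfl
    have hu₁ : u ∈ riemannRochSpace (m • poleDiv hF x - Z₁) := by
      rw [FA.Curve.mem_riemannRochSpace]
      intro v
      refine Or.inr ?_
      rw [Finsupp.sub_apply, hZ₁, Finsupp.filter_apply]
      split_ifs
      · rw [hZdef, Finsupp.add_apply, divOf_apply]; omega
      · have := (atLeast_iff hu0).1 (FA.Curve.mem_riemannRochSpace.1 hu v)
        omega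
    have hr₁ := h.red_mem_sub hF hk hg σ (Divisor.degree Z₁).toNat Z₁ hnn₁
      (Int.toNat_of_nonneg (degree_nonneg hF hnn₁)).symm (fun P hP => hσ₁ P (by
        rw [hZ₁, Finsupp.support_filter, Finset.mem_filter] at hP; exact hP.2))
      (fun P hP => hside P (by
        rw [hZ₁, Finsupp.support_filter, Finset.mem_filter] at hP; exact hP.2)) m u ub hu₁ hub
    have hord : ∀ v : Place K F, v.ord (u * x⁻¹ ^ m) + (m • poleDiv hF x⁻¹) v = Z v := fun v => by
      rw [v.ord_mul hu0 (pow_ne_zero _ (inv_ne_zero hx0)), place_ord_pow, v.ord_inv, hZdef]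
      simp only [Finsupp.add_apply, Finsupp.smul_apply, divOf_apply, poleDiv_apply, v.ord_inv,
        nsmul_eq_mul, neg_neg]
      rcases le_total (v.ord x) 0 with h0 | h0
      · rw [max_eq_left (by omega), max_eq_right (by omega)]; ring
      · rw [max_eq_right (by omega), max_eq_left (by omega)]; ring
    have hred₂ : C.Red (u * x⁻¹ ^ m) (ub * xb⁻¹ ^ m) := hub.mul (h.inv.red_x.pow m)
    have hu₂ : u * x⁻¹ ^ m ∈ riemannRochSpace (m • poleDiv hF x⁻¹ - Z₂) := by
      rw [FA.Curve.mem_riemannRochSpace]
      intro v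
      refine Or.inr ?_
      have h1 := hord v
      have h2 := Finsupp.le_def.1 hZ v
      rw [Finsupp.sub_apply, hZ₂, Finsupp.filter_apply]
      simp only [Finsupp.coe_zero, Pi.zero_apply] at h2
      split_ifs <;> omega
    have hr₂ := h.inv.red_mem_sub hF hk hg σ (Divisor.degree Z₂).toNat Z₂ hnn₂
      (Int.toNat_of_nonneg (degree_nonneg hF hnn₂)).symm (fun P hP => (hσ₂ P (by
        rw [hZ₂, Finsupp.support_filter, Finset.mem_filter] at hP; exact hP.2)).1)
      (fun P hP => hside' P (by
        rw [hZ₂, Finsupp.support_filter, Finset.mem_filter] at hP; exact hP.2)) m _ _ hu₂ hred₂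
    have hordb : ∀ v : Place k Fk,
        v.ord (ub * xb⁻¹ ^ m) + (m • poleDiv hk xb⁻¹) v = Zb v := fun v => by
      rw [v.ord_mul hub0 (pow_ne_zero _ (inv_ne_zero hxb0)), place_ord_pow, v.ord_inv, hZbdef]
      simp only [Finsupp.add_apply, Finsupp.smul_apply, divOf_apply, poleDiv_apply, v.ord_inv,
        nsmul_eq_mul, neg_neg]
      rcases le_total (v.ord xb) 0 with h0 | h0
      · rw [max_eq_left (by omega), max_eq_right (by omega)]; ring
      · rw [max_eq_right (by omega), max_eq_left (by omega)]; ring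
    have hmapsum : ∀ (D : Divisor K F) (Q : Place k Fk), (∀ P ∈ D.support, σ P ≠ Q) →
        Finsupp.mapDomain σ D Q = 0 := by
      intro D Q hD
      by_contra hne
      obtain ⟨P, hP, hPQ⟩ := Finset.mem_image.1
        (Finsupp.mapDomain_support (Finsupp.mem_support_iff.2 hne))
      exact hD P hP hPQ
    have hle : ∀ Q, Finsupp.mapDomain σ Z Q ≤ Zb Q := by
      intro Q
      rw [← hZ12, Finsupp.mapDomain_add, Finsupp.add_apply]
      have h1 := (atLeast_iff hub0).1 (FA.Curve.mem_riemannRochSpace.1 hr₁ Q)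
      have h2 := (atLeast_iff (mul_ne_zero hub0 (pow_ne_zero _ (inv_ne_zero hxb0)))).1
        (FA.Curve.mem_riemannRochSpace.1 hr₂ Q)
      rw [Finsupp.sub_apply] at h1 h2
      have h3 := hordb Q
      have h4 := hZb Q
      have h5 : Zb Q = Q.ord ub + (m • poleDiv hk xb) Q := by
        rw [hZbdef, Finsupp.add_apply, divOf_apply]
      by_cases hQ : 0 ≤ Q.ord xb
      · rw [hmapsum Z₂ Q (fun P hP hPQ => by
          rw [hZ₂, Finsupp.support_filter, Finset.mem_filter] at hP
          have := (hσ₂ P hP.2).2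
          rw [hPQ] at this
          omega)]
        omega
      · rw [hmapsum Z₁ Q (fun P hP hPQ => by
          rw [hZ₁, Finsupp.support_filter, Finset.mem_filter] at hP
          have := (hσ₁ P hP.2).1
          rw [hPQ] at this
          exact hQ this)]
        omega
    have hdeg : Divisor.degree (Finsupp.mapDomain σ Z) = Divisor.degree Zb := by
      have e : ∀ D : Divisor K F,
          Divisor.degree (Finsupp.mapDomain σ D) = Divisor.degree D := by
        intro D
        induction D using Finsupp.induction with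
        | zero => simp
        | single_add w a D _ _ ih' =>
          rw [Finsupp.mapDomain_add, map_add, map_add, ih', Finsupp.mapDomain_single,
            Divisor.degree_single, Divisor.degree_single, hF.deg_eq_one, hk.deg_eq_one]
      rw [e, hZdef, hZbdef, map_add, map_add, degree_divOf, degree_divOf, map_nsmul, map_nsmul,
        degree_poleDiv hF hx, degree_poleDiv hk h.trans, h.finrank_eq hF hk]
    refine Finsupp.ext fun Q => ?_
    have hnn' : 0 ≤ Zb - Finsupp.mapDomain σ Z := Finsupp.le_def.2 fun v => by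
      rw [Finsupp.coe_zero, Pi.zero_apply, Finsupp.sub_apply]; have := hle v; omega
    have h0 : Divisor.degree (Zb - Finsupp.mapDomain σ Z) = 0 := by rw [map_sub, hdeg, sub_self]
    rw [degree_eq_finset_sum hk _ (Finset.Subset.refl _)] at h0
    by_contra hne
    have hmem : Q ∈ (Zb - Finsupp.mapDomain σ Z).support := by
      rw [Finsupp.mem_support_iff, Finsupp.sub_apply]; exact sub_ne_zero.2 (Ne.symm hne)
    have := (Finset.sum_eq_zero_iff_of_nonneg fun v _ => Finsupp.le_def.1 hnn' v).1 h0 Q hmem
    rw [Finsupp.sub_apply] at this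
    omega
  have hB : Finsupp.mapDomain σ (poleDiv hF x) = poleDiv hk xb := by
    have h1 := key 1 1 1 (one_mem_nB hF hx 1) red_one one_ne_zero
    rwa [divOf_one' hF, divOf_one' hk, zero_add, zero_add, one_nsmul, one_nsmul] at h1
  have key' : ∀ (u : F) (ub : Fk), u ∈ regSub (K := K) x → C.Red u ub → ub ≠ 0 →
      Finsupp.mapDomain σ (divOf hF u) = divOf hk ub := by
    intro u ub hu hub hub0
    set m := ∑ P ∈ (poleDiv hF x).support, (P.ord u).natAbs
    have hmem : u ∈ riemannRochSpace (m • poleDiv hF x) := by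
      rw [mem_riemannRoch_nB hF hx]
      refine ⟨hu, fun P hP => (atLeast_ord u).mono ?_⟩
      have hmem : P ∈ (poleDiv hF x).support :=
        Finsupp.mem_support_iff.2 (by rw [poleDiv_apply]; omega)
      have hPB := Finset.single_le_sum (f := fun P : Place K F => (P.ord u).natAbs)
        (fun _ _ => Nat.zero_le _) hmem
      have : (m : ℤ) * P.ord x ≤ (m : ℤ) * (-1) :=
        mul_le_mul_of_nonneg_left (by omega) (Int.natCast_nonneg _)
      omega
    have h1 := key m u ub hmem hub hub0
    rw [Finsupp.mapDomain_add, Finsupp.mapDomain_smul, hB] at h1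
    exact add_right_cancel h1
  refine ⟨σ, fun g gb hgr hgb D hD Q => ?_⟩
  have hg0 := hgr.ne_zero hgb
  obtain ⟨s, hs0, hs⟩ := exists_clear hF hx g
  obtain ⟨a, P, ha, rfl, hP⟩ := C.exists_scale_poly hs0
  have hPreg : aeval x (P.map A.subtype) ∈ regSub (K := K) x :=
    Algebra.adjoin_le (Set.singleton_subset_iff.2 (self_mem_regSub x))
      (aeval_mem_adjoin_singleton K x)
  have hPb : aeval xb (P.map C.π) ≠ 0 := fun h0 => hP (transcendental_iff.1 h.trans _ h0)
  have hnum : aeval x (P.map A.subtype) * g ∈ regSub (K := K) x := by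
    have h1 := mul_mem ((regSub (K := K) x).algebraMap_mem a⁻¹) hs
    rwa [map_mul, aeval_C, mul_assoc, ← mul_assoc, ← map_mul, inv_mul_cancel₀ ha, map_one,
      one_mul] at h1
  have hred := (red_aeval h.red_x P).mul hgr
  have e1 := key' _ _ hnum hred (mul_ne_zero hPb hgb)
  have e2 := key' _ _ hPreg (red_aeval h.red_x P) hPb
  have hD' : D = divOf hF (aeval x (P.map A.subtype) * g) - divOf hF (aeval x (P.map A.subtype)) :=
    Finsupp.ext fun v => by
      rw [Finsupp.sub_apply, divOf_apply, divOf_apply, hD v,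
        v.ord_mul ((red_aeval h.red_x P).ne_zero hPb) hg0]
      ring
  rw [hD', Finsupp.mapDomain_sub, e1, e2, Finsupp.sub_apply, divOf_apply, divOf_apply,
    Q.ord_mul hPb hgb]
  ring

end FA.CurveRed.ConstRed
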