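import Fermat.Agent.CurveRed.Chart

/-!
# Reduction of regular functions and of differentials; equality of genera

Integral elements of `L(m·B)` reduce into `L(m·B̄)` (characteristic polynomial), so the genus can
only drop; it does not drop when every regular function downstairs lifts, or when the branch
values of `x` have distinct reductions.
-/

set_option autoImplicit false
set_option linter.style.haveILetI false
set_option linter.unusedSectionVars false

noncomputable section

namespace FA.Curve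

open AlgebraicCurve FA.ModField Polynomial

/-- Coefficient bounds for the characteristic polynomial. -/
theorem atLeast_charpoly_coeff {K F F' : Type*} [Field K] [Field F] [Field F'] [Algebra K F]
    [Algebra K F'] [Algebra F F'] [IsScalarTower K F F'] [IsAlgClosed K]
    (hF : IsFunctionField K F) (hF' : IsFunctionField K F') [Algebra.IsIntegral F F']
    [HasPrincipalDivisors K F'] {ι : Type*} [Fintype ι] [DecidableEq ι] (B : Module.Basis ι F F')
    (v : Place K F) {f : F'} {s : F} (hs : s ≠ 0)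
    (h : ∀ w ∈ v.fiber F', AtLeast w 0 (algebraMap F F' s * f)) (l : ℕ) :
    AtLeast v 0 ((Algebra.leftMulMatrix B f).charpoly.coeff l *
      s ^ (Fintype.card ι - l)) := by
  haveI := module_finite (F' := F') hF hF'
  set P := (Algebra.leftMulMatrix B f).charpoly with hP
  have hdeg : P.natDegree = Fintype.card ι := Matrix.charpoly_natDegree_eq_dim _
  rw [← hdeg, ← coeff_scaleRoots]
  refine atLeast_coeff_of_eval v _ (fun c _ => ?_) l
  have h1 : (P.scaleRoots s).eval (algebraMap K F c) =
      Algebra.norm F (algebraMap K F' c - algebraMap F F' s * f) := by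
    rw [show algebraMap K F c = s * (s⁻¹ * algebraMap K F c) by
        rw [mul_inv_cancel_left₀ hs], scaleRoots_eval_mul, hdeg, hP, eval_charpoly_eq_norm,
      ← Algebra.norm_algebraMap_of_basis B s, ← map_mul]
    congr 1
    rw [map_mul, mul_sub, ← mul_assoc, ← map_mul, mul_inv_cancel₀ hs, map_one, one_mul,
      ← IsScalarTower.algebraMap_apply]
  rw [h1]
  rcases eq_or_ne (algebraMap K F' c - algebraMap F F' s * f) 0 with h0 | h0
  · rw [h0, Algebra.norm_zero]; exact atLeast_zero
  · refine Or.inr ?_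
    rw [← sum_fiber_ord hF hF' v h0]
    exact Finset.sum_nonneg fun w hw => (atLeast_iff h0).1 ((atLeast_algebraMap c).sub (h w hw))

variable {K F : Type*} [Field K] [Field F] [Algebra K F]

/-- A root of a monic equation is bounded by the coefficients. -/
theorem atLeast_of_monic {Q : Place K F} {b : ℤ} {r : F} {n : ℕ} {a : ℕ → F}
    (ha : ∀ l < n, AtLeast Q (((n - l : ℕ) : ℤ) * b) (a l))
    (h : r ^ n + ∑ l ∈ Finset.range n, a l * r ^ l = 0) : AtLeast Q b r := by
  by_contra hcon
  simp only [AtLeast, not_or, not_le] at hcon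
  refine (ord_add_eq_left (v := Q) (pow_ne_zero n hcon.1) (atLeast_sum fun l hl => ?_)).1 h
  have hl' := Finset.mem_range.1 hl
  refine ((ha l hl').mul (atLeast_pow (atLeast_ord r) l)).mono ?_
  rw [place_ord_pow]
  obtain ⟨d, hd⟩ := Nat.exists_eq_add_of_le hl'.le
  have hd0 : 1 ≤ d := by omega
  subst hd
  rw [Nat.add_sub_cancel_left]
  have h1 : (1 : ℤ) ≤ d := by exact_mod_cast hd0
  push_cast
  nlinarith

theorem IsDual.add {x φ ψ : F} (h : IsDual K x φ) (h' : IsDual K x ψ) : IsDual K x (φ + ψ) := by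
  refine ⟨fun u hu => ?_, fun u hu => ?_⟩
  · obtain ⟨p, hp⟩ := h.1 u hu; obtain ⟨q, hq⟩ := h'.1 u hu
    exact ⟨p + q, by rw [add_mul, map_add, map_add, hp, hq]⟩
  · obtain ⟨p, hp⟩ := h.2 u hu; obtain ⟨q, hq⟩ := h'.2 u hu
    exact ⟨p + q, by rw [add_mul, map_add, map_add, hp, hq, mul_add]⟩

theorem IsDual.smul {x φ : F} (h : IsDual K x φ) (c : K) : IsDual K x (c • φ) := by
  refine ⟨fun u hu => ?_, fun u hu => ?_⟩
  · obtain ⟨p, hp⟩ := h.1 u hu
    exact ⟨c • p, by rw [smul_mul_assoc, map_smul, map_smul, hp]⟩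
  · obtain ⟨p, hp⟩ := h.2 u hu
    exact ⟨c • p, by rw [smul_mul_assoc, map_smul, map_smul, hp, mul_smul_comm]⟩

theorem IsDual.zero (x : F) : IsDual K x 0 :=
  ⟨fun _ _ => ⟨0, by simp⟩, fun _ _ => ⟨0, by simp⟩⟩

theorem IsDual.of_mem_span {x φ : F} {ι : Type*} {ψ : ι → F} (h : ∀ i, IsDual K x (ψ i))
    (hφ : φ ∈ Submodule.span K (Set.range ψ)) : IsDual K x φ := by
  induction hφ using Submodule.span_induction with
  | mem y hy => obtain ⟨i, rfl⟩ := hy; exact h i
  | zero => exact IsDual.zero x
  | add a b _ _ ha hb => exact ha.add hb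
  | smul c a _ ha => exact ha.smul c

end FA.Curve

namespace FA.CurveRed.ConstRed

open AlgebraicCurve FA.ModField FA.Curve Polynomial IntermediateField

variable {K F k Fk : Type*} [Field K] [Field F] [Algebra K F] [Field k] [Field Fk] [Algebra k Fk]
  {A : ValuationSubring K} {C : ConstRed K F k Fk A} [IsAlgClosed K] [IsAlgClosed k]
  (hF : IsFunctionField K F) (hk : IsFunctionField k Fk) {x : F} {xb : Fk}

variable (C) in
/-- Every regular function downstairs lifts to a regular function. -/
def Full (x : F) (xb : Fk) : Prop :=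
  ∀ r ∈ regSub (K := k) xb, ∃ f ∈ regSub (K := K) x, C.Red f r

include hF hk

/-- Integral elements of `L(m·B)` reduce into `L(m·B̄)`. -/
theorem Chart.red_mem_nB (h : C.Chart x xb) {m : ℕ} {f : F} {r : Fk}
    (hf : f ∈ riemannRochSpace (m • poleDiv hF x)) (hr : C.Red f r) :
    r ∈ riemannRochSpace (m • poleDiv hk xb) := by
  classical
  have hx := h.transX
  haveI := hF.finiteDimensional hx
  haveI := hk.finiteDimensional h.trans
  haveI := hasPrincipalDivisors hF
  obtain ⟨n, bk, y, hy⟩ := h.exists_lifts hk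
  have hn := h.degree_le.trans (Module.finrank_eq_card_basis bk).le
  obtain ⟨B, hB⟩ := exists_basis h.compat h.scaled_base bk hy hn
  set P := (Algebra.leftMulMatrix B f).charpoly
  set Pb := (Algebra.leftMulMatrix bk r).charpoly
  rw [mem_riemannRoch_nB hF hx] at hf
  have hx0 : x ≠ 0 := x_ne_zero hF hx
  have hsign : ∀ (Q w : Place K F), w ∈ (Q.restrict K⟮x⟯).fiber F →
      (0 ≤ Q.ord x ↔ 0 ≤ w.ord x) := by
    intro Q w hw
    have h1 := ord_coe hF hx Q (AdjoinSimple.gen K x)
    have h2 := ord_coe hF hx w (AdjoinSimple.gen K x)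
    rw [AdjoinSimple.coe_gen] at h1 h2
    rw [h1, h2, Place.mem_fiber.1 hw]
    have e1 : (0 : ℤ) < Q.ramificationIndex K⟮x⟯ := by exact_mod_cast Q.ramificationIndex_pos
    have e2 : (0 : ℤ) < w.ramificationIndex K⟮x⟯ := by exact_mod_cast w.ramificationIndex_pos
    rw [mul_nonneg_iff_of_pos_left e1, mul_nonneg_iff_of_pos_left e2]
  have hlift : ∀ (Q : Place K F) (z : K⟮x⟯), AtLeast (Q.restrict K⟮x⟯) 0 z →
      AtLeast Q 0 (z : F) := by
    intro Q z hz
    rcases hz with rfl | hz
    · exact Or.inl rfl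
    · refine Or.inr ?_
      rw [ord_coe hF hx]
      exact mul_nonneg (Int.natCast_nonneg _) hz
  have hpoly : ∀ l, ∃ p : A[X], ((P.coeff l : K⟮x⟯) : F) = aeval x (p.map A.subtype) ∧
      ((Pb.coeff l : k⟮xb⟯) : Fk) = aeval xb (p.map C.π) ∧
      (p.map C.π ≠ 0 → (p.map C.π).natDegree ≤ m * (n - l)) := by
    intro l
    have hred := comap_red.1 (red_charpoly_coeff h.compat h.scaled_base bk hy hn B hB hr l)
    have hreg : ((P.coeff l : K⟮x⟯) : F) ∈ regSub (K := K) x := fun Q hQ => by
      refine hlift Q _ ?_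
      have := atLeast_charpoly_coeff (isFunctionField_simple hx) hF B (Q.restrict K⟮x⟯) (f := f)
        (s := 1) one_ne_zero (fun w hw => by
          rw [map_one, one_mul]; exact hf.1 w ((hsign Q w hw).1 hQ)) l
      simpa using this
    obtain ⟨p, hp⟩ := exists_poly hF hx (P.coeff l).2 hreg
    rw [hp] at hred
    obtain ⟨p', rfl, hp'⟩ := red_poly h.red_x h.trans hred
    refine ⟨p', hp, hp', fun hne => ?_⟩
    have hne' : p'.map A.subtype ≠ 0 := fun h0 => hne (by
      rw [(Polynomial.map_eq_zero_iff Subtype.val_injective).1 h0, Polynomial.map_zero])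
    refine natDegree_map_le.trans ?_
    rw [← natDegree_map_eq_of_injective (f := A.subtype) Subtype.val_injective]
    obtain ⟨Q, hQ⟩ := exists_ord_neg hF hx
    have hgen0 : (AdjoinSimple.gen K x) ≠ 0 := fun h0 => hx0 (congrArg Subtype.val h0)
    set sE : K⟮x⟯ := (AdjoinSimple.gen K x)⁻¹ ^ m
    have hsE : ((sE : K⟮x⟯) : F) = x⁻¹ ^ m := by
      rw [show ((sE : K⟮x⟯) : F) = K⟮x⟯.val sE from rfl, map_pow, map_inv₀]; rfl
    have h1 := hlift Q _ (atLeast_charpoly_coeff (isFunctionField_simple hx) hF B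
      (Q.restrict K⟮x⟯) (f := f) (s := sE) (pow_ne_zero _ (inv_ne_zero hgen0)) (fun w hw => by
        have hwneg : w.ord x < 0 := lt_of_not_ge fun h' => (not_le.2 hQ) ((hsign Q w hw).2 h')
        rw [show algebraMap K⟮x⟯ F sE = ((sE : K⟮x⟯) : F) from rfl, hsE]
        refine ((atLeast_ord (v := w) (x⁻¹ ^ m)).mul (hf.2 w hwneg)).mono (le_of_eq ?_)
        rw [place_ord_pow, w.ord_inv]; ring) l)
    rw [Fintype.card_fin, MulMemClass.coe_mul, SubmonoidClass.coe_pow, hsE, hp, ← pow_mul] at h1
    have hne'' : aeval x (p'.map A.subtype) ≠ 0 := fun h' => hne' (transcendental_iff.1 hx _ h')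
    rw [atLeast_iff (mul_ne_zero hne'' (pow_ne_zero _ (inv_ne_zero hx0))),
      Q.ord_mul hne'' (pow_ne_zero _ (inv_ne_zero hx0)), place_ord_pow, Q.ord_inv,
      ord_aeval_of_neg hF hx hQ hne'] at h1
    by_contra hlt
    rw [not_le] at hlt
    have hlt' : ((m * (n - l) : ℕ) : ℤ) + 1 ≤ (p'.map A.subtype).natDegree := by exact_mod_cast hlt
    nlinarith
  choose p hpF hpk hpd using hpoly
  -- the equation of the reduction
  have hdeg : Pb.natDegree = n := by
    rw [Matrix.charpoly_natDegree_eq_dim, Fintype.card_fin]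
  have heq : r ^ n + ∑ l ∈ Finset.range n, ((Pb.coeff l : k⟮xb⟯) : Fk) * r ^ l = 0 := by
    have h0 : aeval r Pb = 0 := Algebra.leftMulMatrix_injective bk (by
      rw [← Polynomial.aeval_algHom_apply, map_zero]; exact Matrix.aeval_self_charpoly _)
    rw [aeval_eq_sum_range, hdeg, Finset.sum_range_succ, ← hdeg,
      (Matrix.charpoly_monic _).coeff_natDegree, one_smul, hdeg, add_comm] at h0
    refine Eq.trans ?_ h0
    congr 1
  rw [mem_riemannRoch_nB hk h.trans]
  refine ⟨fun Q hQ => atLeast_of_monic (b := 0) (fun l _ => ?_) heq, fun Q hQ =>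
    atLeast_of_monic (fun l hl => ?_) heq⟩
  · rw [mul_zero, hpk]
    exact Algebra.adjoin_le (Set.singleton_subset_iff.2 (self_mem_regSub xb))
      (aeval_mem_adjoin_singleton k xb) Q hQ
  · rw [hpk]
    rcases eq_or_ne ((p l).map C.π) 0 with h0 | h0
    · rw [h0, map_zero]; exact atLeast_zero
    · refine Or.inr ?_
      rw [ord_aeval_of_neg hk h.trans hQ h0]
      have hd : ((((p l).map C.π).natDegree : ℕ) : ℤ) ≤ (m * (n - l) : ℕ) := by
        exact_mod_cast hpd l h0
      push_cast at hd
      nlinarith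

theorem Chart.red_mem_regSub (h : C.Chart x xb) {f : F} {r : Fk}
    (hf : f ∈ regSub (K := K) x) (hr : C.Red f r) : r ∈ regSub (K := k) xb := by
  have hmem : f ∈ riemannRochSpace
      ((∑ P ∈ (poleDiv hF x).support, (P.ord f).natAbs) • poleDiv hF x) := by
    rw [mem_riemannRoch_nB hF h.transX]
    refine ⟨hf, fun P hP => (atLeast_ord f).mono ?_⟩
    have hmem : P ∈ (poleDiv hF x).support :=
      Finsupp.mem_support_iff.2 (by rw [poleDiv_apply]; omega)
    have hPB := Finset.single_le_sum (f := fun P : Place K F => (P.ord f).natAbs)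
      (fun _ _ => Nat.zero_le _) hmem
    set S := ∑ P ∈ (poleDiv hF x).support, (P.ord f).natAbs
    have : (S : ℤ) * P.ord x ≤ (S : ℤ) * (-1) :=
      mul_le_mul_of_nonneg_left (by omega) (Int.natCast_nonneg _)
    omega
  exact ((mem_riemannRoch_nB hk h.trans).1 (h.red_mem_nB hF hk hmem hr)).1

/-- `L(m·B)` reduces injectively into `L(m·B̄)`. -/
theorem Chart.ell_le (h : C.Chart x xb) (m : ℕ) :
    ell (m • poleDiv hF x) ≤ ell (m • poleDiv hk xb) := by
  haveI := finite_riemannRochSpace hF (m • poleDiv hF x)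
  haveI := finite_riemannRochSpace hk (m • poleDiv hk xb)
  obtain ⟨e, r, he, her, hli⟩ := h.exists_lift_basis hF hk (riemannRochSpace (m • poleDiv hF x))
  have := FA.Curve.card_le_finrank hli fun i => h.red_mem_nB hF hk (he i) (her i)
  rw [Fintype.card_fin] at this
  exact Int.ofNat_le.2 this

/-- The genus can only drop. -/
theorem Chart.genus_ge (h : C.Chart x xb) : genus k Fk ≤ genus K F := by
  obtain ⟨c, hc⟩ := exists_threshold hF
  obtain ⟨c', hc'⟩ := exists_threshold hk
  have hn := finrank_adjoin_pos hF h.transX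
  set m : ℕ := c.toNat + c'.toNat + 1
  have h1 : Divisor.degree (m • poleDiv hF x) = (m : ℤ) * Module.finrank K⟮x⟯ F := by
    rw [map_nsmul, degree_poleDiv hF h.transX, nsmul_eq_mul]
  have h2 : Divisor.degree (m • poleDiv hk xb) = (m : ℤ) * Module.finrank K⟮x⟯ F := by
    rw [map_nsmul, degree_poleDiv hk h.trans, nsmul_eq_mul, h.finrank_eq hF hk]
  have hm : (m : ℤ) ≤ (m : ℤ) * Module.finrank K⟮x⟯ F := by nlinarith
  have := h.ell_le hF hk m
  rw [hc _ (by rw [h1]; omega), hc' _ (by rw [h2]; omega), h1, h2] at this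
  omega

/-- Equal genera: regular functions lift. -/
theorem Chart.full_of_genus (h : C.Chart x xb) (hg : genus K F ≤ genus k Fk) : C.Full x xb := by
  classical
  intro r hr
  obtain ⟨c, hc⟩ := exists_threshold hF
  obtain ⟨c', hc'⟩ := exists_threshold hk
  have hn := finrank_adjoin_pos hF h.transX
  set m : ℕ := c.toNat + c'.toNat + 1 + ∑ P ∈ (poleDiv hk xb).support, (P.ord r).natAbs
  have hrm : r ∈ riemannRochSpace (m • poleDiv hk xb) := by
    rw [mem_riemannRoch_nB hk h.trans]
    refine ⟨hr, fun P hP => (atLeast_ord r).mono ?_⟩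
    have hmem : P ∈ (poleDiv hk xb).support :=
      Finsupp.mem_support_iff.2 (by rw [poleDiv_apply]; omega)
    have hPB := Finset.single_le_sum (f := fun P : Place k Fk => (P.ord r).natAbs)
      (fun _ _ => Nat.zero_le _) hmem
    have : (m : ℤ) * P.ord xb ≤ (m : ℤ) * (-1) :=
      mul_le_mul_of_nonneg_left (by omega) (Int.natCast_nonneg _)
    omega
  haveI := finite_riemannRochSpace hF (m • poleDiv hF x)
  haveI := finite_riemannRochSpace hk (m • poleDiv hk xb)
  obtain ⟨e, rb, he, her, hli⟩ := h.exists_lift_basis hF hk (riemannRochSpace (m • poleDiv hF x))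
  have h1 : Divisor.degree (m • poleDiv hF x) = (m : ℤ) * Module.finrank K⟮x⟯ F := by
    rw [map_nsmul, degree_poleDiv hF h.transX, nsmul_eq_mul]
  have h2 : Divisor.degree (m • poleDiv hk xb) = (m : ℤ) * Module.finrank K⟮x⟯ F := by
    rw [map_nsmul, degree_poleDiv hk h.trans, nsmul_eq_mul, h.finrank_eq hF hk]
  have hm : (m : ℤ) ≤ (m : ℤ) * Module.finrank K⟮x⟯ F := by nlinarith
  have hd : ell (m • poleDiv hk xb) ≤ ell (m • poleDiv hF x) := by
    rw [hc _ (by rw [h1]; omega), hc' _ (by rw [h2]; omega), h1, h2]; omega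
  have hspan : Submodule.span k (Set.range rb) = riemannRochSpace (m • poleDiv hk xb) := by
    refine Submodule.eq_of_le_of_finrank_le
      (Submodule.span_le.2 (Set.range_subset_iff.2 fun i => h.red_mem_nB hF hk (he i) (her i))) ?_
    rw [finrank_span_eq_card hli, Fintype.card_fin]
    exact Int.ofNat_le.1 hd
  rw [← hspan, Submodule.mem_span_range_iff_exists_fun] at hrm
  obtain ⟨b, hb⟩ := hrm
  choose a ha using fun i => C.π_surjective (b i)
  refine ⟨∑ i, algebraMap K F (a i : K) * e i, sum_mem fun i _ => ?_, ?_⟩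
  · exact mul_mem ((regSub (K := K) x).algebraMap_mem _)
      ((mem_riemannRoch_nB hF h.transX).1 (he i)).1
  · rw [← hb]
    refine red_sum fun i _ => ?_
    rw [Algebra.smul_def, ← ha i]
    exact (red_const (a i)).mul (her i)

/-- Dual differentials reduce once regular functions lift. -/
theorem Chart.isDual_red (h : C.Chart x xb) (hfull : C.Full x xb) (hfull' : C.Full x⁻¹ xb⁻¹)
    {φ : F} {φb : Fk} (hφ : C.Red φ φb) (hd : IsDual K x φ) : IsDual k xb φb := by
  have hx := h.transX
  haveI := hF.finiteDimensional hx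
  haveI := hk.finiteDimensional h.trans
  obtain ⟨n, bk, y, hy⟩ := h.exists_lifts hk
  have hn := h.degree_le.trans (Module.finrank_eq_card_basis bk).le
  have htr : ∀ f r, C.Red f r → C.Red (trX K x f) (trX k xb r) := fun f r hfr =>
    comap_red.1 (red_trace h.compat h.scaled_base bk hy hn hfr)
  have hxb0 : xb ≠ 0 := x_ne_zero hk h.trans
  refine ⟨fun v hv => ?_, fun v hv => ?_⟩
  · obtain ⟨f, hf, hfv⟩ := hfull v hv
    obtain ⟨p, hp⟩ := hd.1 f hf
    have h1 := htr _ _ (hφ.mul hfv)
    rw [hp] at h1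
    obtain ⟨P, -, hP⟩ := red_poly h.red_x h.trans h1
    exact ⟨_, hP⟩
  · obtain ⟨f, hf, hfv⟩ := hfull' v hv
    obtain ⟨p, hp⟩ := hd.2 f hf
    have h1 := (h.red_x.pow 2).mul (htr _ _ (hφ.mul hfv))
    rw [hp, ← mul_assoc, ← mul_pow, mul_inv_cancel₀ (x_ne_zero hF hx), one_pow, one_mul] at h1
    obtain ⟨P, -, hP⟩ := red_poly h.inv.red_x h.inv.trans h1
    refine ⟨P.map C.π, ?_⟩
    rw [← hP, ← mul_assoc, ← mul_pow, inv_mul_cancel₀ hxb0, one_pow, one_mul]

/-- Regular functions lift ⇒ the genus does not drop. -/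
theorem Chart.genus_le_of_full (h : C.Chart x xb) [Algebra.IsSeparable K⟮x⟯ F]
    [Algebra.IsSeparable k⟮xb⟯ Fk] (hfull : C.Full x xb) (hfull' : C.Full x⁻¹ xb⁻¹) :
    genus K F ≤ genus k Fk := by
  obtain ⟨φ, hli, hφ⟩ := FA.Curve.exists_dual hF h.transX
  haveI : Module.Finite K (Submodule.span K (Set.range φ)) :=
    Module.Finite.span_of_finite K (Set.finite_range φ)
  obtain ⟨e, r, he, her, hlir⟩ := h.exists_lift_basis hF hk (Submodule.span K (Set.range φ))
  have := FA.Curve.card_le_genus hk h.trans r hlir fun i =>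
    h.isDual_red hF hk hfull hfull' (her i) (IsDual.of_mem_span hφ (he i))
  rw [Fintype.card_fin, finrank_span_eq_card hli, Fintype.card_fin] at this
  exact this

/-- Distinct reductions of the branch values ⇒ the genus does not drop. -/
theorem Chart.genus_le_of_branch [CharZero K] (h : C.Chart x xb) [Algebra.IsSeparable K⟮x⟯ F]
    [Algebra.IsSeparable k⟮xb⟯ Fk] (Bs : Finset A) (hBs : 2 ≤ Bs.card)
    (hinj : Set.InjOn C.π Bs)
    (hbr : ∀ (P : Place K F) (c : K), HasValue P x c → P.ord (x - algebraMap K F c) ≠ 1 →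
      ∃ a ∈ Bs, c = (a : K)) :
    genus K F ≤ genus k Fk := by
  classical
  have hx := h.transX
  obtain ⟨φ, hli, hφ⟩ := FA.Curve.exists_dual hF hx
  haveI : Module.Finite K (Submodule.span K (Set.range φ)) :=
    Module.Finite.span_of_finite K (Set.finite_range φ)
  obtain ⟨e, r, he, her, hlir⟩ := h.exists_lift_basis hF hk (Submodule.span K (Set.range φ))
  have hmain : ∀ i, IsRegDiff k xb (r i) := by
    intro i
    obtain ⟨hd1, hd2⟩ := (IsDual.of_mem_span hφ (he i)).isRegDiff hF hx
    set n := Module.finrank K⟮x⟯ F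
    set M : ℕ := n + 3
    set s := Bs.card
    set Θ := e i ^ M * ∏ a ∈ Bs, (x - algebraMap K F (a : K)) ^ (M - 1)
    set Θb := r i ^ M * ∏ a ∈ Bs, (xb - algebraMap k Fk (C.π a)) ^ (M - 1)
    have hΘr : C.Red Θ Θb :=
      ((her i).pow M).mul (red_prod fun a _ => (h.red_x.sub (red_const a)).pow (M - 1))
    have hmdef : ∃ m : ℕ, m + M + 1 = s * (M - 1) :=
      ⟨s * (M - 1) - M - 1, by
        have : 2 * (M - 1) ≤ s * (M - 1) := Nat.mul_le_mul_right _ hBs
        omega⟩
    obtain ⟨m, hm⟩ := hmdef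
    have hm' : (m : ℤ) + M + 1 = s * ((M : ℤ) - 1) := by
      have := congrArg (fun t : ℕ => (t : ℤ)) hm
      push_cast [Nat.cast_sub (show 1 ≤ M by omega)] at this
      linarith
    have hfac : ∀ (P : Place K F) (a : K), P.ord x < 0 →
        AtLeast P (P.ord x) (x - algebraMap K F a) := fun P a hP =>
      (atLeast_ord x).sub ((atLeast_algebraMap a).mono hP.le)
    have hprod : ∀ (P : Place K F) (U : Finset A) (g : A → F) (d : A → ℤ),
        (∀ a ∈ U, AtLeast P (d a) (g a)) → AtLeast P (∑ a ∈ U, d a) (∏ a ∈ U, g a) := by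
      intro P U g d hU
      induction U using Finset.induction with
      | empty => exact Or.inr (by simp)
      | @insert a U ha ih =>
        rw [Finset.sum_insert ha, Finset.prod_insert ha]
        exact (hU a (Finset.mem_insert_self a U)).mul
          (ih fun b hb => hU b (Finset.mem_insert_of_mem hb))
    have hle_n : ∀ (P : Place K F) (y : F), K⟮y⟯ = K⟮x⟯ → 0 < P.ord y → P.ord y ≤ (n : ℤ) := by
      intro P y hy hP
      have := sum_ord_le_finrank hF (transcendental_of_ord_ne_zero P hP.ne') {P} (by simpa using hP)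
      rw [Finset.sum_singleton, hy] at this
      exact this
    have hΘ : Θ ∈ riemannRochSpace (m • poleDiv hF x) := by
      rw [mem_riemannRoch_nB hF hx]
      refine ⟨fun P hP => ?_, fun P hP => ?_⟩
      · obtain ⟨c, hc⟩ := exists_hasValue hF (Or.inr hP : AtLeast P 0 x)
        have hne : x - algebraMap K F c ≠ 0 := fun h0 =>
          hx (by rw [sub_eq_zero.1 h0]; exact isAlgebraic_algebraMap c)
        have hpos := (atLeast_iff hne).1 hc
        have he1 := atLeast_pow (hd1 P c hc) M
        by_cases hb : ∃ a ∈ Bs, c = (a : K)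
        · obtain ⟨a, ha, rfl⟩ := hb
          have hp1 := hprod P Bs (fun b => (x - algebraMap K F (b : K)) ^ (M - 1))
            (fun b => if b = a then ((M - 1 : ℕ) : ℤ) * P.ord (x - algebraMap K F (a : K)) else 0)
            fun b _ => by
              split_ifs with hba
              · subst hba; exact atLeast_pow (atLeast_ord _) _
              · have h0 : AtLeast P 0 x := Or.inr hP
                have := atLeast_pow (h0.sub (atLeast_algebraMap (b : K))) (M - 1)
                simpa using this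
          rw [Finset.sum_ite_eq', if_pos ha] at hp1
          refine (he1.mul hp1).mono ?_
          have hle := hle_n P _ (adjoin_sub_eq x (a : K)) (by omega)
          push_cast [Nat.cast_sub (show 1 ≤ M by omega)]
          have hMn : (M : ℤ) = n + 3 := by simp [M]
          nlinarith
        · have hone : P.ord (x - algebraMap K F c) = 1 := not_not.1 fun h1 => hb (hbr P c hc h1)
          have hp1 := hprod P Bs (fun b => (x - algebraMap K F (b : K)) ^ (M - 1)) (fun _ => 0)
            fun b _ => by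
              have h0 : AtLeast P 0 x := Or.inr hP
              simpa using atLeast_pow (h0.sub (atLeast_algebraMap (b : K))) (M - 1)
          refine (he1.mul hp1).mono ?_
          simp [hone]
      · have hp1 := hprod P Bs (fun b => (x - algebraMap K F (b : K)) ^ (M - 1))
          (fun _ => ((M - 1 : ℕ) : ℤ) * P.ord x) fun b _ => atLeast_pow (hfac P b hP) _
        rw [Finset.sum_const, nsmul_eq_mul] at hp1
        refine ((atLeast_pow (hd2 P hP) M).mul hp1).mono ?_
        have hle := hle_n P x⁻¹ (adjoin_inv_eq x) (by rw [P.ord_inv]; omega)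
        rw [P.ord_inv] at hle
        push_cast [Nat.cast_sub (show 1 ≤ M by omega)]
        have hMn : (M : ℤ) = n + 3 := by simp [M]
        rw [show (Bs.card : ℤ) = s from rfl]
        nlinarith [hm']
    have hΘb := (mem_riemannRoch_nB hk h.trans).1 (h.red_mem_nB hF hk hΘ hΘr)
    have hxb0 := x_ne_zero hk h.trans
    have hfne : ∀ a : A, xb - algebraMap k Fk (C.π a) ≠ 0 := fun a h0 =>
      h.trans (by rw [sub_eq_zero.1 h0]; exact isAlgebraic_algebraMap _)
    rcases eq_or_ne (r i) 0 with hr0 | hr0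
    · rw [hr0]; exact ⟨fun _ _ _ => atLeast_zero, fun _ _ => atLeast_zero⟩
    have hordprod : ∀ (Q : Place k Fk) (U : Finset A),
        (∏ a ∈ U, (xb - algebraMap k Fk (C.π a)) ^ (M - 1)) ≠ 0 ∧
          Q.ord (∏ a ∈ U, (xb - algebraMap k Fk (C.π a)) ^ (M - 1)) =
            ∑ a ∈ U, ((M - 1 : ℕ) : ℤ) * Q.ord (xb - algebraMap k Fk (C.π a)) := by
      intro Q U
      induction U using Finset.induction with
      | empty => simp
      | @insert a U ha ih =>
        rw [Finset.prod_insert ha, Finset.sum_insert ha, Q.ord_mul (pow_ne_zero _ (hfne a)) ih.1,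
          place_ord_pow, ih.2]
        exact ⟨mul_ne_zero (pow_ne_zero _ (hfne a)) ih.1, rfl⟩
    have hΘb0 : Θb ≠ 0 := mul_ne_zero (pow_ne_zero _ hr0)
      (Finset.prod_ne_zero_iff.2 fun a _ => pow_ne_zero _ (hfne a))
    have hordΘ : ∀ Q : Place k Fk, Q.ord Θb = M * Q.ord (r i) +
        ∑ a ∈ Bs, ((M - 1 : ℕ) : ℤ) * Q.ord (xb - algebraMap k Fk (C.π a)) := fun Q => by
      rw [Q.ord_mul (pow_ne_zero _ hr0) (hordprod Q Bs).1, place_ord_pow, (hordprod Q Bs).2]
    have hM1 : ((M - 1 : ℕ) : ℤ) = M - 1 := by omega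
    refine ⟨fun Q c hc => Or.inr ?_, fun Q hQ => Or.inr ?_⟩
    · have hQ : 0 ≤ Q.ord xb := (atLeast_iff hxb0).1 hc.atLeast
      have h1 := (atLeast_iff hΘb0).1 (hΘb.1 Q hQ)
      rw [hordΘ, hM1] at h1
      have hne : xb - algebraMap k Fk c ≠ 0 := fun h0 =>
        h.trans (by rw [sub_eq_zero.1 h0]; exact isAlgebraic_algebraMap _)
      have hpos := (atLeast_iff hne).1 hc
      have hsum : ∑ a ∈ Bs, ((M : ℤ) - 1) * Q.ord (xb - algebraMap k Fk (C.π a)) ≤
          ((M : ℤ) - 1) * Q.ord (xb - algebraMap k Fk c) := by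
        have hz : ∀ a ∈ Bs, C.π a ≠ c → Q.ord (xb - algebraMap k Fk (C.π a)) = 0 := fun a _ hne' =>
          ((hc.sub (hasValue_algebraMap Q (C.π a))).ord_eq_zero
            (sub_ne_zero.2 hne'.symm)).2
        by_cases hex : ∃ a ∈ Bs, C.π a = c
        · obtain ⟨a, ha, rfl⟩ := hex
          rw [Finset.sum_eq_single a (fun b hb hba => by
            rw [hz b hb (fun h' => hba (hinj hb ha h')), mul_zero]) (fun h' => absurd ha h')]
        · push Not at hex
          rw [Finset.sum_eq_zero fun a ha => by rw [hz a ha (hex a ha), mul_zero]]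
          exact mul_nonneg (by omega) (by omega)
      have hMpos : (0 : ℤ) < M := by omega
      by_contra hlt
      rw [not_le] at hlt
      nlinarith
    · have h1 := (atLeast_iff hΘb0).1 (hΘb.2 Q hQ)
      have hz : ∀ a ∈ Bs, ((M - 1 : ℕ) : ℤ) * Q.ord (xb - algebraMap k Fk (C.π a)) =
          ((M : ℤ) - 1) * Q.ord xb := fun a _ => by
        rw [hM1, sub_eq_add_neg xb, (ord_add_eq_left hxb0
          ((atLeast_algebraMap (C.π a)).neg.mono (by omega))).2]
      rw [hordΘ, Finset.sum_congr rfl hz, Finset.sum_const, nsmul_eq_mul] at h1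
      rw [show (Bs.card : ℤ) = s from rfl] at h1
      have hMpos : (0 : ℤ) < M := by omega
      by_contra hlt
      rw [not_le] at hlt
      nlinarith [hm']
  have := FA.Curve.card_le_genus hk h.trans r hlir fun i => (hmain i).isDual hk h.trans
  rw [Fintype.card_fin, finrank_span_eq_card hli, Fintype.card_fin] at this
  exact this

end FA.CurveRed.ConstRed
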